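/-
helper71, S25 (Jacobian exists), package P1 = "cohomology of two-chart data over an arbitrary ring".
INTERFACE FILE: definitions + the statements `Stmt_*` of the leaves.  Plan: NOTES/plan/S25.md.

A `Data A` is the elementary shadow of a quasi-coherent sheaf `N` on the projective line over `A`
(or on a curve with a finite map `x` to the projective line, pushed forward):
* `N0`  = sections on the chart `x ≠ ∞`, an `A`-module with the operator `X0` = multiplication by `x`;
* `N1`  = sections on the chart `x ≠ 0`, an `A`-module with the operator `Z1` = multiplication by `1/x`;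
* `N01` = sections on the overlap, where `x` acts by the automorphism `T`;
* `j0`, `j1` = the restriction maps.
`IsLoc` says that `N01` is the localisation of `N0` at `x` and of `N1` at `1/x`.
`H0 = {(a, b) | j0 a = j1 b}`, `H1 = N01 / (j0 N0 + j1 N1)` (Cech cohomology of the two charts).
No noetherian hypothesis anywhere.
-/
import Mathlib

set_option autoImplicit false

universe u

open Polynomial TensorProduct

namespace Fermat.Agent.S25.P1

/-- Two-chart module data over `A` (see the header). -/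
structure Data (A : Type u) [CommRing A] where
  N0 : Type u
  N1 : Type u
  N01 : Type u
  [ag0 : AddCommGroup N0]
  [ag1 : AddCommGroup N1]
  [ag01 : AddCommGroup N01]
  [mod0 : Module A N0]
  [mod1 : Module A N1]
  [mod01 : Module A N01]
  X0 : N0 →ₗ[A] N0
  Z1 : N1 →ₗ[A] N1
  T : N01 ≃ₗ[A] N01
  j0 : N0 →ₗ[A] N01
  j1 : N1 →ₗ[A] N01
  j0_X : ∀ n, j0 (X0 n) = T (j0 n)
  j1_Z : ∀ n, T (j1 (Z1 n)) = j1 n

attribute [instance] Data.ag0 Data.ag1 Data.ag01 Data.mod0 Data.mod1 Data.mod01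

variable {A : Type u} [CommRing A]

namespace Data

/-- `N01` is the localisation of `N0` at `x` and of `N1` at `1/x`. -/
structure IsLoc (N : Data A) : Prop where
  surj0 : ∀ m : N.N01, ∃ (k : ℕ) (n : N.N0), (N.T.toLinearMap ^ k) m = N.j0 n
  ker0 : ∀ n : N.N0, N.j0 n = 0 → ∃ k : ℕ, (N.X0 ^ k) n = 0
  surj1 : ∀ m : N.N01, ∃ (k : ℕ) (n : N.N1), (N.T.symm.toLinearMap ^ k) m = N.j1 n
  ker1 : ∀ n : N.N1, N.j1 n = 0 → ∃ k : ℕ, (N.Z1 ^ k) n = 0

/-- Global sections. -/
def H0 (N : Data A) : Submodule A (N.N0 × N.N1) :=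
  LinearMap.eqLocus (N.j0 ∘ₗ LinearMap.fst A N.N0 N.N1) (N.j1 ∘ₗ LinearMap.snd A N.N0 N.N1)

theorem mem_H0 (N : Data A) (p : N.N0 × N.N1) : p ∈ N.H0 ↔ N.j0 p.1 = N.j1 p.2 := Iff.rfl

/-- The image of `N0 ⊕ N1` in `N01`. -/
def B1 (N : Data A) : Submodule A N.N01 := LinearMap.range N.j0 ⊔ LinearMap.range N.j1

/-- First cohomology. -/
abbrev H1 (N : Data A) : Type u := N.N01 ⧸ N.B1

/-- `N0` is finitely generated as a module over `A[x]`. -/
def FG0 (N : Data A) : Prop :=
  ∃ S : Finset N.N0, Submodule.span A {y | ∃ (k : ℕ) (s : N.N0), s ∈ S ∧ y = (N.X0 ^ k) s} = ⊤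

/-- `N1` is finitely generated as a module over `A[1/x]`. -/
def FG1 (N : Data A) : Prop :=
  ∃ S : Finset N.N1, Submodule.span A {y | ∃ (k : ℕ) (s : N.N1), s ∈ S ∧ y = (N.Z1 ^ k) s} = ⊤

/-- `N0` is a finitely generated projective `A[x]`-module (a direct summand of `A[x]^r`). -/
def Proj0 (N : Data A) : Prop :=
  ∃ (r : ℕ) (i : N.N0 →ₗ[A] (Fin r → A[X])) (p : (Fin r → A[X]) →ₗ[A] N.N0),
    (∀ n, p (i n) = n) ∧ (∀ n, i (N.X0 n) = (X : A[X]) • i n) ∧
      (∀ v, p ((X : A[X]) • v) = N.X0 (p v))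

/-- `N1` is a finitely generated projective `A[1/x]`-module. -/
def Proj1 (N : Data A) : Prop :=
  ∃ (r : ℕ) (i : N.N1 →ₗ[A] (Fin r → A[X])) (p : (Fin r → A[X]) →ₗ[A] N.N1),
    (∀ n, p (i n) = n) ∧ (∀ n, i (N.Z1 n) = (X : A[X]) • i n) ∧
      (∀ v, p ((X : A[X]) • v) = N.Z1 (p v))

/-- A vector bundle: localising data with both charts finitely generated projective. -/
structure IsVB (N : Data A) : Prop where
  loc : N.IsLoc
  proj0 : N.Proj0
  proj1 : N.Proj1

/-- The twist `N(n)`: the same charts, glued by `x^n` (for the structure sheaf this is `O(n)`: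
`H0 = {(p, q) | p(x) = x^n q(1/x)}` = polynomials of degree `≤ n`). -/
def twist (N : Data A) (n : ℤ) : Data A where
  N0 := N.N0
  N1 := N.N1
  N01 := N.N01
  X0 := N.X0
  Z1 := N.Z1
  T := N.T
  j0 := N.j0
  j1 := (N.T ^ n).toLinearMap ∘ₗ N.j1
  j0_X := N.j0_X
  j1_Z := fun m => by
    have h : N.T * N.T ^ n = N.T ^ n * N.T := by
      rw [← zpow_one_add, ← zpow_add_one, add_comm]
    have h2 := congrArg (fun e : N.N01 ≃ₗ[A] N.N01 => e (N.j1 (N.Z1 m))) h
    simp only [LinearEquiv.mul_apply] at h2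
    simp only [LinearMap.comp_apply, LinearEquiv.coe_coe]
    rw [h2, N.j1_Z]

/-- Base change of two-chart data along `A → A'`. -/
def baseChange (A' : Type u) [CommRing A'] [Algebra A A'] (N : Data A) : Data A' where
  N0 := A' ⊗[A] N.N0
  N1 := A' ⊗[A] N.N1
  N01 := A' ⊗[A] N.N01
  X0 := N.X0.baseChange A'
  Z1 := N.Z1.baseChange A'
  T := LinearEquiv.baseChange A A' _ _ N.T
  j0 := N.j0.baseChange A'
  j1 := N.j1.baseChange A'
  j0_X := fun n => by
    induction n using TensorProduct.induction_on with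
    | zero => simp
    | tmul a m => simp [N.j0_X]
    | add x y hx hy => simp only [map_add, hx, hy]
  j1_Z := fun n => by
    induction n using TensorProduct.induction_on with
    | zero => simp
    | tmul a m => simp [N.j1_Z]
    | add x y hx hy => simp only [map_add, hx, hy]

/-- Morphisms of two-chart data. -/
structure Hom (N N' : Data A) where
  f0 : N.N0 →ₗ[A] N'.N0
  f1 : N.N1 →ₗ[A] N'.N1
  f01 : N.N01 →ₗ[A] N'.N01
  f0_X : ∀ n, f0 (N.X0 n) = N'.X0 (f0 n)
  f1_Z : ∀ n, f1 (N.Z1 n) = N'.Z1 (f1 n)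
  f01_T : ∀ m, f01 (N.T m) = N'.T (f01 m)
  f_j0 : ∀ n, f01 (N.j0 n) = N'.j0 (f0 n)
  f_j1 : ∀ n, f01 (N.j1 n) = N'.j1 (f1 n)

/-- The map induced on `H0`. -/
def Hom.mapH0 {N N' : Data A} (f : Hom N N') : N.H0 →ₗ[A] N'.H0 :=
  ((f.f0.prodMap f.f1).comp N.H0.subtype).codRestrict N'.H0 (fun p => by
    have hp : N.j0 p.1.1 = N.j1 p.1.2 := p.2
    change N'.j0 (f.f0 p.1.1) = N'.j1 (f.f1 p.1.2)
    rw [← f.f_j0, ← f.f_j1, hp])

/-- The map induced on `H1`. -/
def Hom.mapH1 {N N' : Data A} (f : Hom N N') : N.H1 →ₗ[A] N'.H1 :=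
  Submodule.mapQ N.B1 N'.B1 f.f01 (by
    rintro m hm
    rw [Submodule.mem_comap]
    obtain ⟨a, ⟨n0, rfl⟩, b, ⟨n1, rfl⟩, rfl⟩ := Submodule.mem_sup.mp hm
    rw [map_add, f.f_j0, f.f_j1]
    exact Submodule.add_mem _ (Submodule.mem_sup_left ⟨_, rfl⟩) (Submodule.mem_sup_right ⟨_, rfl⟩))

/-- A short exact sequence `0 → N' → N → N'' → 0` of two-chart data (exact on each chart). -/
structure ShortExact {N' N N'' : Data A} (f : Hom N' N) (g : Hom N N'') : Prop where
  inj0 : Function.Injective f.f0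
  inj1 : Function.Injective f.f1
  inj01 : Function.Injective f.f01
  ex0 : Function.Exact f.f0 g.f0
  ex1 : Function.Exact f.f1 g.f1
  ex01 : Function.Exact f.f01 g.f01
  surj0 : Function.Surjective g.f0
  surj1 : Function.Surjective g.f1
  surj01 : Function.Surjective g.f01

end Data

/-! ## The leaves of package P1 -/

/-- **P1-FG** (KEY 1): `H1` is a finitely generated `A`-module.
Proof: `N01` is spanned by `T^e (j0 s_i)`, `e ∈ ℤ`; these lie in `j0 N0` for `e ≥ 0` and in `j1 N1` for `e ≤ -k_i`. -/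
def Stmt_FG : Prop :=
  ∀ (A : Type u) [CommRing A] (N : Data A), N.IsLoc → N.FG0 → Module.Finite A N.H1

/-- **P1-VAN** (KEY 2): `H1 (N(n)) = 0` for `n ≫ 0`. -/
def Stmt_VAN : Prop :=
  ∀ (A : Type u) [CommRing A] (N : Data A), N.IsLoc → N.FG0 →
    ∃ n0 : ℤ, ∀ n : ℤ, n0 ≤ n → Subsingleton (N.twist n).H1

/-- **P1-TW**: twists and base changes of localising / projective data are again such. -/
def Stmt_TW : Prop :=
  ∀ (A : Type u) [CommRing A] (N : Data A),
    (N.IsLoc → ∀ n : ℤ, (N.twist n).IsLoc) ∧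
    (N.IsVB → ∀ n : ℤ, (N.twist n).IsVB) ∧
    (N.IsLoc → ∀ (A' : Type u) [CommRing A'] [Algebra A A'], (N.baseChange A').IsLoc) ∧
    (N.IsVB → ∀ (A' : Type u) [CommRing A'] [Algebra A A'], (N.baseChange A').IsVB)

/-- **P1-BC1**: `H1` commutes with every base change. -/
def Stmt_BC1 : Prop :=
  ∀ (A : Type u) [CommRing A] (N : Data A) (A' : Type u) [CommRing A'] [Algebra A A'],
    ∃ e : A' ⊗[A] N.H1 ≃ₗ[A'] (N.baseChange A').H1,
      ∀ (a : A') (m : N.N01),
        e (a ⊗ₜ[A] (Submodule.Quotient.mk m : N.H1)) = Submodule.Quotient.mk (a ⊗ₜ[A] m)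

/-- **P1-LES**: the long exact cohomology sequence of a short exact sequence:
there is a connecting map `δ : H0 N'' → H1 N'` making
`0 → H0 N' → H0 N → H0 N'' → H1 N' → H1 N → H1 N'' → 0` exact. -/
def Stmt_LES : Prop :=
  ∀ (A : Type u) [CommRing A] (N' N N'' : Data A) (f : Data.Hom N' N) (g : Data.Hom N N''),
    Data.ShortExact f g →
    ∃ δ : N''.H0 →ₗ[A] N'.H1,
      Function.Injective f.mapH0 ∧ Function.Exact f.mapH0 g.mapH0 ∧ Function.Exact g.mapH0 δ ∧
      Function.Exact δ f.mapH1 ∧ Function.Exact f.mapH1 g.mapH1 ∧ Function.Surjective g.mapH1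

/-- **P1-H0** (KEY 3): for a vector bundle with `H1 = 0`, `H0` is finitely generated projective. -/
def Stmt_H0PROJ : Prop :=
  ∀ (A : Type u) [CommRing A] (N : Data A), N.IsVB → Subsingleton N.H1 →
    Module.Finite A N.H0 ∧ Module.Projective A N.H0

/-- **P1-H1FP**: for a vector bundle, `H1` is a finitely presented `A`-module. -/
def Stmt_H1FP : Prop :=
  ∀ (A : Type u) [CommRing A] (N : Data A), N.IsVB → Module.FinitePresentation A N.H1

/-- **P1-BC0** (KEY 3): for a vector bundle with `H1 = 0`, `H0` commutes with every base change. -/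
def Stmt_BC0 : Prop :=
  ∀ (A : Type u) [CommRing A] (N : Data A), N.IsVB → Subsingleton N.H1 →
    ∀ (A' : Type u) [CommRing A'] [Algebra A A'],
      ∃ e : A' ⊗[A] N.H0 ≃ₗ[A'] (N.baseChange A').H0,
        ∀ (a : A') (h : N.H0),
          (e (a ⊗ₜ[A] h)).1 = (a ⊗ₜ[A] h.1.1, a ⊗ₜ[A] h.1.2)

/-- **P1-CPX** (KEY 4): a two-term complex `d : K0 → K1` of finitely generated projective `A`-modules
computing `H0` and `H1` of `N` after every base change (`K0 = H0 (N(m))`, `K1 = N1 / z^m N1`, `m ≫ 0`). -/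
def Stmt_CPX : Prop :=
  ∀ (A : Type u) [CommRing A] (N : Data A), N.IsVB →
    ∃ (K0 K1 : Type u) (_ : AddCommGroup K0) (_ : AddCommGroup K1) (_ : Module A K0)
      (_ : Module A K1) (_ : Module.Finite A K0) (_ : Module.Projective A K0)
      (_ : Module.Finite A K1) (_ : Module.Projective A K1) (d : K0 →ₗ[A] K1),
      ∀ (A' : Type u) [CommRing A'] [Algebra A A'],
        Nonempty (LinearMap.ker (d.baseChange A') ≃ₗ[A'] (N.baseChange A').H0) ∧
        Nonempty (((A' ⊗[A] K1) ⧸ LinearMap.range (d.baseChange A')) ≃ₗ[A']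
          (N.baseChange A').H1)

end Fermat.Agent.S25.P1
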