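/-
helper71, S25 package P1, part C: the FIBREWISE consequences ("cohomology and base change" for two-chart data).
Interface file, Mathlib only.  All of them follow from `Stmt_CPX` (two-term complex) + the abstract facts on two-term
complexes of finitely generated projective modules (helper44, S25/P1/H44_Cpx.lean) + `Stmt_BC1`, `Stmt_H0PROJ`, `Stmt_BC0`.
-/
import Fermat.Agent.S25.P1.Defs

set_option autoImplicit false

universe u

open Polynomial TensorProduct

namespace Fermat.Agent.S25.P1

variable {A : Type u} [CommRing A]

/-- The fibre of two-chart data at a prime `p` (base change to the residue field). -/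
noncomputable abbrev Data.fibre (N : Data A) (p : PrimeSpectrum A) : Data p.asIdeal.ResidueField :=
  N.baseChange p.asIdeal.ResidueField

/-- `h0` of the fibre at `p`. -/
noncomputable def Data.h0At (N : Data A) (p : PrimeSpectrum A) : ℕ :=
  Module.finrank p.asIdeal.ResidueField (N.fibre p).H0

/-- `h1` of the fibre at `p`. -/
noncomputable def Data.h1At (N : Data A) (p : PrimeSpectrum A) : ℕ :=
  Module.finrank p.asIdeal.ResidueField (N.fibre p).H1

/-- **P1-FIBFIN**: the cohomology of the fibres of a vector bundle is finite-dimensional. -/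
def Stmt_FIBFIN : Prop :=
  ∀ (A : Type u) [CommRing A] (N : Data A), N.IsVB → ∀ p : PrimeSpectrum A,
    Module.Finite p.asIdeal.ResidueField (N.fibre p).H0 ∧
    Module.Finite p.asIdeal.ResidueField (N.fibre p).H1

/-- **P1-NAK**: if `H1` of the fibre at `p` vanishes, then `H1` vanishes over a principal open neighbourhood of `p`. -/
def Stmt_NAK : Prop :=
  ∀ (A : Type u) [CommRing A] (N : Data A), N.IsVB → ∀ p : PrimeSpectrum A,
    Subsingleton (N.fibre p).H1 →
    ∃ f : A, f ∉ p.asIdeal ∧ Subsingleton (N.baseChange (Localization.Away f)).H1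

/-- **P1-RANK**: if `H1 N = 0` (so `H0 N` is finitely generated projective and commutes with base change), then the
rank of `H0 N` at `p` is `h0At N p`, and `h1At N p = 0`. -/
def Stmt_RANK : Prop :=
  ∀ (A : Type u) [CommRing A] (N : Data A), N.IsVB → Subsingleton N.H1 → ∀ p : PrimeSpectrum A,
    N.h1At p = 0 ∧
    Module.finrank p.asIdeal.ResidueField (p.asIdeal.ResidueField ⊗[A] N.H0) = N.h0At p

/-- **P1-CHI**: the Euler characteristic of the fibres of a vector bundle is locally constant. -/
def Stmt_CHI : Prop :=
  ∀ (A : Type u) [CommRing A] (N : Data A), N.IsVB →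
    IsLocallyConstant (fun p : PrimeSpectrum A => (N.h0At p : ℤ) - (N.h1At p : ℤ))

/-- **P1-SEMI**: `h0` and `h1` of the fibres are upper semicontinuous. -/
def Stmt_SEMI : Prop :=
  ∀ (A : Type u) [CommRing A] (N : Data A), N.IsVB → ∀ c : ℕ,
    IsClosed {p : PrimeSpectrum A | c ≤ N.h0At p} ∧ IsClosed {p : PrimeSpectrum A | c ≤ N.h1At p}

/-- **P1-FIELDEXT**: `h0`, `h1` of a vector bundle over a field do not change under a field extension
(so the fibre numbers at a point of `Spec A'` over `p` are those at `p`). -/
def Stmt_FIELDEXT : Prop :=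
  ∀ (K : Type u) [Field K] (N : Data K), N.IsVB → ∀ (K' : Type u) [Field K'] [Algebra K K'],
    Module.finrank K' (N.baseChange K').H0 = Module.finrank K N.H0 ∧
    Module.finrank K' (N.baseChange K').H1 = Module.finrank K N.H1

end Fermat.Agent.S25.P1
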