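/-
helper71, S25 package P1, part D: transitivity of base change and compatibility of twist with base change
(up to `Data.Iso`).  Interface file.
-/
import Fermat.Agent.S25.LB.DefsB

set_option autoImplicit false

universe u

open Polynomial TensorProduct

namespace Fermat.Agent.S25.P1

/-- **P1-BCTRANS**: `(N ⊗_A A') ⊗_A' A'' ≅ N ⊗_A A''`, and `N ⊗_A A ≅ N`. -/
def Stmt_BCTRANS : Prop :=
  ∀ (A : Type u) [CommRing A] (N : Data A),
    Nonempty (Data.Iso (N.baseChange A) N) ∧
    ∀ (A' A'' : Type u) [CommRing A'] [CommRing A''] [Algebra A A'] [Algebra A' A''] [Algebra A A'']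
      [IsScalarTower A A' A''],
      Nonempty (Data.Iso ((N.baseChange A').baseChange A'') (N.baseChange A''))

/-- **P1-BCTW**: twist commutes with base change. -/
def Stmt_BCTW : Prop :=
  ∀ (A : Type u) [CommRing A] (N : Data A) (n : ℤ) (A' : Type u) [CommRing A'] [Algebra A A'],
    Nonempty (Data.Iso ((N.twist n).baseChange A') ((N.baseChange A').twist n))

/-- **P1-ISO**: isomorphic data have isomorphic cohomology. -/
def Stmt_ISO : Prop :=
  ∀ (A : Type u) [CommRing A] (N N' : Data A), Data.Iso N N' →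
    Nonempty (N.H0 ≃ₗ[A] N'.H0) ∧ Nonempty (N.H1 ≃ₗ[A] N'.H1) ∧
    (N.IsLoc → N'.IsLoc) ∧ (N.IsVB → N'.IsVB)

end Fermat.Agent.S25.P1
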