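import Mathlib
import Fermat.Agent.S25.P1.DefsD

/-!
# S25, package P1, leaf ISO (helper45)

Isomorphic two-chart data have isomorphic cohomology, and `IsLoc`, `IsVB` are invariant under
isomorphism.

* `h0Equiv E : N.H0 ≃ₗ[A] N'.H0`, `h1Equiv E : N.H1 ≃ₗ[A] N'.H1`;
* `isLoc_of_iso`, `proj0_of_iso`, `proj1_of_iso`, `isVB_of_iso`;
* `Data.Iso` is an equivalence relation: `isoRefl`, `isoSymm`, `isoTrans`;
* `stmt_ISO : Stmt_ISO`.

Complete proofs, standard axioms only.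
-/

set_option autoImplicit false

universe u

open Polynomial TensorProduct

namespace Fermat.Agent.S25.P1.H45

open Fermat.Agent.S25.P1

variable {A : Type u} [CommRing A] {N N' N'' : Data A}

/-- The identity isomorphism. -/
def isoRefl (N : Data A) : Data.Iso N N where
  e0 := LinearEquiv.refl A _
  e1 := LinearEquiv.refl A _
  e01 := LinearEquiv.refl A _
  e0_X := fun _ => rfl
  e1_Z := fun _ => rfl
  e01_T := fun _ => rfl
  e_j0 := fun _ => rfl
  e_j1 := fun _ => rfl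

/-- The inverse isomorphism. -/
def isoSymm (E : Data.Iso N N') : Data.Iso N' N where
  e0 := E.e0.symm
  e1 := E.e1.symm
  e01 := E.e01.symm
  e0_X := fun n => by
    rw [LinearEquiv.symm_apply_eq, E.e0_X, LinearEquiv.apply_symm_apply]
  e1_Z := fun n => by
    rw [LinearEquiv.symm_apply_eq, E.e1_Z, LinearEquiv.apply_symm_apply]
  e01_T := fun m => by
    rw [LinearEquiv.symm_apply_eq, E.e01_T, LinearEquiv.apply_symm_apply]
  e_j0 := fun n => by
    rw [LinearEquiv.symm_apply_eq, E.e_j0, LinearEquiv.apply_symm_apply]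
  e_j1 := fun n => by
    rw [LinearEquiv.symm_apply_eq, E.e_j1, LinearEquiv.apply_symm_apply]

/-- The composition of isomorphisms. -/
def isoTrans (E : Data.Iso N N') (E' : Data.Iso N' N'') : Data.Iso N N'' where
  e0 := E.e0.trans E'.e0
  e1 := E.e1.trans E'.e1
  e01 := E.e01.trans E'.e01
  e0_X := fun n => by simp only [LinearEquiv.trans_apply, E.e0_X, E'.e0_X]
  e1_Z := fun n => by simp only [LinearEquiv.trans_apply, E.e1_Z, E'.e1_Z]
  e01_T := fun m => by simp only [LinearEquiv.trans_apply, E.e01_T, E'.e01_T]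
  e_j0 := fun n => by simp only [LinearEquiv.trans_apply, E.e_j0, E'.e_j0]
  e_j1 := fun n => by simp only [LinearEquiv.trans_apply, E.e_j1, E'.e_j1]

theorem iso_mem_H0 (E : Data.Iso N N') (x : N.N0 × N.N1) (hx : x ∈ N.H0) :
    (E.e0 x.1, E.e1 x.2) ∈ N'.H0 := by
  have hx' : N.j0 x.1 = N.j1 x.2 := hx
  change N'.j0 (E.e0 x.1) = N'.j1 (E.e1 x.2)
  rw [← E.e_j0, ← E.e_j1, hx']

/-- The isomorphism on `H0`. -/
def h0Equiv (E : Data.Iso N N') : N.H0 ≃ₗ[A] N'.H0 where
  toFun := fun x => ⟨(E.e0 x.1.1, E.e1 x.1.2), iso_mem_H0 E x.1 x.2⟩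
  invFun := fun y => ⟨((isoSymm E).e0 y.1.1, (isoSymm E).e1 y.1.2), iso_mem_H0 (isoSymm E) y.1 y.2⟩
  map_add' := fun x y => by
    apply Subtype.ext
    simp
  map_smul' := fun a x => by
    apply Subtype.ext
    simp
  left_inv := fun x => by
    apply Subtype.ext
    simp [isoSymm]
  right_inv := fun y => by
    apply Subtype.ext
    simp [isoSymm]

@[simp] theorem h0Equiv_apply_fst (E : Data.Iso N N') (x : N.H0) :
    ((h0Equiv E x : N'.H0) : N'.N0 × N'.N1).1 = E.e0 x.1.1 := rfl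

@[simp] theorem h0Equiv_apply_snd (E : Data.Iso N N') (x : N.H0) :
    ((h0Equiv E x : N'.H0) : N'.N0 × N'.N1).2 = E.e1 x.1.2 := rfl

theorem map_B1 (E : Data.Iso N N') : N.B1.map (E.e01 : N.N01 →ₗ[A] N'.N01) = N'.B1 := by
  apply le_antisymm
  · rintro _ ⟨m, hm, rfl⟩
    obtain ⟨a, ⟨n0, rfl⟩, b, ⟨n1, rfl⟩, rfl⟩ := Submodule.mem_sup.mp hm
    change E.e01 (N.j0 n0 + N.j1 n1) ∈ N'.B1
    rw [map_add, E.e_j0, E.e_j1]
    exact Submodule.add_mem _ (Submodule.mem_sup_left ⟨_, rfl⟩) (Submodule.mem_sup_right ⟨_, rfl⟩)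
  · intro m hm
    obtain ⟨a, ⟨n0, rfl⟩, b, ⟨n1, rfl⟩, rfl⟩ := Submodule.mem_sup.mp hm
    refine ⟨N.j0 (E.e0.symm n0) + N.j1 (E.e1.symm n1), ?_, ?_⟩
    · exact Submodule.add_mem _ (Submodule.mem_sup_left ⟨_, rfl⟩)
        (Submodule.mem_sup_right ⟨_, rfl⟩)
    · change E.e01 (N.j0 (E.e0.symm n0) + N.j1 (E.e1.symm n1)) = _
      rw [map_add, E.e_j0, E.e_j1, LinearEquiv.apply_symm_apply, LinearEquiv.apply_symm_apply]

/-- The isomorphism on `H1`. -/
noncomputable def h1Equiv (E : Data.Iso N N') : N.H1 ≃ₗ[A] N'.H1 :=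
  Submodule.Quotient.equiv N.B1 N'.B1 E.e01 (map_B1 E)

@[simp] theorem h1Equiv_mk (E : Data.Iso N N') (m : N.N01) :
    h1Equiv E (Submodule.Quotient.mk m : N.H1) = Submodule.Quotient.mk (E.e01 m) := rfl

theorem e0_pow (E : Data.Iso N N') (k : ℕ) (n : N.N0) :
    E.e0 ((N.X0 ^ k) n) = (N'.X0 ^ k) (E.e0 n) := by
  induction k generalizing n with
  | zero => simp
  | succ k ih => rw [pow_succ, Module.End.mul_apply, ih, E.e0_X, pow_succ, Module.End.mul_apply]

theorem e1_pow (E : Data.Iso N N') (k : ℕ) (n : N.N1) :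
    E.e1 ((N.Z1 ^ k) n) = (N'.Z1 ^ k) (E.e1 n) := by
  induction k generalizing n with
  | zero => simp
  | succ k ih => rw [pow_succ, Module.End.mul_apply, ih, E.e1_Z, pow_succ, Module.End.mul_apply]

theorem e01_pow (E : Data.Iso N N') (k : ℕ) (m : N.N01) :
    E.e01 ((N.T.toLinearMap ^ k) m) = (N'.T.toLinearMap ^ k) (E.e01 m) := by
  induction k generalizing m with
  | zero => simp
  | succ k ih =>
    rw [pow_succ, Module.End.mul_apply, ih, LinearEquiv.coe_coe, E.e01_T, pow_succ,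
      Module.End.mul_apply, LinearEquiv.coe_coe]

theorem e01_symm_T (E : Data.Iso N N') (m : N.N01) :
    E.e01 (N.T.symm m) = N'.T.symm (E.e01 m) := by
  rw [LinearEquiv.eq_symm_apply, ← E.e01_T, LinearEquiv.apply_symm_apply]

theorem e01_symm_pow (E : Data.Iso N N') (k : ℕ) (m : N.N01) :
    E.e01 ((N.T.symm.toLinearMap ^ k) m) = (N'.T.symm.toLinearMap ^ k) (E.e01 m) := by
  induction k generalizing m with
  | zero => simp
  | succ k ih =>
    rw [pow_succ, Module.End.mul_apply, ih, LinearEquiv.coe_coe, e01_symm_T, pow_succ,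
      Module.End.mul_apply, LinearEquiv.coe_coe]

/-- `IsLoc` is invariant under isomorphism. -/
theorem isLoc_of_iso (E : Data.Iso N N') (h : N.IsLoc) : N'.IsLoc where
  surj0 := fun m => by
    obtain ⟨k, n, hk⟩ := h.surj0 (E.e01.symm m)
    refine ⟨k, E.e0 n, ?_⟩
    rw [← E.e_j0, ← hk, e01_pow, LinearEquiv.apply_symm_apply]
  ker0 := fun n hn => by
    have h1 : N.j0 (E.e0.symm n) = 0 := by
      apply E.e01.injective
      rw [E.e_j0, LinearEquiv.apply_symm_apply, hn, map_zero]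
    obtain ⟨k, hk⟩ := h.ker0 _ h1
    refine ⟨k, ?_⟩
    have := e0_pow E k (E.e0.symm n)
    rw [hk, map_zero, LinearEquiv.apply_symm_apply] at this
    exact this.symm
  surj1 := fun m => by
    obtain ⟨k, n, hk⟩ := h.surj1 (E.e01.symm m)
    refine ⟨k, E.e1 n, ?_⟩
    rw [← E.e_j1, ← hk, e01_symm_pow, LinearEquiv.apply_symm_apply]
  ker1 := fun n hn => by
    have h1 : N.j1 (E.e1.symm n) = 0 := by
      apply E.e01.injective
      rw [E.e_j1, LinearEquiv.apply_symm_apply, hn, map_zero]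
    obtain ⟨k, hk⟩ := h.ker1 _ h1
    refine ⟨k, ?_⟩
    have := e1_pow E k (E.e1.symm n)
    rw [hk, map_zero, LinearEquiv.apply_symm_apply] at this
    exact this.symm

/-- `Proj0` is invariant under isomorphism. -/
theorem proj0_of_iso (E : Data.Iso N N') (h : N.Proj0) : N'.Proj0 := by
  obtain ⟨r, i, p, hpi, hiX, hpX⟩ := h
  refine ⟨r, i ∘ₗ (E.e0.symm : N'.N0 →ₗ[A] N.N0), (E.e0 : N.N0 →ₗ[A] N'.N0) ∘ₗ p, ?_, ?_, ?_⟩
  · intro n
    simp only [LinearMap.comp_apply, LinearEquiv.coe_coe, hpi, LinearEquiv.apply_symm_apply]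
  · intro n
    simp only [LinearMap.comp_apply, LinearEquiv.coe_coe]
    rw [← hiX]
    exact congrArg i ((isoSymm E).e0_X n)
  · intro v
    simp only [LinearMap.comp_apply, LinearEquiv.coe_coe]
    rw [hpX, E.e0_X]

/-- `Proj1` is invariant under isomorphism. -/
theorem proj1_of_iso (E : Data.Iso N N') (h : N.Proj1) : N'.Proj1 := by
  obtain ⟨r, i, p, hpi, hiX, hpX⟩ := h
  refine ⟨r, i ∘ₗ (E.e1.symm : N'.N1 →ₗ[A] N.N1), (E.e1 : N.N1 →ₗ[A] N'.N1) ∘ₗ p, ?_, ?_, ?_⟩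
  · intro n
    simp only [LinearMap.comp_apply, LinearEquiv.coe_coe, hpi, LinearEquiv.apply_symm_apply]
  · intro n
    simp only [LinearMap.comp_apply, LinearEquiv.coe_coe]
    rw [← hiX]
    exact congrArg i ((isoSymm E).e1_Z n)
  · intro v
    simp only [LinearMap.comp_apply, LinearEquiv.coe_coe]
    rw [hpX, E.e1_Z]

/-- `IsVB` is invariant under isomorphism. -/
theorem isVB_of_iso (E : Data.Iso N N') (h : N.IsVB) : N'.IsVB where
  loc := isLoc_of_iso E h.loc
  proj0 := proj0_of_iso E h.proj0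
  proj1 := proj1_of_iso E h.proj1

/-- **P1-ISO**. -/
theorem stmt_ISO : Stmt_ISO.{u} := by
  intro A _ N N' E
  exact ⟨⟨h0Equiv E⟩, ⟨h1Equiv E⟩, isLoc_of_iso E, isVB_of_iso E⟩

end Fermat.Agent.S25.P1.H45
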