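/-
helper54, S25 package P1, part D: transitivity of base change (`Stmt_BCTRANS`) and compatibility of
twist with base change (`Stmt_BCTW`), up to `Data.Iso`.
-/
import Fermat.Agent.S25.P1.DefsD

set_option autoImplicit false

universe u

open Polynomial TensorProduct

namespace Fermat.Agent.S25.P1.H54

open Fermat.Agent.S25.P1

variable {A : Type u} [CommRing A]

/-! ### `A ⊗[A] N ≅ N` -/

section lid

variable {M M' : Type u} [AddCommGroup M] [AddCommGroup M'] [Module A M] [Module A M']

theorem lid_comp_baseChange (f : M →ₗ[A] M') :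
    (TensorProduct.lid A M').toLinearMap ∘ₗ (f.baseChange A) =
      f ∘ₗ (TensorProduct.lid A M).toLinearMap := by
  ext m
  simp

theorem lid_baseChange_apply (f : M →ₗ[A] M') (x : A ⊗[A] M) :
    TensorProduct.lid A M' (f.baseChange A x) = f (TensorProduct.lid A M x) :=
  LinearMap.congr_fun (lid_comp_baseChange f) x

end lid

/-- The isomorphism `N ⊗_A A ≅ N` of two-chart data. -/
noncomputable def isoLid (N : Data A) : Data.Iso (N.baseChange A) N where
  e0 := TensorProduct.lid A N.N0
  e1 := TensorProduct.lid A N.N1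
  e01 := TensorProduct.lid A N.N01
  e0_X := fun n => lid_baseChange_apply N.X0 n
  e1_Z := fun n => lid_baseChange_apply N.Z1 n
  e01_T := fun n => lid_baseChange_apply N.T.toLinearMap n
  e_j0 := fun n => lid_baseChange_apply N.j0 n
  e_j1 := fun n => lid_baseChange_apply N.j1 n

/-! ### `A'' ⊗[A'] (A' ⊗[A] N) ≅ A'' ⊗[A] N` -/

section cancel

variable (A' A'' : Type u) [CommRing A'] [CommRing A''] [Algebra A A'] [Algebra A' A'']
  [Algebra A A''] [IsScalarTower A A' A'']
variable {M M' : Type u} [AddCommGroup M] [AddCommGroup M'] [Module A M] [Module A M']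

/-- The cancellation isomorphism, as an `A''`-linear equivalence. -/
noncomputable def cancelE (M : Type u) [AddCommGroup M] [Module A M] :
    A'' ⊗[A'] (A' ⊗[A] M) ≃ₗ[A''] A'' ⊗[A] M :=
  TensorProduct.AlgebraTensorModule.cancelBaseChange A A' A'' A'' M

theorem cancelE_tmul (c : A'') (a : A') (m : M) :
    cancelE (A := A) A' A'' M (c ⊗ₜ[A'] (a ⊗ₜ[A] m)) = (a • c) ⊗ₜ[A] m := rfl

theorem cancelE_comp_baseChange (f : M →ₗ[A] M') :
    (cancelE (A := A) A' A'' M').toLinearMap ∘ₗ ((f.baseChange A').baseChange A'') =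
      (f.baseChange A'') ∘ₗ (cancelE (A := A) A' A'' M).toLinearMap := by
  apply LinearMap.ext
  intro x
  induction x using TensorProduct.induction_on with
  | zero => simp only [map_zero]
  | tmul c y =>
    induction y using TensorProduct.induction_on with
    | zero => simp only [tmul_zero, map_zero]
    | tmul a m =>
      simp only [LinearMap.comp_apply, LinearEquiv.coe_coe, LinearMap.baseChange_tmul,
        cancelE_tmul]
    | add y z hy hz => simp only [tmul_add, map_add, hy, hz]
  | add x y hx hy => simp only [map_add, hx, hy]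

theorem cancelE_baseChange_apply (f : M →ₗ[A] M') (x : A'' ⊗[A'] (A' ⊗[A] M)) :
    cancelE (A := A) A' A'' M' ((f.baseChange A').baseChange A'' x) =
      f.baseChange A'' (cancelE (A := A) A' A'' M x) :=
  LinearMap.congr_fun (cancelE_comp_baseChange A' A'' f) x

end cancel

/-- The isomorphism `(N ⊗_A A') ⊗_A' A'' ≅ N ⊗_A A''` of two-chart data. -/
noncomputable def isoCancel (N : Data A) (A' A'' : Type u) [CommRing A'] [CommRing A'']
    [Algebra A A'] [Algebra A' A''] [Algebra A A''] [IsScalarTower A A' A''] :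
    Data.Iso ((N.baseChange A').baseChange A'') (N.baseChange A'') where
  e0 := cancelE (A := A) A' A'' N.N0
  e1 := cancelE (A := A) A' A'' N.N1
  e01 := cancelE (A := A) A' A'' N.N01
  e0_X := fun n => cancelE_baseChange_apply A' A'' N.X0 n
  e1_Z := fun n => cancelE_baseChange_apply A' A'' N.Z1 n
  e01_T := fun n => cancelE_baseChange_apply A' A'' N.T.toLinearMap n
  e_j0 := fun n => cancelE_baseChange_apply A' A'' N.j0 n
  e_j1 := fun n => cancelE_baseChange_apply A' A'' N.j1 n

/-- **P1-BCTRANS**. -/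
theorem stmt_BCTRANS : Stmt_BCTRANS.{u} := by
  intro A _ N
  exact ⟨⟨isoLid N⟩, fun A' A'' _ _ _ _ _ _ => ⟨isoCancel N A' A''⟩⟩

/-! ### twist and base change -/

section tw

variable (A' : Type u) [CommRing A'] [Algebra A A']
variable {M M' : Type u} [AddCommGroup M] [AddCommGroup M'] [Module A M] [Module A M']

theorem baseChange_zpow_comp (T : M ≃ₗ[A] M) (j : M' →ₗ[A] M) (n : ℤ) :
    ((T ^ n).toLinearMap ∘ₗ j).baseChange A' =
      ((LinearEquiv.baseChange A A' M M T) ^ n).toLinearMap ∘ₗ (j.baseChange A') := by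
  rw [← LinearEquiv.baseChange_zpow, LinearMap.baseChange_comp]
  rfl

theorem baseChange_zpow_comp_apply (T : M ≃ₗ[A] M) (j : M' →ₗ[A] M) (n : ℤ) (x : A' ⊗[A] M') :
    ((T ^ n).toLinearMap ∘ₗ j).baseChange A' x =
      ((LinearEquiv.baseChange A A' M M T) ^ n) (j.baseChange A' x) :=
  LinearMap.congr_fun (baseChange_zpow_comp A' T j n) x

end tw

/-- The isomorphism `N(n) ⊗_A A' ≅ (N ⊗_A A')(n)` of two-chart data (the identity on all charts). -/
noncomputable def isoTwistBc (N : Data A) (n : ℤ) (A' : Type u) [CommRing A'] [Algebra A A'] :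
    Data.Iso ((N.twist n).baseChange A') ((N.baseChange A').twist n) where
  e0 := LinearEquiv.refl A' (A' ⊗[A] N.N0)
  e1 := LinearEquiv.refl A' (A' ⊗[A] N.N1)
  e01 := LinearEquiv.refl A' (A' ⊗[A] N.N01)
  e0_X := fun _ => rfl
  e1_Z := fun _ => rfl
  e01_T := fun _ => rfl
  e_j0 := fun _ => rfl
  e_j1 := fun x => baseChange_zpow_comp_apply A' N.T N.j1 n x

/-- **P1-BCTW**. -/
theorem stmt_BCTW : Stmt_BCTW.{u} := by
  intro A _ N n A' _ _
  exact ⟨isoTwistBc N n A'⟩

end Fermat.Agent.S25.P1.H54
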