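import Mathlib
import Fermat.Agent.S25.P1.Defs

/-!
# S25, package P1, leaf BC1 (helper61): `H1` commutes with every base change

`H1 = N01 / (j0 N0 + j1 N1)` is a cokernel, and `A' ⊗ -` is right exact.  The two maps are written
down explicitly: `a ⊗ [m] ↦ [a ⊗ m]` and `[a ⊗ m] ↦ a ⊗ [m]`.
-/

set_option autoImplicit false

universe u

open TensorProduct

namespace Fermat.Agent.S25.P1.H61

variable {A : Type u} [CommRing A] (N : Data A) (A' : Type u) [CommRing A'] [Algebra A A']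

/-- the submodule `B1` of the base change, written on the tensor product -/
def bcB1 : Submodule A' (A' ⊗[A] N.N01) :=
  LinearMap.range (N.j0.baseChange A') ⊔ LinearMap.range (N.j1.baseChange A')

theorem bcB1_eq : (N.baseChange A').B1 = bcB1 N A' := rfl

/-- `m ↦ [1 ⊗ m]`, as a map `N01 → H1 (N_{A'})`. -/
noncomputable def bc1Aux : N.N01 →ₗ[A] (A' ⊗[A] N.N01) ⧸ bcB1 N A' :=
  ((bcB1 N A').mkQ.restrictScalars A).comp
    ((TensorProduct.mk A A' N.N01 1 : N.N01 →ₗ[A] A' ⊗[A] N.N01))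

theorem bc1Aux_apply (m : N.N01) :
    bc1Aux N A' m = Submodule.Quotient.mk ((1 : A') ⊗ₜ[A] m) := rfl

theorem bc1Aux_B1 : N.B1 ≤ LinearMap.ker (bc1Aux N A') := by
  apply sup_le
  · rintro m ⟨a, rfl⟩
    rw [LinearMap.mem_ker, bc1Aux_apply, Submodule.Quotient.mk_eq_zero]
    exact Submodule.mem_sup_left ⟨(1 : A') ⊗ₜ[A] a, rfl⟩
  · rintro m ⟨b, rfl⟩
    rw [LinearMap.mem_ker, bc1Aux_apply, Submodule.Quotient.mk_eq_zero]
    exact Submodule.mem_sup_right ⟨(1 : A') ⊗ₜ[A] b, rfl⟩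

/-- the forward map `A' ⊗ H1 N → H1 (N_{A'})` -/
noncomputable def bc1Fwd : A' ⊗[A] (N.N01 ⧸ N.B1) →ₗ[A'] (A' ⊗[A] N.N01) ⧸ bcB1 N A' :=
  LinearMap.liftBaseChange A' (N.B1.liftQ (bc1Aux N A') (bc1Aux_B1 N A'))

theorem bc1Fwd_tmul (a : A') (m : N.N01) :
    bc1Fwd N A' (a ⊗ₜ[A] (Submodule.Quotient.mk m : N.N01 ⧸ N.B1)) =
      Submodule.Quotient.mk (a ⊗ₜ[A] m) := by
  unfold bc1Fwd
  rw [LinearMap.liftBaseChange_tmul, Submodule.liftQ_apply, bc1Aux_apply,
    ← Submodule.Quotient.mk_smul, TensorProduct.smul_tmul', smul_eq_mul, mul_one]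

theorem bc1Bwd_B1 : bcB1 N A' ≤ LinearMap.ker (N.B1.mkQ.baseChange A') := by
  apply sup_le
  · rintro m ⟨x, rfl⟩
    rw [LinearMap.mem_ker]
    induction x using TensorProduct.induction_on with
    | zero => simp
    | tmul a n =>
      rw [LinearMap.baseChange_tmul, LinearMap.baseChange_tmul, Submodule.mkQ_apply]
      have : (Submodule.Quotient.mk (N.j0 n) : N.N01 ⧸ N.B1) = 0 := by
        rw [Submodule.Quotient.mk_eq_zero]
        exact Submodule.mem_sup_left ⟨n, rfl⟩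
      rw [this, TensorProduct.tmul_zero]
    | add x y hx hy =>
      rw [map_add, map_add, hx, hy, add_zero]
  · rintro m ⟨x, rfl⟩
    rw [LinearMap.mem_ker]
    induction x using TensorProduct.induction_on with
    | zero => simp
    | tmul a n =>
      rw [LinearMap.baseChange_tmul, LinearMap.baseChange_tmul, Submodule.mkQ_apply]
      have : (Submodule.Quotient.mk (N.j1 n) : N.N01 ⧸ N.B1) = 0 := by
        rw [Submodule.Quotient.mk_eq_zero]
        exact Submodule.mem_sup_right ⟨n, rfl⟩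
      rw [this, TensorProduct.tmul_zero]
    | add x y hx hy =>
      rw [map_add, map_add, hx, hy, add_zero]

/-- the backward map `H1 (N_{A'}) → A' ⊗ H1 N` -/
noncomputable def bc1Bwd : (A' ⊗[A] N.N01) ⧸ bcB1 N A' →ₗ[A'] A' ⊗[A] (N.N01 ⧸ N.B1) :=
  (bcB1 N A').liftQ (N.B1.mkQ.baseChange A') (bc1Bwd_B1 N A')

theorem bc1Bwd_mk_tmul (a : A') (m : N.N01) :
    bc1Bwd N A' (Submodule.Quotient.mk (a ⊗ₜ[A] m)) =
      a ⊗ₜ[A] (Submodule.Quotient.mk m : N.N01 ⧸ N.B1) := by
  unfold bc1Bwd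
  rw [Submodule.liftQ_apply]
  exact LinearMap.baseChange_tmul _ _ _

/-- the equivalence on the explicit models -/
noncomputable def bc1Equiv : A' ⊗[A] (N.N01 ⧸ N.B1) ≃ₗ[A'] (A' ⊗[A] N.N01) ⧸ bcB1 N A' :=
  LinearEquiv.ofLinearMap (bc1Fwd N A') (bc1Bwd N A')
    (by
      apply LinearMap.ext
      intro c
      obtain ⟨x, rfl⟩ := Submodule.Quotient.mk_surjective _ c
      induction x using TensorProduct.induction_on with
      | zero => simp
      | tmul a m =>
        rw [LinearMap.comp_apply, bc1Bwd_mk_tmul, bc1Fwd_tmul, LinearMap.id_apply]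
      | add x y hx hy =>
        rw [Submodule.Quotient.mk_add, map_add, hx, hy, map_add])
    (by
      apply LinearMap.ext
      intro x
      induction x using TensorProduct.induction_on with
      | zero => simp
      | tmul a c =>
        obtain ⟨m, rfl⟩ := Submodule.Quotient.mk_surjective _ c
        rw [LinearMap.comp_apply, bc1Fwd_tmul, bc1Bwd_mk_tmul, LinearMap.id_apply]
      | add x y hx hy =>
        rw [map_add, hx, hy, map_add])

theorem bc1Equiv_tmul (a : A') (m : N.N01) :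
    bc1Equiv N A' (a ⊗ₜ[A] (Submodule.Quotient.mk m : N.N01 ⧸ N.B1)) =
      Submodule.Quotient.mk (a ⊗ₜ[A] m) :=
  bc1Fwd_tmul N A' a m

/-- **P1-BC1**. -/
theorem stmt_BC1 : Stmt_BC1.{u} := by
  intro A _ N A' _ _
  exact ⟨bc1Equiv N A', fun a m => bc1Equiv_tmul N A' a m⟩

end Fermat.Agent.S25.P1.H61
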