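/-
helper92, S25 (Jacobian exists), package P1, leaf **P1-FIELDEXT** (`Stmt_FIELDEXT` of `P1/DefsC.lean`).

`h0`, `h1` of two-chart data over a field do not change under a field extension `K → K'`:
* `H1` commutes with every base change (helper61's `H61.stmt_BC1`);
* `H0` is an equaliser, and `K'` is flat over `K` (`LinearMap.tensorEqLocusEquiv`).
No hypothesis on the data is used.

* `h0Equiv`           : `A' ⊗[A] N.H0 ≃ₗ[A'] bcH0 N A'` (`= (N.baseChange A').H0`) for flat `A → A'`;
* `finrank_H0_baseChange`, `finrank_H1_baseChange`;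
* `stmt_FIELDEXT : Stmt_FIELDEXT`.
-/
import Fermat.Agent.S25.P1.DefsC
import Fermat.Agent.S25.P1.H61_BC1

set_option autoImplicit false

universe u

open Polynomial TensorProduct

namespace Fermat.Agent.S25.P1.H92

open Fermat.Agent.S25.P1

section Flat

variable {A : Type u} [CommRing A] (N : Data A) (A' : Type u) [CommRing A'] [Algebra A A']

/-- the first map of the equaliser `H0`. -/
def fH0 : N.N0 × N.N1 →ₗ[A] N.N01 := N.j0 ∘ₗ LinearMap.fst A N.N0 N.N1

/-- the second map of the equaliser `H0`. -/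
def gH0 : N.N0 × N.N1 →ₗ[A] N.N01 := N.j1 ∘ₗ LinearMap.snd A N.N0 N.N1

theorem H0_eq : N.H0 = LinearMap.eqLocus (fH0 N) (gH0 N) := rfl

theorem fH0_bc (y : A' ⊗[A] (N.N0 × N.N1)) :
    (N.j0.baseChange A') ((TensorProduct.prodRight A A' A' N.N0 N.N1) y).1
      = (TensorProduct.AlgebraTensorModule.lTensor A' A' (fH0 N)) y := by
  induction y using TensorProduct.induction_on with
  | zero => rw [map_zero, Prod.fst_zero, map_zero, map_zero]
  | tmul a m => rfl
  | add y y' hy hy' =>
    rw [map_add, Prod.fst_add, map_add, map_add, hy, hy']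

theorem gH0_bc (y : A' ⊗[A] (N.N0 × N.N1)) :
    (N.j1.baseChange A') ((TensorProduct.prodRight A A' A' N.N0 N.N1) y).2
      = (TensorProduct.AlgebraTensorModule.lTensor A' A' (gH0 N)) y := by
  induction y using TensorProduct.induction_on with
  | zero => rw [map_zero, Prod.snd_zero, map_zero, map_zero]
  | tmul a m => rfl
  | add y y' hy hy' =>
    rw [map_add, Prod.snd_add, map_add, map_add, hy, hy']

/-- `H0` of the base change, with explicit types. -/
def bcH0 : Submodule A' ((A' ⊗[A] N.N0) × (A' ⊗[A] N.N1)) :=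
  LinearMap.eqLocus ((N.j0.baseChange A') ∘ₗ LinearMap.fst A' (A' ⊗[A] N.N0) (A' ⊗[A] N.N1))
    ((N.j1.baseChange A') ∘ₗ LinearMap.snd A' (A' ⊗[A] N.N0) (A' ⊗[A] N.N1))

theorem bcH0_eq : (N.baseChange A').H0 = bcH0 N A' := rfl

theorem comap_bcH0 :
    (bcH0 N A').comap
        (TensorProduct.prodRight A A' A' N.N0 N.N1 :
          A' ⊗[A] (N.N0 × N.N1) →ₗ[A'] (A' ⊗[A] N.N0) × (A' ⊗[A] N.N1))
      = LinearMap.eqLocus (TensorProduct.AlgebraTensorModule.lTensor A' A' (fH0 N))
          (TensorProduct.AlgebraTensorModule.lTensor A' A' (gH0 N)) := by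
  ext y
  rw [Submodule.mem_comap, LinearMap.mem_eqLocus]
  have h1 := fH0_bc N A' y
  have h2 := gH0_bc N A' y
  constructor
  · intro h
    rw [← h1, ← h2]
    exact h
  · intro h
    rw [← h1, ← h2] at h
    exact h

/-- **`H0` commutes with flat base change** (explicit types). -/
noncomputable def h0Equiv [Module.Flat A A'] : A' ⊗[A] N.H0 ≃ₗ[A'] bcH0 N A' :=
  (LinearMap.tensorEqLocusEquiv A' A' (fH0 N) (gH0 N)).trans
    ((LinearEquiv.ofEq _ _ (comap_bcH0 N A').symm).trans
      (LinearEquiv.ofSubmodule' (TensorProduct.prodRight A A' A' N.N0 N.N1) (bcH0 N A')))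

end Flat

section Field

variable {K : Type u} [Field K] (N : Data K) (K' : Type u) [Field K'] [Algebra K K']

theorem finrank_bcH0 : Module.finrank K' (bcH0 N K') = Module.finrank K N.H0 := by
  rw [← (h0Equiv N K').finrank_eq, Module.finrank_baseChange]

theorem finrank_H0_baseChange :
    Module.finrank K' (N.baseChange K').H0 = Module.finrank K N.H0 :=
  finrank_bcH0 N K'

theorem finrank_H1_baseChange :
    Module.finrank K' (N.baseChange K').H1 = Module.finrank K N.H1 := by
  obtain ⟨e, -⟩ := Fermat.Agent.S25.P1.H61.stmt_BC1 K N K'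
  rw [← e.finrank_eq, Module.finrank_baseChange]

end Field

/-- **P1-FIELDEXT.** -/
theorem stmt_FIELDEXT : Stmt_FIELDEXT.{u} := by
  intro K _ N _ K' _ _
  exact ⟨finrank_H0_baseChange N K', finrank_H1_baseChange N K'⟩

end Fermat.Agent.S25.P1.H92
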