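import Mathlib
import Fermat.Agent.S25.P1.Defs

/-!
# S25, package P1, leaf TW (helper36): twists and base changes of two-chart data

* `twist_isLoc`, `twist_isVB` : twists of localising data / vector bundles are again such;
* `proj_baseChange` : a direct summand of `A[X]^r` stays one after base change;
* `LocPair` : "`P` is the localisation of `M` at the operator `φ`"; `LocPair.bc_surj`,
  `LocPair.bc_ker` : this is stable under base change (`P` is the colimit of the telescope
  `M → M → …`, and tensor products commute with direct limits);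
* `baseChange_isLoc`, `baseChange_isVB`;
* `stmt_TW : Stmt_TW`.

Mathlib only.
-/

set_option autoImplicit false

universe u

open Polynomial TensorProduct

namespace Fermat.Agent.S25.P1.H36

variable {A : Type u} [CommRing A]

open Data

/-! ## Twists -/

theorem twist_isLoc (N : Data A) (h : N.IsLoc) (n : ℤ) : (N.twist n).IsLoc where
  surj0 := h.surj0
  ker0 := h.ker0
  surj1 := by
    intro m
    obtain ⟨k, n1, hk⟩ := h.surj1 ((N.T ^ (-n)) m)
    refine ⟨k, n1, ?_⟩
    change (N.T.symm.toLinearMap ^ k) m = (N.T ^ n) (N.j1 n1)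
    rw [← hk]
    have hcomm : ∀ (k : ℕ) (x : N.N01),
        (N.T.symm.toLinearMap ^ k) x = ((N.T ^ (-(k : ℤ)) : N.N01 ≃ₗ[A] N.N01)) x := by
      intro k
      induction k with
      | zero => intro x; simp
      | succ k ih =>
        intro x
        rw [pow_succ, Module.End.mul_apply, ih]
        have : (N.T ^ (-((k + 1 : ℕ) : ℤ)) : N.N01 ≃ₗ[A] N.N01) =
            N.T ^ (-(k : ℤ)) * N.T⁻¹ := by
          rw [← zpow_neg_one, ← zpow_add]
          congr 1
          push_cast
          ring
        rw [this]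
        rfl
    rw [hcomm, hcomm, ← LinearEquiv.mul_apply, ← LinearEquiv.mul_apply, ← zpow_add, ← zpow_add]
    congr 2
    ring
  ker1 := by
    intro n1 hn1
    apply h.ker1
    have h1 : (N.T ^ n) (N.j1 n1) = 0 := hn1
    exact (LinearEquiv.map_eq_zero_iff _).mp h1

theorem twist_isVB (N : Data A) (h : N.IsVB) (n : ℤ) : (N.twist n).IsVB where
  loc := twist_isLoc N h.loc n
  proj0 := h.proj0
  proj1 := h.proj1

section ProjBC

variable (A) (A' : Type u) [CommRing A'] [Algebra A A'] (r : ℕ)

/-- `A' ⊗ A[X]^r = A'[X]^r` -/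
noncomputable def polyPiEquiv : A' ⊗[A] (Fin r → A[X]) ≃ₗ[A'] (Fin r → A'[X]) :=
  (TensorProduct.piRight A A' A' (fun _ : Fin r => A[X])) ≪≫ₗ
    LinearEquiv.piCongrRight (fun _ => (polyEquivTensor' A A').symm.toLinearEquiv)

theorem polyPiEquiv_tmul (a : A') (v : Fin r → A[X]) (i : Fin r) :
    polyPiEquiv A A' r (a ⊗ₜ[A] v) i = a • (v i).map (algebraMap A A') := by
  simp [polyPiEquiv]

/-- multiplication by `X` on `A[X]^r`, as an `A`-linear map -/
noncomputable def mulX : (Fin r → A[X]) →ₗ[A] (Fin r → A[X]) :=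
  Algebra.lsmul A A (Fin r → A[X]) (X : A[X])

theorem mulX_apply (v : Fin r → A[X]) : mulX A r v = (X : A[X]) • v := rfl

theorem polyPiEquiv_mulX (w : A' ⊗[A] (Fin r → A[X])) :
    polyPiEquiv A A' r ((mulX A r).baseChange A' w) = (X : A'[X]) • polyPiEquiv A A' r w := by
  induction w using TensorProduct.induction_on with
  | zero => simp
  | tmul a v =>
    ext1 i
    rw [LinearMap.baseChange_tmul, polyPiEquiv_tmul, Pi.smul_apply, polyPiEquiv_tmul, mulX_apply,
      Pi.smul_apply, smul_eq_mul, Polynomial.map_mul, Polynomial.map_X, smul_eq_mul,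
      mul_smul_comm]
  | add x y hx hy => simp only [map_add, hx, hy, smul_add]

variable {A}

/-- base change of a direct summand of `A[X]^r` -/
theorem proj_baseChange {M : Type u} [AddCommGroup M] [Module A M] (φ : M →ₗ[A] M)
    (h : ∃ (r : ℕ) (i : M →ₗ[A] (Fin r → A[X])) (p : (Fin r → A[X]) →ₗ[A] M),
      (∀ n, p (i n) = n) ∧ (∀ n, i (φ n) = (X : A[X]) • i n) ∧
        (∀ v, p ((X : A[X]) • v) = φ (p v))) :
    ∃ (r : ℕ) (i : A' ⊗[A] M →ₗ[A'] (Fin r → A'[X])) (p : (Fin r → A'[X]) →ₗ[A'] A' ⊗[A] M),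
      (∀ n, p (i n) = n) ∧ (∀ n, i (φ.baseChange A' n) = (X : A'[X]) • i n) ∧
        (∀ v, p ((X : A'[X]) • v) = φ.baseChange A' (p v)) := by
  obtain ⟨r, i, p, hpi, hiX, hpX⟩ := h
  have e1 : p ∘ₗ i = LinearMap.id := LinearMap.ext hpi
  have e2 : i ∘ₗ φ = mulX A r ∘ₗ i := LinearMap.ext hiX
  have e3 : p ∘ₗ mulX A r = φ ∘ₗ p := LinearMap.ext hpX
  have b1 : ∀ n, p.baseChange A' (i.baseChange A' n) = n := by
    intro n
    rw [← LinearMap.comp_apply, ← LinearMap.baseChange_comp, e1, LinearMap.baseChange_id]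
    rfl
  have b2 : ∀ n, i.baseChange A' (φ.baseChange A' n) =
      (mulX A r).baseChange A' (i.baseChange A' n) := by
    intro n
    rw [← LinearMap.comp_apply, ← LinearMap.baseChange_comp, e2, LinearMap.baseChange_comp]
    rfl
  have b3 : ∀ w, p.baseChange A' ((mulX A r).baseChange A' w) =
      φ.baseChange A' (p.baseChange A' w) := by
    intro w
    rw [← LinearMap.comp_apply, ← LinearMap.baseChange_comp, e3, LinearMap.baseChange_comp]
    rfl
  refine ⟨r, (polyPiEquiv A A' r).toLinearMap ∘ₗ i.baseChange A',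
    p.baseChange A' ∘ₗ (polyPiEquiv A A' r).symm.toLinearMap, ?_, ?_, ?_⟩
  · intro n
    simp only [LinearMap.comp_apply, LinearEquiv.coe_coe, LinearEquiv.symm_apply_apply]
    exact b1 n
  · intro n
    simp only [LinearMap.comp_apply, LinearEquiv.coe_coe]
    rw [← polyPiEquiv_mulX, b2]
  · intro v
    simp only [LinearMap.comp_apply, LinearEquiv.coe_coe]
    obtain ⟨w, rfl⟩ := (polyPiEquiv A A' r).surjective v
    rw [← polyPiEquiv_mulX, LinearEquiv.symm_apply_apply, LinearEquiv.symm_apply_apply, b3]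

theorem proj0_baseChange (N : Data A) (h : N.Proj0) : (N.baseChange A').Proj0 :=
  proj_baseChange A' N.X0 h

theorem proj1_baseChange (N : Data A) (h : N.Proj1) : (N.baseChange A').Proj1 :=
  proj_baseChange A' N.Z1 h

end ProjBC

section LocBC

variable {M P : Type u} [AddCommGroup M] [Module A M] [AddCommGroup P] [Module A P]

/-- transition maps of the telescope `M → M → M → …` -/
def tele (φ : M →ₗ[A] M) (i k : ℕ) (_ : i ≤ k) : M →ₗ[A] M := φ ^ (k - i)

instance tele_directed (φ : M →ₗ[A] M) :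
    DirectedSystem (fun _ : ℕ => M) (fun i k h => tele φ i k h) where
  map_self i x := by simp [tele]
  map_map k j i hij hjk x := by
    simp only [tele]
    rw [← Module.End.mul_apply, ← pow_add]
    congr 2
    omega

/-- `P` is the localisation of `M`: `φ` becomes the automorphism `t`. -/
structure LocPair (φ : M →ₗ[A] M) (t : P ≃ₗ[A] P) (j : M →ₗ[A] P) : Prop where
  comm : ∀ n, j (φ n) = t (j n)
  surj : ∀ m : P, ∃ (k : ℕ) (n : M), (t.toLinearMap ^ k) m = j n
  ker : ∀ n : M, j n = 0 → ∃ k : ℕ, (φ ^ k) n = 0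

variable {φ : M →ₗ[A] M} {t : P ≃ₗ[A] P} {j : M →ₗ[A] P}

theorem LocPair.j_pow (h : LocPair φ t j) (d : ℕ) (x : M) :
    j ((φ ^ d) x) = (t.toLinearMap ^ d) (j x) := by
  induction d generalizing x with
  | zero => simp
  | succ d ih =>
    rw [pow_succ, Module.End.mul_apply, ih, h.comm, pow_succ, Module.End.mul_apply]
    rfl

theorem symm_pow_pow (t : P ≃ₗ[A] P) (d : ℕ) (y : P) :
    (t.symm.toLinearMap ^ d) ((t.toLinearMap ^ d) y) = y := by
  induction d generalizing y with
  | zero => simp
  | succ d ih =>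
    rw [pow_succ, Module.End.mul_apply, pow_succ', Module.End.mul_apply]
    simp [ih]

theorem pow_symm_pow (t : P ≃ₗ[A] P) (d : ℕ) (y : P) :
    (t.toLinearMap ^ d) ((t.symm.toLinearMap ^ d) y) = y := by
  have := symm_pow_pow t.symm d y
  simpa using this

/-- the map from the telescope to `P` -/
noncomputable def LocPair.lam (h : LocPair φ t j) :
    Module.DirectLimit (fun _ : ℕ => M) (tele φ) →ₗ[A] P :=
  Module.DirectLimit.lift A ℕ (fun _ : ℕ => M) (tele φ)
    (fun i => (t.symm.toLinearMap ^ i) ∘ₗ j) (by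
      intro i k hik x
      simp only [LinearMap.comp_apply, tele]
      rw [h.j_pow]
      obtain ⟨d, rfl⟩ := Nat.exists_eq_add_of_le hik
      rw [Nat.add_sub_cancel_left, pow_add, Module.End.mul_apply, symm_pow_pow])

theorem LocPair.lam_of (h : LocPair φ t j) (i : ℕ) (x : M) :
    h.lam (Module.DirectLimit.of A ℕ (fun _ : ℕ => M) (tele φ) i x) =
      (t.symm.toLinearMap ^ i) (j x) := by
  simp [LocPair.lam]

theorem LocPair.lam_bijective (h : LocPair φ t j) : Function.Bijective h.lam := by
  constructor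
  · rw [injective_iff_map_eq_zero]
    intro z hz
    induction z using Module.DirectLimit.induction_on with
    | ih i x =>
      rw [h.lam_of] at hz
      have hjx : j x = 0 := by
        have := congrArg (t.toLinearMap ^ i) hz
        rwa [pow_symm_pow, map_zero] at this
      obtain ⟨k, hk⟩ := h.ker x hjx
      rw [← Module.DirectLimit.of_f (hij := Nat.le_add_right i k)]
      simp only [tele, Nat.add_sub_cancel_left, hk, map_zero]
  · intro m
    obtain ⟨k, n, hk⟩ := h.surj m
    refine ⟨Module.DirectLimit.of A ℕ (fun _ : ℕ => M) (tele φ) k n, ?_⟩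
    rw [h.lam_of, ← hk, symm_pow_pow]

variable (A' : Type u) [CommRing A'] [Algebra A A']

theorem LocPair.bc_j_pow (h : LocPair φ t j) (l : ℕ) (n : A' ⊗[A] M) :
    ((t.toLinearMap.baseChange A') ^ l) (j.baseChange A' n) =
      j.baseChange A' (((φ.baseChange A') ^ l) n) := by
  have e : j ∘ₗ φ = t.toLinearMap ∘ₗ j := LinearMap.ext h.comm
  have e' : ∀ n, j.baseChange A' (φ.baseChange A' n) =
      t.toLinearMap.baseChange A' (j.baseChange A' n) := by
    intro n
    have h1 := congrArg (fun f => LinearMap.baseChange A' f) e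
    simp only [LinearMap.baseChange_comp] at h1
    exact LinearMap.congr_fun h1 n
  induction l generalizing n with
  | zero => simp
  | succ l ih =>
    rw [pow_succ, Module.End.mul_apply, ← e', ih, pow_succ, Module.End.mul_apply]

theorem LocPair.bc_surj (h : LocPair φ t j) (m : A' ⊗[A] P) :
    ∃ (k : ℕ) (n : A' ⊗[A] M), ((t.toLinearMap.baseChange A') ^ k) m = j.baseChange A' n := by
  induction m using TensorProduct.induction_on with
  | zero => exact ⟨0, 0, by simp⟩
  | tmul a m =>
    obtain ⟨k, n, hk⟩ := h.surj m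
    refine ⟨k, a ⊗ₜ[A] n, ?_⟩
    rw [← LinearMap.baseChange_pow, LinearMap.baseChange_tmul, hk, LinearMap.baseChange_tmul]
  | add x y hx hy =>
    obtain ⟨k, n, hk⟩ := hx
    obtain ⟨l, n', hl⟩ := hy
    refine ⟨k + l, ((φ.baseChange A') ^ l) n + ((φ.baseChange A') ^ k) n', ?_⟩
    rw [map_add, map_add, ← h.bc_j_pow A', ← h.bc_j_pow A', ← hk, ← hl, ← Module.End.mul_apply,
      ← Module.End.mul_apply, ← pow_add, ← pow_add, add_comm l k]

theorem LocPair.bc_ker (h : LocPair φ t j) (n : A' ⊗[A] M) (hn : j.baseChange A' n = 0) :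
    ∃ k : ℕ, ((φ.baseChange A') ^ k) n = 0 := by
  classical
  let e : Module.DirectLimit (fun _ : ℕ => M) (tele φ) ≃ₗ[A] P :=
    LinearEquiv.ofBijective h.lam h.lam_bijective
  have he : ∀ x : M, e.symm (j x) = Module.DirectLimit.of A ℕ (fun _ : ℕ => M) (tele φ) 0 x := by
    intro x
    rw [LinearEquiv.symm_apply_eq]
    change _ = h.lam _
    rw [h.lam_of]
    simp
  let Ψ : A' ⊗[A] P →ₗ[A]
      Module.DirectLimit (fun _ : ℕ => A' ⊗[A] M) (fun i k hik => (tele φ i k hik).lTensor A') :=
    (TensorProduct.directLimitRight (tele φ) A').toLinearMap ∘ₗ (e.symm.toLinearMap.lTensor A')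
  have hΨ : ∀ n : A' ⊗[A] M, Ψ (j.baseChange A' n) =
      Module.DirectLimit.of A ℕ (fun _ : ℕ => A' ⊗[A] M)
        (fun i k hik => (tele φ i k hik).lTensor A') 0 n := by
    intro n
    induction n using TensorProduct.induction_on with
    | zero => simp
    | tmul a x =>
      simp only [Ψ, LinearMap.comp_apply, LinearMap.baseChange_tmul, LinearMap.lTensor_tmul,
        LinearEquiv.coe_coe, he]
      exact TensorProduct.directLimitRight_tmul_of (tele φ) A' a x
    | add x y hx hy => simp only [map_add, hx, hy]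
  have h0 := hΨ n
  rw [hn, map_zero] at h0
  obtain ⟨k, hk, hk0⟩ := Module.DirectLimit.of.zero_exact h0.symm
  refine ⟨k, ?_⟩
  rw [← LinearMap.baseChange_pow]
  have : ((φ ^ k).baseChange A' : A' ⊗[A] M → A' ⊗[A] M) = (φ ^ k).lTensor A' :=
    LinearMap.baseChange_eq_ltensor _
  rw [this]
  simpa [tele] using hk0

end LocBC

section Final

variable (A' : Type u) [CommRing A'] [Algebra A A']

theorem locPair0 (N : Data A) (h : N.IsLoc) : LocPair N.X0 N.T N.j0 where
  comm := N.j0_X
  surj := h.surj0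
  ker := h.ker0

theorem locPair1 (N : Data A) (h : N.IsLoc) : LocPair N.Z1 N.T.symm N.j1 where
  comm := fun n => by
    rw [LinearEquiv.eq_symm_apply]
    exact N.j1_Z n
  surj := h.surj1
  ker := h.ker1

theorem baseChange_isLoc (N : Data A) (h : N.IsLoc) : (N.baseChange A').IsLoc where
  surj0 := (locPair0 N h).bc_surj A'
  ker0 := (locPair0 N h).bc_ker A'
  surj1 := (locPair1 N h).bc_surj A'
  ker1 := (locPair1 N h).bc_ker A'

theorem baseChange_isVB (N : Data A) (h : N.IsVB) : (N.baseChange A').IsVB where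
  loc := baseChange_isLoc A' N h.loc
  proj0 := proj0_baseChange A' N h.proj0
  proj1 := proj1_baseChange A' N h.proj1

end Final

/-- **P1-TW**. -/
theorem stmt_TW : Stmt_TW.{u} := by
  intro A _ N
  exact ⟨fun h n => twist_isLoc N h n, fun h n => twist_isVB N h n,
    fun h A' _ _ => baseChange_isLoc A' N h, fun h A' _ _ => baseChange_isVB A' N h⟩

end Fermat.Agent.S25.P1.H36
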