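import Mathlib
import Fermat.Agent.S25.P1.DefsD

/-!
# S25, package P1, leaf BCTRANS (helper45)

Base change of two-chart data is transitive, and base change along the identity is the identity
(up to `Data.Iso`).

* `bcId N : Data.Iso (N.baseChange A) N`;
* `bcTrans N A' A'' : Data.Iso ((N.baseChange A').baseChange A'') (N.baseChange A'')`;
* `stmt_BCTRANS : Stmt_BCTRANS`.

Complete proofs, standard axioms only.
-/

set_option autoImplicit false

universe u

open Polynomial TensorProduct

namespace Fermat.Agent.S25.P1.H45

open Fermat.Agent.S25.P1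

variable {A : Type u} [CommRing A]

section Id

variable {M M' : Type u} [AddCommGroup M] [Module A M] [AddCommGroup M'] [Module A M']

theorem lid_baseChange (φ : M →ₗ[A] M') (x : A ⊗[A] M) :
    TensorProduct.lid A M' (φ.baseChange A x) = φ (TensorProduct.lid A M x) := by
  induction x using TensorProduct.induction_on with
  | zero => simp
  | tmul a m => simp
  | add x y hx hy => simp only [map_add, hx, hy]

end Id

/-- Base change along the identity. -/
noncomputable def bcId (N : Data A) : Data.Iso (N.baseChange A) N where
  e0 := TensorProduct.lid A N.N0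
  e1 := TensorProduct.lid A N.N1
  e01 := TensorProduct.lid A N.N01
  e0_X := fun n => lid_baseChange N.X0 n
  e1_Z := fun n => lid_baseChange N.Z1 n
  e01_T := fun m => lid_baseChange N.T.toLinearMap m
  e_j0 := fun n => lid_baseChange N.j0 n
  e_j1 := fun n => lid_baseChange N.j1 n

section Trans

variable (A' A'' : Type u) [CommRing A'] [CommRing A''] [Algebra A A'] [Algebra A' A'']
  [Algebra A A''] [IsScalarTower A A' A'']

variable {M M' : Type u} [AddCommGroup M] [Module A M] [AddCommGroup M'] [Module A M']

/-- The canonical isomorphism `A'' ⊗[A'] (A' ⊗[A] M) ≃ A'' ⊗[A] M`. -/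
noncomputable abbrev cancel (M : Type u) [AddCommGroup M] [Module A M] :
    A'' ⊗[A'] (A' ⊗[A] M) ≃ₗ[A''] A'' ⊗[A] M :=
  AlgebraTensorModule.cancelBaseChange A A' A'' A'' M

theorem cancel_baseChange (φ : M →ₗ[A] M') (x : A'' ⊗[A'] (A' ⊗[A] M)) :
    cancel A' A'' M' ((φ.baseChange A').baseChange A'' x) =
      φ.baseChange A'' (cancel A' A'' M x) := by
  induction x using TensorProduct.induction_on with
  | zero => simp
  | tmul a y =>
    induction y using TensorProduct.induction_on with
    | zero => simp
    | tmul b m => simp
    | add y y' hy hy' =>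
      rw [TensorProduct.tmul_add, map_add, map_add, map_add, map_add, hy, hy']
  | add x y hx hy => simp only [map_add, hx, hy]

/-- Transitivity of base change. -/
noncomputable def bcTrans (N : Data A) :
    Data.Iso ((N.baseChange A').baseChange A'') (N.baseChange A'') where
  e0 := cancel A' A'' N.N0
  e1 := cancel A' A'' N.N1
  e01 := cancel A' A'' N.N01
  e0_X := fun n => cancel_baseChange A' A'' N.X0 n
  e1_Z := fun n => cancel_baseChange A' A'' N.Z1 n
  e01_T := fun m => cancel_baseChange A' A'' N.T.toLinearMap m
  e_j0 := fun n => cancel_baseChange A' A'' N.j0 n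
  e_j1 := fun n => cancel_baseChange A' A'' N.j1 n

end Trans

/-- **P1-BCTRANS**. -/
theorem stmt_BCTRANS : Stmt_BCTRANS.{u} := by
  intro A _ N
  exact ⟨⟨bcId N⟩, fun A' A'' _ _ _ _ _ _ => ⟨bcTrans A' A'' N⟩⟩

end Fermat.Agent.S25.P1.H45
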