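import Mathlib
import Fermat.Agent.S25.P1.Defs

/-!
# S25, package P1, leaves FG and VAN (helper22)

`N01` is spanned over `A` by the `T ^ e (j0 s)`, `e ∈ ℤ`, `s ∈ S` (`S` a finite set of
generators of `N0` over `A[x]`).  For `e ≥ 0` these lie in `j0 N0`, for `e ≤ n - k_s` in
`T ^ n (j1 N1)`, where `T ^ (-k_s) (j0 s) ∈ j1 N1`.  So `H1 (N (n))` is spanned by finitely many
classes, and is zero for `n ≥ max k_s`.

* `stmt_FG  : Stmt_FG`
* `stmt_VAN : Stmt_VAN`
-/

set_option autoImplicit false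

universe u

open Polynomial TensorProduct

namespace Fermat.Agent.S25.P1.H22

open Fermat.Agent.S25.P1

variable {A : Type u} [CommRing A] (N : Data A)

theorem toLinearMap_pow_apply (k : ℕ) (m : N.N01) :
    (N.T.toLinearMap ^ k) m = (N.T ^ (k : ℤ)) m := by
  induction k generalizing m with
  | zero => simp
  | succ k ih =>
    rw [pow_succ, Module.End.mul_apply, ih]
    push_cast
    rw [zpow_add_one, LinearEquiv.mul_apply]

theorem symm_toLinearMap_pow_apply (k : ℕ) (m : N.N01) :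
    (N.T.symm.toLinearMap ^ k) m = (N.T ^ (-(k : ℤ))) m := by
  induction k generalizing m with
  | zero => simp
  | succ k ih =>
    rw [pow_succ, Module.End.mul_apply, ih]
    push_cast
    have h : (-((k : ℤ) + 1)) = -(k : ℤ) + (-1) := by ring
    rw [h, zpow_add, LinearEquiv.mul_apply, zpow_neg_one]
    rfl

theorem j0_pow (k : ℕ) (n : N.N0) : N.j0 ((N.X0 ^ k) n) = (N.T ^ (k : ℤ)) (N.j0 n) := by
  induction k generalizing n with
  | zero => simp
  | succ k ih =>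
    rw [pow_succ, Module.End.mul_apply, ih, N.j0_X]
    push_cast
    rw [zpow_add_one, LinearEquiv.mul_apply]

theorem j1_Z' (n : N.N1) : N.j1 (N.Z1 n) = (N.T ^ (-1 : ℤ)) (N.j1 n) := by
  rw [zpow_neg_one]
  have h := N.j1_Z n
  rw [← h]
  exact (N.T.symm_apply_apply _).symm

theorem j1_pow (k : ℕ) (n : N.N1) : N.j1 ((N.Z1 ^ k) n) = (N.T ^ (-(k : ℤ))) (N.j1 n) := by
  induction k generalizing n with
  | zero => simp
  | succ k ih =>
    rw [pow_succ, Module.End.mul_apply, ih, j1_Z']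
    push_cast
    have h : (-((k : ℤ) + 1)) = -(k : ℤ) + (-1) := by ring
    rw [h, zpow_add, LinearEquiv.mul_apply]

/-- The generators of `N01`. -/
def gens (S : Set N.N0) : Set N.N01 :=
  {m | ∃ (e : ℤ) (s : N.N0), s ∈ S ∧ m = (N.T ^ e) (N.j0 s)}

theorem span_gens_eq_top (hloc : N.IsLoc) (S : Set N.N0)
    (hS : Submodule.span A {y | ∃ (k : ℕ) (s : N.N0), s ∈ S ∧ y = (N.X0 ^ k) s} = ⊤) :
    Submodule.span A (gens N S) = ⊤ := by
  rw [eq_top_iff]
  intro m _
  obtain ⟨k, n, hk⟩ := hloc.surj0 m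
  rw [toLinearMap_pow_apply] at hk
  have hm : m = ((N.T ^ (-(k : ℤ))).toLinearMap ∘ₗ N.j0) n := by
    simp only [LinearMap.comp_apply, LinearEquiv.coe_coe]
    rw [← hk, ← LinearEquiv.mul_apply, ← zpow_add]
    simp
  have hn : n ∈ Submodule.span A {y | ∃ (k : ℕ) (s : N.N0), s ∈ S ∧ y = (N.X0 ^ k) s} := by
    rw [hS]; trivial
  rw [hm]
  have := Submodule.mem_map_of_mem (f := ((N.T ^ (-(k : ℤ))).toLinearMap ∘ₗ N.j0)) hn
  rw [Submodule.map_span] at this
  refine Submodule.span_mono ?_ this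
  rintro _ ⟨y, ⟨i, s, hs, rfl⟩, rfl⟩
  refine ⟨-(k : ℤ) + i, s, hs, ?_⟩
  simp only [LinearMap.comp_apply, LinearEquiv.coe_coe]
  rw [j0_pow, ← LinearEquiv.mul_apply, ← zpow_add]

/-- `T ^ e (j0 x) ∈ T ^ n (j1 N1)` as soon as `e - n ≤ -k`, where `T ^ (-k) (j0 x) ∈ j1 N1`. -/
theorem mem_range_twist (x : N.N0) (k : ℕ) (y : N.N1)
    (hk : (N.T.symm.toLinearMap ^ k) (N.j0 x) = N.j1 y) (e n : ℤ) (he : e - n ≤ -(k : ℤ)) :
    (N.T ^ e) (N.j0 x) ∈ LinearMap.range ((N.T ^ n).toLinearMap ∘ₗ N.j1) := by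
  rw [symm_toLinearMap_pow_apply] at hk
  obtain ⟨r, hr⟩ : ∃ r : ℕ, (r : ℤ) = n - e - k := ⟨(n - e - k).toNat, by omega⟩
  refine ⟨(N.Z1 ^ r) y, ?_⟩
  simp only [LinearMap.comp_apply, LinearEquiv.coe_coe]
  rw [j1_pow, ← hk, ← LinearEquiv.mul_apply, ← LinearEquiv.mul_apply, ← zpow_add, ← zpow_add]
  congr 2
  omega

theorem mem_range_j0 (x : N.N0) (e : ℤ) (he : 0 ≤ e) :
    (N.T ^ e) (N.j0 x) ∈ LinearMap.range N.j0 := by
  obtain ⟨r, rfl⟩ : ∃ r : ℕ, e = (r : ℤ) := ⟨e.toNat, by omega⟩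
  exact ⟨(N.X0 ^ r) x, j0_pow N r x⟩

/-- **FG**. -/
theorem stmt_FG : Stmt_FG.{u} := by
  intro A _ N hloc hfg
  classical
  obtain ⟨S, hS⟩ := hfg
  have hS' : Submodule.span A {y | ∃ (k : ℕ) (s : N.N0), s ∈ (S : Set N.N0) ∧ y = (N.X0 ^ k) s} = ⊤ := by
    simpa using hS
  have hgen := span_gens_eq_top N hloc (S : Set N.N0) hS'
  -- the exponents `k_s`
  choose kf yf hkf using fun x : N.N0 => hloc.surj1 (N.j0 x)
  -- the finite set of generators of `H1`
  let F : Finset N.N01 := S.biUnion fun s =>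
    (Finset.range (kf s + 1)).image fun i : ℕ => (N.T ^ (-(i : ℤ))) (N.j0 s)
  have hle : Submodule.span A (gens N (S : Set N.N0)) ≤ Submodule.span A (F : Set N.N01) ⊔ N.B1 := by
    rw [Submodule.span_le]
    rintro _ ⟨e, s, hs, rfl⟩
    by_cases h0 : 0 ≤ e
    · exact Submodule.mem_sup_right (Submodule.mem_sup_left (mem_range_j0 N s e h0))
    · by_cases h1 : e ≤ -(kf s : ℤ)
      · refine Submodule.mem_sup_right (Submodule.mem_sup_right ?_)
        have := mem_range_twist N s (kf s) (yf s) (hkf s) e 0 (by omega)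
        simpa using this
      · refine Submodule.mem_sup_left (Submodule.subset_span ?_)
        obtain ⟨i, hi⟩ : ∃ i : ℕ, (i : ℤ) = -e := ⟨(-e).toNat, by omega⟩
        simp only [F, Finset.coe_biUnion, Finset.coe_image, Set.mem_iUnion, Set.mem_image,
          Finset.mem_coe, Finset.mem_range]
        refine ⟨s, hs, i, by omega, ?_⟩
        rw [hi, neg_neg]
  have htop : Submodule.span A (F : Set N.N01) ⊔ N.B1 = ⊤ := by
    rw [eq_top_iff, ← hgen]; exact hle
  refine ⟨⟨F.image N.B1.mkQ, ?_⟩⟩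
  have h1 : Submodule.map N.B1.mkQ (Submodule.span A (F : Set N.N01) ⊔ N.B1) = ⊤ := by
    rw [htop, Submodule.map_top, Submodule.range_mkQ]
  rw [Submodule.map_sup, Submodule.mkQ_map_self, sup_bot_eq, Submodule.map_span] at h1
  rw [Finset.coe_image]
  exact h1

/-- **VAN**. -/
theorem stmt_VAN : Stmt_VAN.{u} := by
  intro A _ N hloc hfg
  classical
  obtain ⟨S, hS⟩ := hfg
  have hS' : Submodule.span A {y | ∃ (k : ℕ) (s : N.N0), s ∈ (S : Set N.N0) ∧ y = (N.X0 ^ k) s} = ⊤ := by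
    simpa using hS
  have hgen := span_gens_eq_top N hloc (S : Set N.N0) hS'
  choose kf yf hkf using fun x : N.N0 => hloc.surj1 (N.j0 x)
  refine ⟨((S.sup kf : ℕ) : ℤ), fun n hn => ?_⟩
  have key : ∀ m : N.N01, m ∈ (LinearMap.range N.j0 ⊔
      LinearMap.range ((N.T ^ n).toLinearMap ∘ₗ N.j1) : Submodule A N.N01) := by
    intro m
    have hm : m ∈ Submodule.span A (gens N (S : Set N.N0)) := by rw [hgen]; trivial
    refine (Submodule.span_le.mpr ?_) hm
    rintro _ ⟨e, s, hs, rfl⟩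
    have hks : (kf s : ℤ) ≤ n := by
      have h1 : kf s ≤ S.sup kf := Finset.le_sup hs
      have h2 : ((kf s : ℕ) : ℤ) ≤ ((S.sup kf : ℕ) : ℤ) := by exact_mod_cast h1
      omega
    by_cases h0 : 0 ≤ e
    · exact Submodule.mem_sup_left (mem_range_j0 N s e h0)
    · exact Submodule.mem_sup_right (mem_range_twist N s (kf s) (yf s) (hkf s) e n (by omega))
  refine ⟨fun a b => ?_⟩
  obtain ⟨a, rfl⟩ := Submodule.Quotient.mk_surjective _ a
  obtain ⟨b, rfl⟩ := Submodule.Quotient.mk_surjective _ b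
  rw [Submodule.Quotient.eq]
  exact key (a - b)

end Fermat.Agent.S25.P1.H22
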