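/-
helper26, S25 package P1, leaf P1-RANK: for a vector bundle `N` with `H1 N = 0`, the fibre `h1` vanishes at every
prime and the rank of `H0 N` at `p` is `h0At N p`.

* `h1At_eq_zero` is unconditional (from `H61.stmt_BC1`: `H1` commutes with every base change);
* `stmt_RANK_of_BC0 : Stmt_BC0 → Stmt_RANK` (the `H0` half is the base-change isomorphism of `Stmt_BC0`);
* general field versions `finrank_H1_baseChange_eq_zero`, `finrank_H0_baseChange_eq`.
-/
import Fermat.Agent.S25.P1.DefsC
import Fermat.Agent.S25.P1.H61_BC1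

set_option autoImplicit false

universe u

open Polynomial TensorProduct

namespace Fermat.Agent.S25.P1.H26

variable {A : Type u} [CommRing A]

/-- If `H1 N = 0` then `H1` of every base change of `N` vanishes (no hypothesis on `N`). -/
theorem subsingleton_H1_baseChange (N : Data A) (h1 : Subsingleton N.H1)
    (A' : Type u) [CommRing A'] [Algebra A A'] : Subsingleton (N.baseChange A').H1 := by
  obtain ⟨e, -⟩ := H61.stmt_BC1 A N A'
  have : Subsingleton (A' ⊗[A] N.H1) := inferInstance
  exact e.symm.toEquiv.subsingleton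

/-- If `H1 N = 0` then `finrank H1 = 0` after every base change. -/
theorem finrank_H1_baseChange_eq_zero (N : Data A) (h1 : Subsingleton N.H1)
    (A' : Type u) [CommRing A'] [Nontrivial A'] [Algebra A A'] :
    Module.finrank A' (N.baseChange A').H1 = 0 := by
  have := subsingleton_H1_baseChange N h1 A'
  exact Module.finrank_zero_of_subsingleton

/-- If `H1 N = 0` then the fibre `h1` vanishes at every prime. -/
theorem h1At_eq_zero (N : Data A) (h1 : Subsingleton N.H1) (p : PrimeSpectrum A) :
    N.h1At p = 0 :=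
  finrank_H1_baseChange_eq_zero N h1 p.asIdeal.ResidueField

/-- Given `Stmt_BC0`: for a vector bundle with `H1 = 0`, `finrank (A' ⊗ H0) = finrank H0(N ⊗ A')`. -/
theorem finrank_H0_baseChange_eq (hBC0 : Stmt_BC0.{u}) (N : Data A) (hVB : N.IsVB)
    (h1 : Subsingleton N.H1) (A' : Type u) [CommRing A'] [Algebra A A'] :
    Module.finrank A' (A' ⊗[A] N.H0) = Module.finrank A' (N.baseChange A').H0 := by
  obtain ⟨e, -⟩ := hBC0 A N hVB h1 A'
  exact e.finrank_eq

/-- **P1-RANK**, from `Stmt_BC0`. -/
theorem stmt_RANK_of_BC0 (hBC0 : Stmt_BC0.{u}) : Stmt_RANK.{u} := by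
  intro A _ N hVB h1 p
  exact ⟨h1At_eq_zero N h1 p, finrank_H0_baseChange_eq hBC0 N hVB h1 p.asIdeal.ResidueField⟩

end Fermat.Agent.S25.P1.H26
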