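import Mathlib

/-!
# S25, package CPX: two-term complexes of finitely generated projective modules

Mathlib only.  For a ring `A` and an `A`-linear map `d : K0 → K1` (the two-term complex
`K0 → K1`), and for every `A`-algebra `B`, put `H0(B) = ker (d ⊗ B)`, `H1(B) = coker (d ⊗ B)`.

* `fibDim Q p` : the dimension of the fibre `κ(p) ⊗ Q` of a module `Q` at a prime `p`;
* `isOpen_setOf_fibDim_le` : upper semicontinuity of `fibDim` for a finite module;
* `exists_notMem_forall_surjective_baseChange` : Nakayama: if `d ⊗ κ(p)` is onto (`K1` finite),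
  then there is `f ∉ p` with `d ⊗ B` onto for every `A`-algebra `B` in which `f` is a unit;
* `cokerBaseChangeEquiv` : `coker (d ⊗ B) ≃ B ⊗ coker d` (no hypothesis);
* `kerBaseChangeEquiv` : if `d` is onto and `K1` is projective then `B ⊗ ker d ≃ ker (d ⊗ B)`
  for every `B`, and `ker d` is a direct summand of `K0` (so f.g. projective if `K0` is);
* `h0`, `h1`, `chi` and `h0_eq`, `isLocallyConstant_chi`, `isOpen_setOf_h1_le`,
  `isOpen_setOf_h0_le` : Euler characteristic and semicontinuity on `Spec A`;
* `finrank_ker_baseChange_field`, `finrank_coker_baseChange_field` : `h0`, `h1` at an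
  arbitrary field-valued point `A → F` are those of the residue field of the kernel.
-/

set_option autoImplicit false

open TensorProduct

universe u v w

namespace Fermat.Agent.S25.P1.H44

section FibDim

variable {A : Type u} [CommRing A] (Q : Type v) [AddCommGroup Q] [Module A Q]

/-- The dimension of the fibre `κ(p) ⊗ Q` of the module `Q` at the prime `p`. -/
noncomputable def fibDim (p : PrimeSpectrum A) : ℕ :=
  Module.finrank p.asIdeal.ResidueField (p.asIdeal.ResidueField ⊗[A] Q)

variable {Q}

/-- For a submodule `N` spanned by a family `g` and an `A`-algebra `B`: if `B ⊗ (Q ⧸ N) = 0`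
then the elements `1 ⊗ g i` span `B ⊗ Q` over `B`. -/
theorem span_tmul_eq_top_of_subsingleton {ι : Type*} (g : ι → Q) (B : Type w) [CommRing B]
    [Algebra A B]
    (h : Subsingleton (B ⊗[A] (Q ⧸ Submodule.span A (Set.range g)))) :
    Submodule.span B (Set.range fun i => (1 : B) ⊗ₜ[A] g i) = ⊤ := by
  set N := Submodule.span A (Set.range g) with hN
  have hex : Function.Exact (N.subtype.lTensor B) (N.mkQ.lTensor B) :=
    lTensor_exact B (LinearMap.exact_subtype_mkQ N) (Submodule.mkQ_surjective N)
  have key1 : ∀ (b : B) (q : Q), q ∈ N →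
      b ⊗ₜ[A] q ∈ Submodule.span B (Set.range fun i => (1 : B) ⊗ₜ[A] g i) := by
    intro b q hq
    induction hq using Submodule.span_induction with
    | mem q hq =>
      obtain ⟨i, rfl⟩ := hq
      have : b ⊗ₜ[A] g i = b • ((1 : B) ⊗ₜ[A] g i) := by
        rw [TensorProduct.smul_tmul', smul_eq_mul, mul_one]
      rw [this]
      exact Submodule.smul_mem _ _ (Submodule.subset_span ⟨i, rfl⟩)
    | zero => simp
    | add q q' _ _ hq hq' => rw [TensorProduct.tmul_add]; exact Submodule.add_mem _ hq hq'
    | smul a q _ hq =>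
      have : b ⊗ₜ[A] (a • q) = (algebraMap A B a) • (b ⊗ₜ[A] q) := by
        rw [TensorProduct.tmul_smul, algebraMap_smul]
      rw [this]
      exact Submodule.smul_mem _ _ hq
  have key2 : ∀ y : B ⊗[A] N, (N.subtype.lTensor B) y ∈
      Submodule.span B (Set.range fun i => (1 : B) ⊗ₜ[A] g i) := by
    intro y
    induction y using TensorProduct.induction_on with
    | zero => simp
    | add a b ha hb => rw [map_add]; exact Submodule.add_mem _ ha hb
    | tmul b n =>
      simp only [LinearMap.lTensor_tmul, Submodule.subtype_apply]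
      exact key1 b n.1 n.2
  rw [eq_top_iff]
  intro x _
  have hx : (N.mkQ.lTensor B) x = 0 := Subsingleton.elim _ _
  obtain ⟨y, rfl⟩ := (hex x).1 hx
  exact key2 y

/-- Conversely: if the elements `1 ⊗ g i` span `B ⊗ Q` over `B` then `B ⊗ (Q ⧸ N) = 0`. -/
theorem subsingleton_of_span_tmul_eq_top {ι : Type*} (g : ι → Q) (B : Type w) [CommRing B]
    [Algebra A B]
    (h : Submodule.span B (Set.range fun i => (1 : B) ⊗ₜ[A] g i) = ⊤) :
    Subsingleton (B ⊗[A] (Q ⧸ Submodule.span A (Set.range g))) := by
  set N := Submodule.span A (Set.range g) with hN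
  have hsurj : Function.Surjective (N.mkQ.baseChange B) := by
    rw [LinearMap.baseChange_eq_ltensor]
    exact LinearMap.lTensor_surjective B (Submodule.mkQ_surjective N)
  have hzero : N.mkQ.baseChange B = 0 := by
    apply LinearMap.ext_on_range h
    intro i
    simp only [LinearMap.baseChange_tmul, LinearMap.zero_apply]
    have : N.mkQ (g i) = 0 := by
      rw [Submodule.mkQ_apply, Submodule.Quotient.mk_eq_zero]
      exact Submodule.subset_span ⟨i, rfl⟩
    rw [this, TensorProduct.tmul_zero]
  refine ⟨fun x y => ?_⟩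
  obtain ⟨x', rfl⟩ := hsurj x
  obtain ⟨y', rfl⟩ := hsurj y
  simp [hzero]

/-- The elements `1 ⊗ q` span `B ⊗ Q` over `B`. -/
theorem span_one_tmul_eq_top (B : Type w) [CommRing B] [Algebra A B] :
    Submodule.span B (Set.range fun q : Q => (1 : B) ⊗ₜ[A] q) = ⊤ := by
  apply span_tmul_eq_top_of_subsingleton (fun q : Q => q) B
  have : Submodule.span A (Set.range fun q : Q => q) = ⊤ := by
    rw [eq_top_iff]; intro x _; exact Submodule.subset_span ⟨x, rfl⟩
  rw [this]
  infer_instance

/-- **Upper semicontinuity of the fibre dimension** of a finite module: `{p | dim κ(p) ⊗ Q ≤ m}`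
is open in `Spec A`. -/
theorem isOpen_setOf_fibDim_le [Module.Finite A Q] (m : ℕ) :
    IsOpen {p : PrimeSpectrum A | fibDim Q p ≤ m} := by
  classical
  rw [isOpen_iff_forall_mem_open]
  intro p hp
  obtain ⟨b, hbs, hbspan, hbli⟩ := exists_linearIndependent p.asIdeal.ResidueField
    (Set.range fun q : Q => (1 : p.asIdeal.ResidueField) ⊗ₜ[A] q)
  rw [span_one_tmul_eq_top] at hbspan
  have : Finite b := hbli.finite
  let _ : Fintype b := Fintype.ofFinite b
  have hcard : Fintype.card b ≤ m := le_trans hbli.fintype_card_le_finrank hp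
  choose g hg using fun x : b => hbs x.2
  have hspan : Submodule.span p.asIdeal.ResidueField
      (Set.range fun i : b => (1 : p.asIdeal.ResidueField) ⊗ₜ[A] g i) = ⊤ := by
    have : (Set.range fun i : b => (1 : p.asIdeal.ResidueField) ⊗ₜ[A] g i) = b := by
      ext x
      constructor
      · rintro ⟨i, rfl⟩
        have := hg i
        simp only at this
        show (1 : p.asIdeal.ResidueField) ⊗ₜ[A] g i ∈ b
        rw [this]
        exact i.2
      · intro hx
        exact ⟨⟨x, hx⟩, hg ⟨x, hx⟩⟩
    rw [this, hbspan]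
  have hsub := subsingleton_of_span_tmul_eq_top g p.asIdeal.ResidueField hspan
  refine ⟨(Module.support A (Q ⧸ Submodule.span A (Set.range g)))ᶜ, ?_, ?_, ?_⟩
  · intro q hq
    have hq' : Subsingleton (q.asIdeal.ResidueField ⊗[A] (Q ⧸ Submodule.span A (Set.range g))) := by
      rw [Set.mem_compl_iff, Module.mem_support_iff_nontrivial_residueField_tensorProduct] at hq
      exact not_nontrivial_iff_subsingleton.mp hq
    have h1 := span_tmul_eq_top_of_subsingleton g q.asIdeal.ResidueField hq'
    exact le_trans (finrank_le_of_span_eq_top h1) hcard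
  · rw [Module.support_eq_zeroLocus]
    exact (PrimeSpectrum.isClosed_zeroLocus _).isOpen_compl
  · rw [Set.mem_compl_iff, Module.mem_support_iff_nontrivial_residueField_tensorProduct]
    exact not_nontrivial_iff_subsingleton.mpr hsub

/-- `fibDim Q p = 0` iff the fibre of `Q` at `p` is zero. -/
theorem fibDim_eq_zero_iff [Module.Finite A Q] (p : PrimeSpectrum A) :
    fibDim Q p = 0 ↔ Subsingleton (p.asIdeal.ResidueField ⊗[A] Q) := by
  unfold fibDim
  rw [Module.finrank_zero_iff]

/-- If the fibre of the finite module `Q` at `p` vanishes, then some `f ∉ p` kills `Q`. -/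
theorem exists_notMem_smul_eq_zero [Module.Finite A Q] (p : PrimeSpectrum A)
    (h : Subsingleton (p.asIdeal.ResidueField ⊗[A] Q)) :
    ∃ f : A, f ∉ p.asIdeal ∧ ∀ q : Q, f • q = 0 := by
  have hp : p ∉ Module.support A Q := by
    rw [Module.mem_support_iff_nontrivial_residueField_tensorProduct]
    exact not_nontrivial_iff_subsingleton.mpr h
  rw [Module.mem_support_iff_of_finite] at hp
  obtain ⟨f, hf, hfp⟩ := Set.not_subset.mp hp
  exact ⟨f, hfp, fun q => Module.mem_annihilator.mp hf q⟩

/-- If `f` kills `Q` and `f` is a unit in `B` then `B ⊗ Q = 0`. -/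
theorem subsingleton_tensor_of_smul_eq_zero (B : Type w) [CommRing B] [Algebra A B] (f : A)
    (hf : ∀ q : Q, f • q = 0) (hu : IsUnit (algebraMap A B f)) :
    Subsingleton (B ⊗[A] Q) := by
  have h0 : ∀ x : B ⊗[A] Q, x = 0 := by
    intro x
    induction x using TensorProduct.induction_on with
    | zero => rfl
    | add a b ha hb => rw [ha, hb, add_zero]
    | tmul b q =>
      obtain ⟨u, hu⟩ := hu
      have : b ⊗ₜ[A] q = (b * ↑u⁻¹) ⊗ₜ[A] (f • q) := by
        rw [TensorProduct.tmul_smul, TensorProduct.smul_tmul', Algebra.smul_def, ← hu,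
          ← mul_assoc, mul_comm (↑u : B), mul_assoc b, Units.mul_inv, mul_one]
      rw [this, hf, TensorProduct.tmul_zero]
  exact ⟨fun x y => by rw [h0 x, h0 y]⟩

end FibDim

section Cpx

variable {A : Type u} [CommRing A] {K0 : Type v} {K1 : Type w}
  [AddCommGroup K0] [Module A K0] [AddCommGroup K1] [Module A K1] (d : K0 →ₗ[A] K1)

/-- The base change of the projection `K1 → coker d`. -/
noncomputable def cokerMap (B : Type*) [CommRing B] [Algebra A B] :
    B ⊗[A] K1 →ₗ[B] B ⊗[A] (K1 ⧸ LinearMap.range d) :=
  (LinearMap.range d).mkQ.baseChange B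

theorem cokerMap_surjective (B : Type*) [CommRing B] [Algebra A B] :
    Function.Surjective (cokerMap d B) := by
  unfold cokerMap
  rw [LinearMap.baseChange_eq_ltensor]
  exact LinearMap.lTensor_surjective B (Submodule.mkQ_surjective _)

theorem ker_cokerMap (B : Type*) [CommRing B] [Algebra A B] :
    LinearMap.ker (cokerMap d B) = LinearMap.range (d.baseChange B) := by
  have hex : Function.Exact (d.lTensor B) ((LinearMap.range d).mkQ.lTensor B) :=
    lTensor_exact B (LinearMap.exact_map_mkQ_range d) (Submodule.mkQ_surjective _)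
  ext x
  rw [LinearMap.mem_ker, LinearMap.mem_range]
  have h1 : cokerMap d B x = ((LinearMap.range d).mkQ.lTensor B) x := by
    unfold cokerMap
    rw [← LinearMap.baseChange_eq_ltensor]
  rw [h1, hex x]
  constructor
  · rintro ⟨y, hy⟩
    exact ⟨y, by rw [← hy, ← LinearMap.baseChange_eq_ltensor]⟩
  · rintro ⟨y, hy⟩
    exact ⟨y, by rw [← hy, ← LinearMap.baseChange_eq_ltensor]⟩

/-- **`H1` commutes with every base change**: `coker (d ⊗ B) ≃ B ⊗ coker d`. -/
noncomputable def cokerBaseChangeEquiv (B : Type*) [CommRing B] [Algebra A B] :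
    ((B ⊗[A] K1) ⧸ LinearMap.range (d.baseChange B)) ≃ₗ[B] B ⊗[A] (K1 ⧸ LinearMap.range d) :=
  (Submodule.quotEquivOfEq _ _ (ker_cokerMap d B).symm).trans
    ((cokerMap d B).quotKerEquivOfSurjective (cokerMap_surjective d B))

theorem cokerBaseChangeEquiv_mk_tmul (B : Type*) [CommRing B] [Algebra A B] (b : B) (x : K1) :
    cokerBaseChangeEquiv d B (Submodule.Quotient.mk (b ⊗ₜ[A] x)) =
      b ⊗ₜ[A] (Submodule.Quotient.mk x : K1 ⧸ LinearMap.range d) := by
  unfold cokerBaseChangeEquiv
  rw [LinearEquiv.trans_apply, Submodule.quotEquivOfEq_mk,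
    LinearMap.quotKerEquivOfSurjective_apply_mk]
  simp [cokerMap]

/-- `d ⊗ B` is onto iff `B ⊗ coker d = 0`. -/
theorem surjective_baseChange_iff (B : Type*) [CommRing B] [Algebra A B] :
    Function.Surjective (d.baseChange B) ↔ Subsingleton (B ⊗[A] (K1 ⧸ LinearMap.range d)) := by
  rw [← LinearMap.range_eq_top, ← (cokerBaseChangeEquiv d B).subsingleton_congr,
    Submodule.Quotient.subsingleton_iff]

/-- **Nakayama for `H1`**: if `K1` is finite and `d ⊗ κ(p)` is onto, there is `f ∉ p` such that
`d ⊗ B` is onto for every `A`-algebra `B` in which `f` is a unit. -/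
theorem exists_notMem_forall_surjective_baseChange [Module.Finite A K1] (p : PrimeSpectrum A)
    (h : Function.Surjective (d.baseChange p.asIdeal.ResidueField)) :
    ∃ f : A, f ∉ p.asIdeal ∧ ∀ (B : Type u) [CommRing B] [Algebra A B],
      IsUnit (algebraMap A B f) → Function.Surjective (d.baseChange B) := by
  rw [surjective_baseChange_iff] at h
  obtain ⟨f, hfp, hf⟩ := exists_notMem_smul_eq_zero p h
  refine ⟨f, hfp, fun B _ _ hu => ?_⟩
  rw [surjective_baseChange_iff]
  exact subsingleton_tensor_of_smul_eq_zero B f hf hu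

/-- The dimension of `H1` of the fibre at `p`. -/
noncomputable def h1 (p : PrimeSpectrum A) : ℕ :=
  Module.finrank p.asIdeal.ResidueField
    ((p.asIdeal.ResidueField ⊗[A] K1) ⧸ LinearMap.range (d.baseChange p.asIdeal.ResidueField))

/-- The dimension of `H0` of the fibre at `p`. -/
noncomputable def h0 (p : PrimeSpectrum A) : ℕ :=
  Module.finrank p.asIdeal.ResidueField (LinearMap.ker (d.baseChange p.asIdeal.ResidueField))

theorem h1_eq_fibDim (p : PrimeSpectrum A) : h1 d p = fibDim (K1 ⧸ LinearMap.range d) p :=
  (cokerBaseChangeEquiv d p.asIdeal.ResidueField).finrank_eq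

/-- **Upper semicontinuity of `h1`.** -/
theorem isOpen_setOf_h1_le [Module.Finite A K1] (m : ℕ) :
    IsOpen {p : PrimeSpectrum A | h1 d p ≤ m} := by
  simp_rw [h1_eq_fibDim]
  exact isOpen_setOf_fibDim_le m

theorem h1_eq_zero_iff [Module.Finite A K1] (p : PrimeSpectrum A) :
    h1 d p = 0 ↔ Function.Surjective (d.baseChange p.asIdeal.ResidueField) := by
  rw [h1_eq_fibDim, fibDim_eq_zero_iff, surjective_baseChange_iff]

/-- The locus where `H1` of the fibre vanishes is open. -/
theorem isOpen_setOf_surjective [Module.Finite A K1] :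
    IsOpen {p : PrimeSpectrum A | Function.Surjective (d.baseChange p.asIdeal.ResidueField)} := by
  have : {p : PrimeSpectrum A | Function.Surjective (d.baseChange p.asIdeal.ResidueField)} =
      {p : PrimeSpectrum A | h1 d p ≤ 0} := by
    ext p
    simp only [Set.mem_ofPred_eq, Nat.le_zero]
    exact (h1_eq_zero_iff d p).symm
  rw [this]
  exact isOpen_setOf_h1_le d 0

end Cpx

section Ker

variable {A : Type u} [CommRing A] {K0 : Type v} {K1 : Type w}
  [AddCommGroup K0] [Module A K0] [AddCommGroup K1] [Module A K1] (d : K0 →ₗ[A] K1)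

/-- A surjection onto a projective module has a section. -/
theorem exists_section [Module.Projective A K1] (hd : Function.Surjective d) :
    ∃ s : K1 →ₗ[A] K0, d ∘ₗ s = LinearMap.id :=
  Module.projective_lifting_property d LinearMap.id hd

/-- The retraction `1 - s d` of `K0` onto `ker d`. -/
noncomputable def kerRetract (s : K1 →ₗ[A] K0) (hs : d ∘ₗ s = LinearMap.id) :
    K0 →ₗ[A] LinearMap.ker d :=
  (LinearMap.id - s ∘ₗ d).codRestrict (LinearMap.ker d) (fun x => by
    have h := LinearMap.congr_fun hs (d x)
    simp only [LinearMap.comp_apply, LinearMap.id_apply] at h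
    simp [LinearMap.mem_ker, h])

theorem kerRetract_subtype (s : K1 →ₗ[A] K0) (hs : d ∘ₗ s = LinearMap.id) :
    kerRetract d s hs ∘ₗ (LinearMap.ker d).subtype = LinearMap.id := by
  ext x
  have hx : d (x : K0) = 0 := x.2
  simp [kerRetract, hx]

theorem subtype_kerRetract_apply (s : K1 →ₗ[A] K0) (hs : d ∘ₗ s = LinearMap.id) (x : K0) :
    ((kerRetract d s hs x : LinearMap.ker d) : K0) = x - s (d x) := by
  simp [kerRetract]

/-- If `d` is onto a projective module then `ker d` is finite when `K0` is. -/
theorem finite_ker [Module.Projective A K1] [Module.Finite A K0]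
    (hd : Function.Surjective d) : Module.Finite A (LinearMap.ker d) := by
  obtain ⟨s, hs⟩ := exists_section d hd
  refine Module.Finite.of_surjective (kerRetract d s hs) (fun x => ⟨(x : K0), ?_⟩)
  exact LinearMap.congr_fun (kerRetract_subtype d s hs) x

/-- If `d` is onto a projective module then `ker d` is projective when `K0` is. -/
theorem projective_ker [Module.Projective A K1] [Module.Projective A K0]
    (hd : Function.Surjective d) : Module.Projective A (LinearMap.ker d) := by
  obtain ⟨s, hs⟩ := exists_section d hd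
  exact Module.Projective.of_split (LinearMap.ker d).subtype (kerRetract d s hs)
    (kerRetract_subtype d s hs)

/-- The comparison map `B ⊗ ker d → ker (d ⊗ B)`. -/
noncomputable def kerBaseChangeMap (B : Type*) [CommRing B] [Algebra A B] :
    B ⊗[A] LinearMap.ker d →ₗ[B] LinearMap.ker (d.baseChange B) :=
  ((LinearMap.ker d).subtype.baseChange B).codRestrict _ (fun x => by
    rw [LinearMap.mem_ker, ← LinearMap.comp_apply, ← LinearMap.baseChange_comp]
    have : d ∘ₗ (LinearMap.ker d).subtype = 0 := by
      ext y; exact y.2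
    rw [this, LinearMap.baseChange_zero, LinearMap.zero_apply])

theorem kerBaseChangeMap_tmul (B : Type*) [CommRing B] [Algebra A B] (b : B)
    (x : LinearMap.ker d) :
    ((kerBaseChangeMap d B (b ⊗ₜ[A] x) : LinearMap.ker (d.baseChange B)) : B ⊗[A] K0) =
      b ⊗ₜ[A] (x : K0) := by
  simp [kerBaseChangeMap]

/-- **`H0` commutes with every base change when `d` is onto** (`K1` projective):
`B ⊗ ker d → ker (d ⊗ B)` is bijective. -/
theorem kerBaseChangeMap_bijective [Module.Projective A K1] (hd : Function.Surjective d)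
    (B : Type*) [CommRing B] [Algebra A B] :
    Function.Bijective (kerBaseChangeMap d B) := by
  obtain ⟨s, hs⟩ := exists_section d hd
  have hr : (kerRetract d s hs).baseChange B ∘ₗ (LinearMap.ker d).subtype.baseChange B =
      LinearMap.id := by
    rw [← LinearMap.baseChange_comp, kerRetract_subtype, LinearMap.baseChange_id]
  constructor
  · intro x y hxy
    have h1 : ((LinearMap.ker d).subtype.baseChange B) x =
        ((LinearMap.ker d).subtype.baseChange B) y := congrArg Subtype.val hxy
    have h2 := congrArg ((kerRetract d s hs).baseChange B) h1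
    rw [← LinearMap.comp_apply, ← LinearMap.comp_apply, hr] at h2
    exact h2
  · rintro ⟨y, hy⟩
    refine ⟨(kerRetract d s hs).baseChange B y, Subtype.ext ?_⟩
    show ((LinearMap.ker d).subtype.baseChange B) ((kerRetract d s hs).baseChange B y) = y
    have hsum : (LinearMap.ker d).subtype ∘ₗ kerRetract d s hs = LinearMap.id - s ∘ₗ d := by
      ext x
      simp [subtype_kerRetract_apply]
    rw [← LinearMap.comp_apply, ← LinearMap.baseChange_comp, hsum, LinearMap.baseChange_sub,
      LinearMap.baseChange_id, LinearMap.baseChange_comp, LinearMap.sub_apply,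
      LinearMap.id_apply, LinearMap.comp_apply]
    rw [LinearMap.mem_ker] at hy
    rw [hy, map_zero, sub_zero]

/-- The equivalence `B ⊗ ker d ≃ ker (d ⊗ B)` for `d` onto a projective module. -/
noncomputable def kerBaseChangeEquiv [Module.Projective A K1] (hd : Function.Surjective d)
    (B : Type*) [CommRing B] [Algebra A B] :
    B ⊗[A] LinearMap.ker d ≃ₗ[B] LinearMap.ker (d.baseChange B) :=
  LinearEquiv.ofBijective (kerBaseChangeMap d B) (kerBaseChangeMap_bijective d hd B)

theorem kerBaseChangeEquiv_tmul [Module.Projective A K1] (hd : Function.Surjective d)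
    (B : Type*) [CommRing B] [Algebra A B] (b : B) (x : LinearMap.ker d) :
    ((kerBaseChangeEquiv d hd B (b ⊗ₜ[A] x) : LinearMap.ker (d.baseChange B)) : B ⊗[A] K0) =
      b ⊗ₜ[A] (x : K0) :=
  kerBaseChangeMap_tmul d B b x

end Ker

section Euler

variable {A : Type u} [CommRing A] {K0 : Type v} {K1 : Type w}
  [AddCommGroup K0] [Module A K0] [AddCommGroup K1] [Module A K1] (d : K0 →ₗ[A] K1)

/-- Rank–nullity on the fibre: `h0 + rank K1 = h1 + rank K0`. -/
theorem h0_add_rank [Module.Finite A K0] [Module.Projective A K0] [Module.Finite A K1]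
    [Module.Projective A K1] (p : PrimeSpectrum A) :
    h0 d p + Module.rankAtStalk K1 p = h1 d p + Module.rankAtStalk K0 p := by
  have e0 : Module.rankAtStalk K0 p =
      Module.finrank p.asIdeal.ResidueField (p.asIdeal.ResidueField ⊗[A] K0) :=
    Module.rankAtStalk_eq p
  have e1 : Module.rankAtStalk K1 p =
      Module.finrank p.asIdeal.ResidueField (p.asIdeal.ResidueField ⊗[A] K1) :=
    Module.rankAtStalk_eq p
  have r1 := LinearMap.finrank_range_add_finrank_ker (d.baseChange p.asIdeal.ResidueField)
  have r2 := Submodule.finrank_quotient_add_finrank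
    (LinearMap.range (d.baseChange p.asIdeal.ResidueField))
  unfold h0 h1
  rw [e0, e1]
  omega

variable (K0 K1) in
/-- The Euler characteristic `rank K0 - rank K1` of the complex, as a function on `Spec A`. -/
noncomputable def chi (p : PrimeSpectrum A) : ℤ :=
  (Module.rankAtStalk K0 p : ℤ) - (Module.rankAtStalk K1 p : ℤ)

/-- `h0 - h1 = chi` on every fibre. -/
theorem h0_sub_h1 [Module.Finite A K0] [Module.Projective A K0] [Module.Finite A K1]
    [Module.Projective A K1] (p : PrimeSpectrum A) :
    (h0 d p : ℤ) - (h1 d p : ℤ) = chi K0 K1 p := by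
  have := h0_add_rank d p
  unfold chi
  omega

variable (K0 K1) in
/-- **The Euler characteristic is locally constant** on `Spec A`. -/
theorem isLocallyConstant_chi [Module.Finite A K0] [Module.Projective A K0] [Module.Finite A K1]
    [Module.Projective A K1] : IsLocallyConstant (chi (A := A) K0 K1) := by
  have : Module.FinitePresentation A K0 := Module.finitePresentation_of_projective A K0
  have : Module.FinitePresentation A K1 := Module.finitePresentation_of_projective A K1
  have h0 : IsLocallyConstant (Module.rankAtStalk (R := A) K0) :=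
    Module.isLocallyConstant_rankAtStalk
  have h1 : IsLocallyConstant (Module.rankAtStalk (R := A) K1) :=
    Module.isLocallyConstant_rankAtStalk
  have h := (h0.prodMk h1).comp (fun x : ℕ × ℕ => ((x.1 : ℤ) - (x.2 : ℤ)))
  exact h

/-- **Upper semicontinuity of `h0`.** -/
theorem isOpen_setOf_h0_le [Module.Finite A K0] [Module.Projective A K0] [Module.Finite A K1]
    [Module.Projective A K1] (m : ℕ) : IsOpen {p : PrimeSpectrum A | h0 d p ≤ m} := by
  rw [isOpen_iff_forall_mem_open]
  intro p hp
  have hU : IsOpen {q : PrimeSpectrum A | chi K0 K1 q = chi K0 K1 p} :=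
    (isLocallyConstant_chi K0 K1).isOpen_fiber _
  refine ⟨{q | h1 d q ≤ h1 d p} ∩ {q | chi K0 K1 q = chi K0 K1 p}, ?_,
    (isOpen_setOf_h1_le d _).inter hU, ⟨le_refl (h1 d p), rfl⟩⟩
  rintro q ⟨hq1, hq2⟩
  have e1 := h0_sub_h1 d p
  have e2 := h0_sub_h1 d q
  simp only [Set.mem_ofPred_eq] at hq1 hq2 hp ⊢
  omega

/-- If `chi` is constant equal to `c` near `p` and `h1 p = 0` then `h0 = c` near `p`:
the locus `{h1 = 0}` is open and there `h0 = chi`. -/
theorem h0_eq_chi_of_h1_eq_zero [Module.Finite A K0] [Module.Projective A K0] [Module.Finite A K1]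
    [Module.Projective A K1] (p : PrimeSpectrum A) (h : h1 d p = 0) :
    (h0 d p : ℤ) = chi K0 K1 p := by
  have := h0_sub_h1 d p
  omega

end Euler

section Field

variable {A : Type u} [CommRing A] {K0 : Type v} {K1 : Type w}
  [AddCommGroup K0] [Module A K0] [AddCommGroup K1] [Module A K1] (d : K0 →ₗ[A] K1)

/-- The fibre dimension can be computed over any field `F` above the residue field of `p`. -/
theorem finrank_tensor_of_tower (Q : Type*) [AddCommGroup Q] [Module A Q]
    (p : PrimeSpectrum A) (F : Type*) [Field F] [Algebra A F]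
    [Algebra p.asIdeal.ResidueField F] [IsScalarTower A p.asIdeal.ResidueField F] :
    Module.finrank F (F ⊗[A] Q) = fibDim Q p := by
  have e : F ⊗[p.asIdeal.ResidueField] (p.asIdeal.ResidueField ⊗[A] Q) ≃ₗ[F] F ⊗[A] Q :=
    TensorProduct.AlgebraTensorModule.cancelBaseChange A p.asIdeal.ResidueField F F Q
  rw [← e.finrank_eq, Module.finrank_baseChange]
  rfl

/-- `h1` at a field-valued point `A → F` whose kernel is `p`. -/
theorem finrank_coker_baseChange_of_tower (p : PrimeSpectrum A) (F : Type*) [Field F]
    [Algebra A F] [Algebra p.asIdeal.ResidueField F] [IsScalarTower A p.asIdeal.ResidueField F] :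
    Module.finrank F ((F ⊗[A] K1) ⧸ LinearMap.range (d.baseChange F)) = h1 d p := by
  rw [(cokerBaseChangeEquiv d F).finrank_eq, finrank_tensor_of_tower _ p F, h1_eq_fibDim]

/-- `h0` at a field-valued point `A → F` whose kernel is `p`. -/
theorem finrank_ker_baseChange_of_tower [Module.Finite A K0] [Module.Finite A K1]
    (p : PrimeSpectrum A) (F : Type*) [Field F]
    [Algebra A F] [Algebra p.asIdeal.ResidueField F] [IsScalarTower A p.asIdeal.ResidueField F] :
    Module.finrank F (LinearMap.ker (d.baseChange F)) = h0 d p := by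
  have r1 := LinearMap.finrank_range_add_finrank_ker (d.baseChange F)
  have r2 := Submodule.finrank_quotient_add_finrank (LinearMap.range (d.baseChange F))
  have r1' := LinearMap.finrank_range_add_finrank_ker (d.baseChange p.asIdeal.ResidueField)
  have r2' := Submodule.finrank_quotient_add_finrank
    (LinearMap.range (d.baseChange p.asIdeal.ResidueField))
  have c := finrank_coker_baseChange_of_tower d p F
  have t0 : Module.finrank F (F ⊗[A] K0) =
      Module.finrank p.asIdeal.ResidueField (p.asIdeal.ResidueField ⊗[A] K0) :=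
    finrank_tensor_of_tower K0 p F
  have t1 : Module.finrank F (F ⊗[A] K1) =
      Module.finrank p.asIdeal.ResidueField (p.asIdeal.ResidueField ⊗[A] K1) :=
    finrank_tensor_of_tower K1 p F
  unfold h1 at c
  unfold h0
  omega

end Field

end Fermat.Agent.S25.P1.H44
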