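import Fermat.Agent.S25.P1.DefsC
import Fermat.Agent.S25.P1.H44_Cpx

/-!
# S25, package P1: `P1-CHI` and `P1-SEMI` from `P1-CPX`

`stmt_CHI_of : Stmt_CPX → Stmt_CHI` (the Euler characteristic of the fibres of a vector bundle is
locally constant) and `stmt_SEMI_of : Stmt_CPX → Stmt_SEMI` (`h0`, `h1` of the fibres are upper
semicontinuous), by the abstract facts on two-term complexes of `H44_Cpx`.
Also `h0At_eq_of_cpx`, `h1At_eq_of_cpx` (the fibre numbers are those of the complex) and
`stmt_H1OPEN_of` (the locus `h1 = 0` is open).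
-/

set_option autoImplicit false

open TensorProduct

universe u

namespace Fermat.Agent.S25.P1.H44

variable {A : Type u} [CommRing A]

/-- The hypothesis "the complex `d` computes the cohomology of `N` after every base change". -/
def Computes (N : Data A) {K0 K1 : Type u} [AddCommGroup K0] [AddCommGroup K1] [Module A K0]
    [Module A K1] (d : K0 →ₗ[A] K1) : Prop :=
  ∀ (A' : Type u) [CommRing A'] [Algebra A A'],
    Nonempty (LinearMap.ker (d.baseChange A') ≃ₗ[A'] (N.baseChange A').H0) ∧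
    Nonempty (((A' ⊗[A] K1) ⧸ LinearMap.range (d.baseChange A')) ≃ₗ[A'] (N.baseChange A').H1)

theorem h0At_eq_of_cpx (N : Data A) {K0 K1 : Type u} [AddCommGroup K0] [AddCommGroup K1]
    [Module A K0] [Module A K1] (d : K0 →ₗ[A] K1) (hd : Computes N d) (p : PrimeSpectrum A) :
    N.h0At p = h0 d p := by
  obtain ⟨⟨e0⟩, -⟩ := hd p.asIdeal.ResidueField
  exact e0.finrank_eq.symm

theorem h1At_eq_of_cpx (N : Data A) {K0 K1 : Type u} [AddCommGroup K0] [AddCommGroup K1]
    [Module A K0] [Module A K1] (d : K0 →ₗ[A] K1) (hd : Computes N d) (p : PrimeSpectrum A) :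
    N.h1At p = h1 d p := by
  obtain ⟨-, ⟨e1⟩⟩ := hd p.asIdeal.ResidueField
  exact e1.finrank_eq.symm

/-- **P1-CHI** from **P1-CPX**. -/
theorem stmt_CHI_of (h : Stmt_CPX.{u}) : Stmt_CHI.{u} := by
  intro A _ N hN
  obtain ⟨K0, K1, _, _, _, _, _, _, _, _, d, hd⟩ := h A N hN
  have hfun : (fun p : PrimeSpectrum A => (N.h0At p : ℤ) - (N.h1At p : ℤ)) = chi K0 K1 := by
    funext p
    rw [h0At_eq_of_cpx N d hd p, h1At_eq_of_cpx N d hd p, h0_sub_h1]
  rw [hfun]
  exact isLocallyConstant_chi K0 K1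

/-- **P1-SEMI** from **P1-CPX**. -/
theorem stmt_SEMI_of (h : Stmt_CPX.{u}) : Stmt_SEMI.{u} := by
  intro A _ N hN c
  obtain ⟨K0, K1, _, _, _, _, _, _, _, _, d, hd⟩ := h A N hN
  rcases Nat.eq_zero_or_pos c with hc | hc
  · subst hc
    simp
  · constructor
    · have : {p : PrimeSpectrum A | c ≤ N.h0At p} = {p | h0 d p ≤ c - 1}ᶜ := by
        ext p
        simp only [Set.mem_ofPred_eq, Set.mem_compl_iff, h0At_eq_of_cpx N d hd p]
        omega
      rw [this]
      exact (isOpen_setOf_h0_le d (c - 1)).isClosed_compl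
    · have : {p : PrimeSpectrum A | c ≤ N.h1At p} = {p | h1 d p ≤ c - 1}ᶜ := by
        ext p
        simp only [Set.mem_ofPred_eq, Set.mem_compl_iff, h1At_eq_of_cpx N d hd p]
        omega
      rw [this]
      exact (isOpen_setOf_h1_le d (c - 1)).isClosed_compl

/-- The locus where `h1` of the fibre vanishes is open (from **P1-CPX**). -/
theorem isOpen_setOf_h1At_eq_zero_of (h : Stmt_CPX.{u}) (A : Type u) [CommRing A] (N : Data A)
    (hN : N.IsVB) : IsOpen {p : PrimeSpectrum A | N.h1At p = 0} := by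
  have := (stmt_SEMI_of h A N hN 1).2
  have e : {p : PrimeSpectrum A | N.h1At p = 0} = {p | 1 ≤ N.h1At p}ᶜ := by
    ext p
    simp only [Set.mem_ofPred_eq, Set.mem_compl_iff]
    omega
  rw [e]
  exact this.isOpen_compl

/-- On the locus `h1 = 0` the function `h0` is locally constant (from **P1-CPX**): for every `p`
with `h1At p = 0` there is an open neighbourhood on which `h1At = 0` and `h0At` is constant. -/
theorem exists_open_h0At_const_of (h : Stmt_CPX.{u}) (A : Type u) [CommRing A] (N : Data A)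
    (hN : N.IsVB) (p : PrimeSpectrum A) (hp : N.h1At p = 0) :
    ∃ U : Set (PrimeSpectrum A), IsOpen U ∧ p ∈ U ∧
      ∀ q ∈ U, N.h1At q = 0 ∧ N.h0At q = N.h0At p := by
  have hchi := stmt_CHI_of h A N hN
  refine ⟨{q | N.h1At q = 0} ∩
    {q | (N.h0At q : ℤ) - (N.h1At q : ℤ) = (N.h0At p : ℤ) - (N.h1At p : ℤ)}, ?_, ⟨hp, rfl⟩, ?_⟩
  · exact (isOpen_setOf_h1At_eq_zero_of h A N hN).inter (hchi.isOpen_fiber _)
  · rintro q ⟨hq1, hq2⟩
    simp only [Set.mem_ofPred_eq] at hq1 hq2
    refine ⟨hq1, ?_⟩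
    omega

end Fermat.Agent.S25.P1.H44
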