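import Mathlib
import Fermat.Agent.S25.P1.Defs

/-!
# S25, package P1, leaf CPX (helper67): the two-term complex — core over one ring

For two-chart data `N` and `m : ℕ`: `K0 = H0 (N(m))`, `K1 = N1 / Z1^m N1`,
`d (a, b) = [b]`.  If `Z1 ^ m` is injective then `ker d ≃ H0 N`; if moreover `H1 (N(m)) = 0` then
`coker d ≃ H1 N`.  (This is the long exact sequence of `0 → N → N(m) → N1 / Z1^m N1 → 0`, by hand.)
-/

set_option autoImplicit false

universe u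

open Function

namespace Fermat.Agent.S25.P1.H67

variable {A : Type u} [CommRing A]

theorem mem_B1_iff (N' : Data A) (x : N'.N01) :
    x ∈ N'.B1 ↔ ∃ (a : N'.N0) (b : N'.N1), x = N'.j0 a + N'.j1 b := by
  constructor
  · intro hx
    obtain ⟨y, ⟨a, rfl⟩, z, ⟨b, rfl⟩, hx⟩ := Submodule.mem_sup.mp hx
    exact ⟨a, b, hx.symm⟩
  · rintro ⟨a, b, rfl⟩
    exact Submodule.add_mem _ (Submodule.mem_sup_left ⟨a, rfl⟩) (Submodule.mem_sup_right ⟨b, rfl⟩)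

theorem h1_subsingleton_iff (N' : Data A) :
    Subsingleton N'.H1 ↔ ∀ x : N'.N01, ∃ (a : N'.N0) (b : N'.N1), x = N'.j0 a + N'.j1 b := by
  constructor
  · intro h x
    have h0 : N'.B1.mkQ x = 0 := Subsingleton.elim _ _
    rw [Submodule.mkQ_apply, Submodule.Quotient.mk_eq_zero] at h0
    exact (mem_B1_iff N' x).mp h0
  · intro h
    refine ⟨fun x y => ?_⟩
    have key : ∀ z : N'.H1, z = 0 := by
      intro z
      obtain ⟨w, rfl⟩ := N'.B1.mkQ_surjective z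
      rw [Submodule.mkQ_apply, Submodule.Quotient.mk_eq_zero]
      exact (mem_B1_iff N' w).mpr (h w)
    rw [key x, key y]

section Core

variable (N : Data A) (m : ℕ)

theorem T_pow_j1_Z1_pow (n : N.N1) : (N.T ^ m) (N.j1 ((N.Z1 ^ m) n)) = N.j1 n := by
  induction m generalizing n with
  | zero => rfl
  | succ k ih =>
    have h1 : (N.Z1 ^ (k + 1)) n = N.Z1 ((N.Z1 ^ k) n) := by
      rw [pow_succ']; rfl
    have h2 : (N.T ^ (k + 1)) (N.j1 (N.Z1 ((N.Z1 ^ k) n))) =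
        (N.T ^ k) (N.T (N.j1 (N.Z1 ((N.Z1 ^ k) n)))) := by
      rw [pow_succ]; rfl
    rw [h1, h2, N.j1_Z, ih]

/-- `H0 (N(m))` as a submodule of `N0 × N1` of `N` itself. -/
def H0m : Submodule A (N.N0 × N.N1) :=
  LinearMap.eqLocus (N.j0 ∘ₗ LinearMap.fst A N.N0 N.N1)
    ((N.T ^ m).toLinearMap ∘ₗ N.j1 ∘ₗ LinearMap.snd A N.N0 N.N1)

theorem mem_H0m (p : N.N0 × N.N1) :
    p ∈ H0m N m ↔ N.j0 p.1 = (N.T ^ m) (N.j1 p.2) := Iff.rfl

theorem twist_j1_eq (n : N.N1) :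
    (N.twist (m : ℤ)).j1 n = (N.T ^ m) (N.j1 n) := by
  have h : (N.twist (m : ℤ)).j1 n = (N.T ^ (m : ℤ)) (N.j1 n) := rfl
  rw [h, zpow_natCast]

/-- The identification `H0 (N(m)) = H0m`. -/
def twistH0Equiv : (N.twist (m : ℤ)).H0 ≃ₗ[A] H0m N m where
  toFun p := ⟨p.1, by
    have h : (N.twist (m : ℤ)).j0 p.1.1 = (N.twist (m : ℤ)).j1 p.1.2 := p.2
    rw [twist_j1_eq] at h
    exact h⟩
  invFun q := ⟨q.1, by
    have h : N.j0 q.1.1 = (N.T ^ m) (N.j1 q.1.2) := q.2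
    have h' : (N.twist (m : ℤ)).j0 q.1.1 = (N.twist (m : ℤ)).j1 q.1.2 := by
      rw [twist_j1_eq]
      exact h
    exact h'⟩
  map_add' := fun _ _ => rfl
  map_smul' := fun _ _ => rfl
  left_inv := fun _ => rfl
  right_inv := fun _ => rfl

theorem twistH0Equiv_coe (p : (N.twist (m : ℤ)).H0) : (twistH0Equiv N m p).1 = p.1 := rfl

/-- `K1 = N1 / Z1^m N1`. -/
abbrev K1 : Type u := N.N1 ⧸ LinearMap.range (N.Z1 ^ m)

/-- The second projection `H0 (N(m)) → N1`. -/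
def sndH0 : H0m N m →ₗ[A] N.N1 :=
  LinearMap.snd A N.N0 N.N1 ∘ₗ (H0m N m).subtype

theorem sndH0_apply (h : H0m N m) : sndH0 N m h = h.1.2 := rfl

/-- The differential `d : H0 (N(m)) → N1 / Z1^m N1`, `(a, b) ↦ [b]`. -/
def dK : H0m N m →ₗ[A] K1 N m :=
  (LinearMap.range (N.Z1 ^ m)).mkQ ∘ₗ sndH0 N m

theorem dK_apply (h : H0m N m) :
    dK N m h = (LinearMap.range (N.Z1 ^ m)).mkQ h.1.2 := rfl

theorem dK_eq_zero_iff (h : H0m N m) :
    dK N m h = 0 ↔ ∃ b' : N.N1, (N.Z1 ^ m) b' = h.1.2 := by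
  rw [dK_apply, Submodule.mkQ_apply, Submodule.Quotient.mk_eq_zero]
  rfl

/-- The inclusion `H0 N → H0 (N(m))`, `(a, b') ↦ (a, Z1^m b')`. -/
def inclH0 : N.H0 →ₗ[A] H0m N m :=
  ((LinearMap.id.prodMap (N.Z1 ^ m)).comp N.H0.subtype).codRestrict (H0m N m)
    (fun p => by
      have hp : N.j0 p.1.1 = N.j1 p.1.2 := p.2
      rw [mem_H0m]
      change N.j0 p.1.1 = (N.T ^ m) (N.j1 ((N.Z1 ^ m) p.1.2))
      rw [T_pow_j1_Z1_pow, hp])

theorem inclH0_fst (p : N.H0) : (inclH0 N m p).1.1 = p.1.1 := rfl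

theorem inclH0_snd (p : N.H0) : (inclH0 N m p).1.2 = (N.Z1 ^ m) p.1.2 := rfl

theorem dK_inclH0 (p : N.H0) : dK N m (inclH0 N m p) = 0 :=
  (dK_eq_zero_iff N m _).mpr ⟨p.1.2, rfl⟩

/-- `H0 N → ker d`. -/
def toKer : N.H0 →ₗ[A] LinearMap.ker (dK N m) :=
  (inclH0 N m).codRestrict _ (fun p => dK_inclH0 N m p)

theorem toKer_injective (hZ : Injective (N.Z1 ^ m)) : Injective (toKer N m) := by
  intro p q hpq
  have h : (toKer N m p).1.1 = (toKer N m q).1.1 := by rw [hpq]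
  have h1 : ((toKer N m p).1.1).1 = ((toKer N m q).1.1).1 := congrArg Prod.fst h
  have h2 : ((toKer N m p).1.1).2 = ((toKer N m q).1.1).2 := congrArg Prod.snd h
  have h1' : p.1.1 = q.1.1 := h1
  have h2' : (N.Z1 ^ m) p.1.2 = (N.Z1 ^ m) q.1.2 := h2
  exact Subtype.ext (Prod.ext h1' (hZ h2'))

theorem toKer_surjective : Surjective (toKer N m) := by
  rintro ⟨h, hh⟩
  obtain ⟨b', hb'⟩ := (dK_eq_zero_iff N m h).mp hh
  have hmem : N.j0 h.1.1 = (N.T ^ m) (N.j1 h.1.2) := (mem_H0m N m h.1).mp h.2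
  refine ⟨⟨(h.1.1, b'), ?_⟩, ?_⟩
  · rw [Data.mem_H0]
    change N.j0 h.1.1 = N.j1 b'
    rw [hmem, ← hb', T_pow_j1_Z1_pow]
  · apply Subtype.ext
    apply Subtype.ext
    exact Prod.ext rfl hb'

/-- **ker d ≃ H0 N**. -/
noncomputable def kerEquiv (hZ : Injective (N.Z1 ^ m)) : LinearMap.ker (dK N m) ≃ₗ[A] N.H0 :=
  (LinearEquiv.ofBijective (toKer N m) ⟨toKer_injective N m hZ, toKer_surjective N m⟩).symm

/-- `N1 → H1 N`, `b ↦ [T^m (j1 b)]`. -/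
def phi : N.N1 →ₗ[A] N.H1 :=
  N.B1.mkQ ∘ₗ (N.T ^ m).toLinearMap ∘ₗ N.j1

theorem phi_apply (b : N.N1) : phi N m b = N.B1.mkQ ((N.T ^ m) (N.j1 b)) := rfl

theorem mkQ_j0 (a : N.N0) : N.B1.mkQ (N.j0 a) = 0 := by
  rw [Submodule.mkQ_apply, Submodule.Quotient.mk_eq_zero]
  exact Submodule.mem_sup_left ⟨a, rfl⟩

theorem mkQ_j1 (b : N.N1) : N.B1.mkQ (N.j1 b) = 0 := by
  rw [Submodule.mkQ_apply, Submodule.Quotient.mk_eq_zero]
  exact Submodule.mem_sup_right ⟨b, rfl⟩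

theorem phi_Z1_pow (b : N.N1) : phi N m ((N.Z1 ^ m) b) = 0 := by
  rw [phi_apply, T_pow_j1_Z1_pow, mkQ_j1]

/-- `K1 → H1 N`. -/
def phiBar : K1 N m →ₗ[A] N.H1 :=
  (LinearMap.range (N.Z1 ^ m)).liftQ (phi N m) (by
    rintro x ⟨b, rfl⟩
    exact phi_Z1_pow N m b)

theorem phiBar_mk (b : N.N1) :
    phiBar N m ((LinearMap.range (N.Z1 ^ m)).mkQ b) = phi N m b := rfl

theorem phiBar_dK (h : H0m N m) : phiBar N m (dK N m h) = 0 := by
  rw [dK_apply, phiBar_mk, phi_apply, ← (mem_H0m N m h.1).mp h.2, mkQ_j0]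

/-- `coker d → H1 N`. -/
def phiTilde : (K1 N m ⧸ LinearMap.range (dK N m)) →ₗ[A] N.H1 :=
  (LinearMap.range (dK N m)).liftQ (phiBar N m) (by
    rintro x ⟨h, rfl⟩
    exact phiBar_dK N m h)

theorem phiTilde_mk (b : N.N1) :
    phiTilde N m ((LinearMap.range (dK N m)).mkQ ((LinearMap.range (N.Z1 ^ m)).mkQ b)) =
      phi N m b := rfl

/-- `H1 (N(m)) = 0`, written on `N`. -/
def Van : Prop := ∀ x : N.N01, ∃ (a : N.N0) (b : N.N1), x = N.j0 a + (N.T ^ m) (N.j1 b)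

theorem van_of_subsingleton (hvan : Subsingleton (N.twist (m : ℤ)).H1) : Van N m := by
  intro x
  obtain ⟨a, b, hab⟩ := (h1_subsingleton_iff (N.twist (m : ℤ))).mp hvan x
  refine ⟨a, b, ?_⟩
  rw [← twist_j1_eq]
  exact hab

theorem subsingleton_of_van (hvan : Van N m) : Subsingleton (N.twist (m : ℤ)).H1 := by
  refine (h1_subsingleton_iff (N.twist (m : ℤ))).mpr (fun x => ?_)
  obtain ⟨a, b, hab⟩ := hvan x
  refine ⟨a, b, ?_⟩
  rw [twist_j1_eq]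
  exact hab

theorem phiTilde_surjective (hvan : Van N m) :
    Surjective (phiTilde N m) := by
  intro y
  obtain ⟨x, rfl⟩ := N.B1.mkQ_surjective y
  obtain ⟨a, b, rfl⟩ := hvan x
  refine ⟨(LinearMap.range (dK N m)).mkQ ((LinearMap.range (N.Z1 ^ m)).mkQ b), ?_⟩
  rw [phiTilde_mk, phi_apply, map_add, mkQ_j0, zero_add]

theorem phiTilde_injective : Injective (phiTilde N m) := by
  rw [injective_iff_map_eq_zero]
  intro y hy
  obtain ⟨y', rfl⟩ := (LinearMap.range (dK N m)).mkQ_surjective y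
  obtain ⟨b, rfl⟩ := (LinearMap.range (N.Z1 ^ m)).mkQ_surjective y'
  rw [phiTilde_mk, phi_apply, Submodule.mkQ_apply, Submodule.Quotient.mk_eq_zero] at hy
  obtain ⟨y0, ⟨a, rfl⟩, y1, ⟨b', rfl⟩, hsum⟩ := Submodule.mem_sup.mp hy
  -- `T^m j1 (b - Z1^m b') = j0 a`
  have hmem : ((a, b - (N.Z1 ^ m) b') : N.N0 × N.N1) ∈ H0m N m := by
    rw [mem_H0m]
    change N.j0 a = (N.T ^ m) (N.j1 (b - (N.Z1 ^ m) b'))
    rw [map_sub, map_sub, T_pow_j1_Z1_pow, ← hsum]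
    abel
  rw [Submodule.mkQ_apply, Submodule.Quotient.mk_eq_zero]
  refine ⟨⟨(a, b - (N.Z1 ^ m) b'), hmem⟩, ?_⟩
  rw [dK_apply]
  change (LinearMap.range (N.Z1 ^ m)).mkQ (b - (N.Z1 ^ m) b') = _
  rw [map_sub]
  have : (LinearMap.range (N.Z1 ^ m)).mkQ ((N.Z1 ^ m) b') = 0 := by
    rw [Submodule.mkQ_apply, Submodule.Quotient.mk_eq_zero]
    exact ⟨b', rfl⟩
  rw [this, sub_zero]

/-- **coker d ≃ H1 N**. -/
noncomputable def cokerEquiv (hvan : Van N m) :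
    (K1 N m ⧸ LinearMap.range (dK N m)) ≃ₗ[A] N.H1 :=
  LinearEquiv.ofBijective (phiTilde N m) ⟨phiTilde_injective N m, phiTilde_surjective N m hvan⟩

end Core

end Fermat.Agent.S25.P1.H67
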