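import Mathlib
import Fermat.Agent.S25.P1.H67_CpxCore

/-!
# S25, package P1, leaf CPX (helper67): consequences of `Proj0` / `Proj1`

* `Proj1 ⟹ Z1 ^ m` injective and `N1 / Z1^m N1` finitely generated projective over `A`
  (a retract of `Fin r → Fin m → A`, by truncation of polynomials);
* `Proj0 ⟹ FG0`.
-/

set_option autoImplicit false

universe u

open Function Polynomial

namespace Fermat.Agent.S25.P1.H67

variable {A : Type u} [CommRing A]

/-! ### Truncation of polynomials -/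

/-- The coefficients of degree `< m`. -/
noncomputable def truncL (m : ℕ) : A[X] →ₗ[A] (Fin m → A) :=
  LinearMap.pi fun j => Polynomial.lcoeff A (j : ℕ)

/-- The polynomial with given coefficients of degree `< m`. -/
noncomputable def liftL (m : ℕ) : (Fin m → A) →ₗ[A] A[X] :=
  ∑ j : Fin m, (Polynomial.monomial (j : ℕ)) ∘ₗ (LinearMap.proj j : (Fin m → A) →ₗ[A] A)

theorem truncL_apply (m : ℕ) (q : A[X]) (j : Fin m) : truncL m q j = q.coeff j := rfl

theorem liftL_apply (m : ℕ) (c : Fin m → A) :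
    liftL m c = ∑ j : Fin m, Polynomial.monomial (j : ℕ) (c j) := by
  simp [liftL, LinearMap.sum_apply]

theorem coeff_liftL (m : ℕ) (c : Fin m → A) (d : ℕ) (hd : d < m) :
    (liftL m c).coeff d = c ⟨d, hd⟩ := by
  rw [liftL_apply, Polynomial.finsetSum_coeff]
  rw [Finset.sum_eq_single (⟨d, hd⟩ : Fin m)]
  · simp
  · intro j _ hj
    rw [Polynomial.coeff_monomial, if_neg]
    intro h
    exact hj (Fin.ext h)
  · intro h
    exact absurd (Finset.mem_univ _) h

theorem truncL_X_pow_mul (m : ℕ) (q : A[X]) : truncL m (X ^ m * q) = 0 := by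
  funext j
  rw [truncL_apply, Polynomial.coeff_X_pow_mul', if_neg (not_le.mpr j.2)]
  rfl

theorem X_pow_dvd_sub_liftL (m : ℕ) (q : A[X]) : X ^ m ∣ q - liftL m (truncL m q) := by
  rw [Polynomial.X_pow_dvd_iff]
  intro d hd
  rw [Polynomial.coeff_sub, coeff_liftL m _ d hd, truncL_apply, sub_self]

/-! ### A retract of a free `A[X]`-module -/

section Retract

variable {V : Type u} [AddCommGroup V] [Module A V] (Z : V →ₗ[A] V) {r : ℕ}
  (i : V →ₗ[A] (Fin r → A[X])) (p : (Fin r → A[X]) →ₗ[A] V)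

theorem i_pow (hiZ : ∀ n, i (Z n) = (X : A[X]) • i n) (m : ℕ) (n : V) :
    i ((Z ^ m) n) = (X : A[X]) ^ m • i n := by
  induction m generalizing n with
  | zero => simp
  | succ k ih =>
    have h1 : (Z ^ (k + 1)) n = Z ((Z ^ k) n) := by rw [pow_succ']; rfl
    rw [h1, hiZ, ih, pow_succ', mul_smul]

theorem p_pow (hpX : ∀ v, p ((X : A[X]) • v) = Z (p v)) (m : ℕ) (v : Fin r → A[X]) :
    p ((X : A[X]) ^ m • v) = (Z ^ m) (p v) := by
  induction m generalizing v with
  | zero => simp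
  | succ k ih =>
    have h1 : (Z ^ (k + 1)) (p v) = Z ((Z ^ k) (p v)) := by rw [pow_succ']; rfl
    rw [h1, ← ih, ← hpX, pow_succ', mul_smul]

theorem pow_injective_of_retract (hpi : ∀ n, p (i n) = n)
    (hiZ : ∀ n, i (Z n) = (X : A[X]) • i n) (m : ℕ) : Injective (Z ^ m) := by
  rw [injective_iff_map_eq_zero]
  intro n hn
  have h := i_pow Z i hiZ m n
  rw [hn, map_zero] at h
  have hin : i n = 0 := by
    funext k
    have hk : (X : A[X]) ^ m * i n k = 0 := by
      have := congrFun h k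
      simpa using this.symm
    exact ((Polynomial.monic_X_pow m).mul_right_eq_zero_iff).mp hk
  rw [← hpi n, hin, map_zero]

/-- `V → Fin r → Fin m → A`: the coefficients of degree `< m` of the coordinates. -/
noncomputable def sL (m : ℕ) : V →ₗ[A] (Fin r → Fin m → A) :=
  (LinearMap.pi fun k => truncL m ∘ₗ (LinearMap.proj k : (Fin r → A[X]) →ₗ[A] A[X])) ∘ₗ i

/-- `Fin r → Fin m → A → V`. -/
noncomputable def tL (m : ℕ) : (Fin r → Fin m → A) →ₗ[A] V :=
  p ∘ₗ (LinearMap.pi fun k => liftL m ∘ₗ (LinearMap.proj k : (Fin r → Fin m → A) →ₗ[A] _))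

theorem sL_apply (m : ℕ) (n : V) (k : Fin r) : sL i m n k = truncL m (i n k) := rfl

theorem tL_apply (m : ℕ) (c : Fin r → Fin m → A) : tL p m c = p (fun k => liftL m (c k)) := rfl

theorem sL_pow (hiZ : ∀ n, i (Z n) = (X : A[X]) • i n) (m : ℕ) (n : V) :
    sL i m ((Z ^ m) n) = 0 := by
  funext k
  rw [sL_apply, i_pow Z i hiZ]
  exact truncL_X_pow_mul m _

theorem sub_tL_sL_mem (hpi : ∀ n, p (i n) = n) (hpX : ∀ v, p ((X : A[X]) • v) = Z (p v))
    (m : ℕ) (n : V) : n - tL p m (sL i m n) ∈ LinearMap.range (Z ^ m) := by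
  have hw : ∀ k, ∃ w : A[X], i n k - liftL m (truncL m (i n k)) = X ^ m * w :=
    fun k => X_pow_dvd_sub_liftL m (i n k)
  choose w hw using hw
  refine ⟨p w, ?_⟩
  rw [← p_pow Z p hpX, tL_apply]
  have : (X : A[X]) ^ m • w = i n - fun k => liftL m (sL i m n k) := by
    funext k
    simp only [Pi.smul_apply, smul_eq_mul, Pi.sub_apply, sL_apply]
    exact (hw k).symm
  rw [this, map_sub, hpi]

end Retract

/-! ### Consequences for two-chart data -/

theorem Z1_pow_injective (N : Data A) (h : N.Proj1) (m : ℕ) : Injective (N.Z1 ^ m) := by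
  obtain ⟨r, i, p, hpi, hiZ, hpX⟩ := h
  exact pow_injective_of_retract N.Z1 i p hpi hiZ m

/-- `K1 → Fin r → Fin m → A`. -/
noncomputable def sBar (N : Data A) (m : ℕ) {r : ℕ} (i : N.N1 →ₗ[A] (Fin r → A[X]))
    (hiZ : ∀ n, i (N.Z1 n) = (X : A[X]) • i n) : K1 N m →ₗ[A] (Fin r → Fin m → A) :=
  (LinearMap.range (N.Z1 ^ m)).liftQ (sL i m) (by
    rintro x ⟨n, rfl⟩
    exact sL_pow N.Z1 i hiZ m n)

theorem K1_retract (N : Data A) (m : ℕ) {r : ℕ} (i : N.N1 →ₗ[A] (Fin r → A[X]))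
    (p : (Fin r → A[X]) →ₗ[A] N.N1) (hpi : ∀ n, p (i n) = n)
    (hiZ : ∀ n, i (N.Z1 n) = (X : A[X]) • i n) (hpX : ∀ v, p ((X : A[X]) • v) = N.Z1 (p v)) :
    ((LinearMap.range (N.Z1 ^ m)).mkQ ∘ₗ tL p m).comp (sBar N m i hiZ) = LinearMap.id := by
  apply LinearMap.ext
  intro y
  obtain ⟨n, rfl⟩ := (LinearMap.range (N.Z1 ^ m)).mkQ_surjective y
  change (LinearMap.range (N.Z1 ^ m)).mkQ (tL p m (sL i m n)) = (LinearMap.range (N.Z1 ^ m)).mkQ n
  symm
  rw [← sub_eq_zero, ← map_sub, Submodule.mkQ_apply, Submodule.Quotient.mk_eq_zero]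
  exact sub_tL_sL_mem N.Z1 i p hpi hpX m n

theorem K1_projective (N : Data A) (h : N.Proj1) (m : ℕ) : Module.Projective A (K1 N m) := by
  obtain ⟨r, i, p, hpi, hiZ, hpX⟩ := h
  exact Module.Projective.of_split (sBar N m i hiZ) _ (K1_retract N m i p hpi hiZ hpX)

theorem K1_finite (N : Data A) (h : N.Proj1) (m : ℕ) : Module.Finite A (K1 N m) := by
  obtain ⟨r, i, p, hpi, hiZ, hpX⟩ := h
  refine Module.Finite.of_surjective ((LinearMap.range (N.Z1 ^ m)).mkQ ∘ₗ tL p m) ?_
  intro y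
  refine ⟨sBar N m i hiZ y, ?_⟩
  exact LinearMap.congr_fun (K1_retract N m i p hpi hiZ hpX) y

/-- `Proj0 ⟹ FG0`. -/
theorem fg0_of_proj0 (N : Data A) (h : N.Proj0) : N.FG0 := by
  classical
  obtain ⟨r, i, p, hpi, hiX, hpX⟩ := h
  refine ⟨Finset.univ.image (fun k : Fin r => p (Pi.single k 1)), ?_⟩
  rw [eq_top_iff]
  intro n _
  set Sp := Submodule.span A
    {y | ∃ (k : ℕ) (s : N.N0), s ∈ Finset.univ.image (fun k : Fin r => p (Pi.single k 1)) ∧
      y = (N.X0 ^ k) s} with hSp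
  have hgen : ∀ (k : Fin r) (j : ℕ), (N.X0 ^ j) (p (Pi.single k 1)) ∈ Sp := by
    intro k j
    apply Submodule.subset_span
    exact ⟨j, _, Finset.mem_image.mpr ⟨k, Finset.mem_univ _, rfl⟩, rfl⟩
  have key : ∀ (k : Fin r) (q : A[X]), p (Pi.single k q) ∈ Sp := by
    intro k q
    induction q using Polynomial.induction_on' with
    | add q1 q2 h1 h2 =>
      rw [Pi.single_add, map_add]
      exact Submodule.add_mem _ h1 h2
    | monomial j a =>
      have h1 : (Pi.single k (Polynomial.monomial j a) : Fin r → A[X]) =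
          a • ((X : A[X]) ^ j • (Pi.single k (1 : A[X]) : Fin r → A[X])) := by
        funext l
        by_cases hl : l = k
        · subst hl
          simp [Polynomial.smul_eq_C_mul, Polynomial.C_mul_X_pow_eq_monomial]
        · simp [Pi.single_eq_of_ne hl]
      rw [h1, map_smul, p_pow N.X0 p hpX]
      exact Submodule.smul_mem _ _ (hgen k j)
  have hn : n = ∑ k : Fin r, p (Pi.single k (i n k)) := by
    rw [← map_sum, Finset.univ_sum_single, hpi]
  rw [hn]
  exact Submodule.sum_mem _ (fun k _ => key k _)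

end Fermat.Agent.S25.P1.H67
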