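import Mathlib
import Fermat.Agent.S25.P1.H67_CpxProj

/-!
# S25, package P1, leaf CPX (helper67): `Stmt_CPX` (KEY 4)

For a vector bundle `N` (two-chart data over any ring `A`) there is a two-term complex
`d : K0 → K1` of finitely generated projective `A`-modules which computes `H0` and `H1` of `N`
after EVERY base change `A → A'`:  `K0 = H0 (N(m))`, `K1 = N1 / Z1^m N1`, `d (a, b) = [b]`,
`m ≫ 0` with `H1 (N(m)) = 0`.

`stmt_CPX_of : Stmt_VAN → Stmt_TW → Stmt_H0PROJ → Stmt_BC0 → Stmt_CPX`.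
-/

set_option autoImplicit false

universe u

open Function TensorProduct

namespace Fermat.Agent.S25.P1.H67

variable {A : Type u} [CommRing A]

section BaseChange

variable (N : Data A) (m : ℕ) (A' : Type u) [CommRing A'] [Algebra A A']

theorem bc_j0_tmul (c : A') (a : N.N0) :
    (N.baseChange A').j0 (c ⊗ₜ[A] a) = c ⊗ₜ[A] N.j0 a := rfl

theorem bc_j1_tmul (c : A') (b : N.N1) :
    (N.baseChange A').j1 (c ⊗ₜ[A] b) = c ⊗ₜ[A] N.j1 b := rfl

theorem bc_T_tmul (c : A') (z : N.N01) :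
    (N.baseChange A').T (c ⊗ₜ[A] z) = c ⊗ₜ[A] N.T z := rfl

theorem bc_T_pow_tmul (c : A') (z : N.N01) :
    ((N.baseChange A').T ^ m) (c ⊗ₜ[A] z) = c ⊗ₜ[A] (N.T ^ m) z := by
  induction m generalizing z with
  | zero => rfl
  | succ k ih =>
    have h1 : ((N.baseChange A').T ^ (k + 1)) (c ⊗ₜ[A] z) =
        ((N.baseChange A').T ^ k) ((N.baseChange A').T (c ⊗ₜ[A] z)) := by
      rw [pow_succ]; rfl
    have h2 : (N.T ^ (k + 1)) z = (N.T ^ k) (N.T z) := by
      rw [pow_succ]; rfl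
    rw [h1, bc_T_tmul, ih, h2]

theorem bc_Z1_pow : (N.baseChange A').Z1 ^ m = (N.Z1 ^ m).baseChange A' :=
  (LinearMap.baseChange_pow A A' N.N1 N.Z1 m).symm

/-- `T_{A'} ^ m` on pure tensors, for the explicit base change of `T`. -/
theorem bcT_pow_tmul (c : A') (z : N.N01) :
    ((LinearEquiv.baseChange A A' N.N01 N.N01 N.T) ^ m) (c ⊗ₜ[A] z) = c ⊗ₜ[A] (N.T ^ m) z :=
  bc_T_pow_tmul N m A' c z

/-- `H1 (N(m)) = 0` is stable under base change (explicit form). -/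
theorem van_baseChange_aux (hvan : Van N m) (x : A' ⊗[A] N.N01) :
    ∃ (a : A' ⊗[A] N.N0) (b : A' ⊗[A] N.N1),
      x = (N.j0.baseChange A') a +
        ((LinearEquiv.baseChange A A' N.N01 N.N01 N.T) ^ m) ((N.j1.baseChange A') b) := by
  induction x using TensorProduct.induction_on with
  | zero => exact ⟨0, 0, by rw [map_zero, map_zero, map_zero, add_zero]⟩
  | tmul c y =>
    obtain ⟨a, b, rfl⟩ := hvan y
    refine ⟨c ⊗ₜ[A] a, c ⊗ₜ[A] b, ?_⟩
    rw [LinearMap.baseChange_tmul, LinearMap.baseChange_tmul, bcT_pow_tmul,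
      TensorProduct.tmul_add]
  | add x y hx hy =>
    obtain ⟨a, b, hab⟩ := hx
    obtain ⟨a', b', hab'⟩ := hy
    refine ⟨a + a', b + b', ?_⟩
    rw [map_add, map_add, map_add]
    nth_rewrite 1 [hab]
    nth_rewrite 1 [hab']
    abel

/-- `H1 (N(m)) = 0` is stable under base change. -/
theorem van_baseChange (hvan : Van N m) : Van (N.baseChange A') m :=
  fun x => van_baseChange_aux N m A' hvan x

/-- the two descriptions of the gluing map of `(N(m))_{A'}` (explicit form) -/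
theorem twist_bc_j1_aux (y : A' ⊗[A] N.N1) :
    (((N.T ^ m).toLinearMap ∘ₗ N.j1).baseChange A') y =
      ((LinearEquiv.baseChange A A' N.N01 N.N01 N.T) ^ m) ((N.j1.baseChange A') y) := by
  induction y using TensorProduct.induction_on with
  | zero => rw [map_zero, map_zero, map_zero]
  | tmul c b =>
    rw [LinearMap.baseChange_tmul, LinearMap.baseChange_tmul, bcT_pow_tmul]
    rfl
  | add x y hx hy => rw [map_add, map_add, map_add, hx, hy]

theorem twist_j1_linear : (N.twist (m : ℤ)).j1 = (N.T ^ m).toLinearMap ∘ₗ N.j1 := by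
  apply LinearMap.ext
  intro n
  exact twist_j1_eq N m n

/-- the two descriptions of the gluing map of `(N(m))_{A'}` -/
theorem twist_bc_j1 (y : A' ⊗[A] N.N1) :
    ((N.twist (m : ℤ)).baseChange A').j1 y =
      ((N.baseChange A').T ^ m) ((N.baseChange A').j1 y) := by
  have h1 : ((N.twist (m : ℤ)).baseChange A').j1 y = ((N.twist (m : ℤ)).j1.baseChange A') y := rfl
  have h2 : ((N.twist (m : ℤ)).j1.baseChange A') y =
      (((N.T ^ m).toLinearMap ∘ₗ N.j1).baseChange A') y :=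
    congrArg (fun f : N.N1 →ₗ[A] N.N01 => (f.baseChange A') y) (twist_j1_linear N m)
  exact h1.trans (h2.trans (twist_bc_j1_aux N m A' y))

/-- The identification `H0 ((N(m))_{A'}) = H0m (N_{A'})`. -/
def bcH0Equiv : ((N.twist (m : ℤ)).baseChange A').H0 ≃ₗ[A'] H0m (N.baseChange A') m where
  toFun p := ⟨p.1, by
    have h : ((N.twist (m : ℤ)).baseChange A').j0 p.1.1 =
        ((N.twist (m : ℤ)).baseChange A').j1 p.1.2 := p.2
    exact h.trans (twist_bc_j1 N m A' p.1.2)⟩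
  invFun q := ⟨q.1, by
    have h : (N.baseChange A').j0 q.1.1 =
        ((N.baseChange A').T ^ m) ((N.baseChange A').j1 q.1.2) := q.2
    have h' : ((N.twist (m : ℤ)).baseChange A').j0 q.1.1 =
        ((N.twist (m : ℤ)).baseChange A').j1 q.1.2 :=
      h.trans (twist_bc_j1 N m A' q.1.2).symm
    exact h'⟩
  map_add' := fun _ _ => rfl
  map_smul' := fun _ _ => rfl
  left_inv := fun _ => rfl
  right_inv := fun _ => rfl

theorem bcH0Equiv_coe (p : ((N.twist (m : ℤ)).baseChange A').H0) :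
    (bcH0Equiv N m A' p).1 = p.1 := rfl

/-- `α : A' ⊗ H0m N m ≃ H0m (N_{A'}) m` from the base change isomorphism of `H0 (N(m))`. -/
noncomputable def alpha
    (e : A' ⊗[A] (N.twist (m : ℤ)).H0 ≃ₗ[A'] ((N.twist (m : ℤ)).baseChange A').H0) :
    A' ⊗[A] (H0m N m) ≃ₗ[A'] H0m (N.baseChange A') m :=
  (LinearEquiv.baseChange A A' _ _ (twistH0Equiv N m).symm).trans (e.trans (bcH0Equiv N m A'))

theorem alpha_tmul
    (e : A' ⊗[A] (N.twist (m : ℤ)).H0 ≃ₗ[A'] ((N.twist (m : ℤ)).baseChange A').H0)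
    (he : ∀ (a : A') (h : (N.twist (m : ℤ)).H0),
      (e (a ⊗ₜ[A] h)).1 = (a ⊗ₜ[A] h.1.1, a ⊗ₜ[A] h.1.2))
    (c : A') (h : H0m N m) :
    (alpha N m A' e (c ⊗ₜ[A] h)).1.2 = c ⊗ₜ[A] h.1.2 := by
  have h1 : alpha N m A' e (c ⊗ₜ[A] h) =
      bcH0Equiv N m A' (e (c ⊗ₜ[A] (twistH0Equiv N m).symm h)) := rfl
  rw [h1, bcH0Equiv_coe, he]
  rfl

/-- `q' : A' ⊗ N1 → A' ⊗ K1`. -/
noncomputable def qBC : (N.baseChange A').N1 →ₗ[A'] A' ⊗[A] K1 N m :=
  ((LinearMap.range (N.Z1 ^ m)).mkQ).baseChange A'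

theorem qBC_tmul (c : A') (b : N.N1) :
    qBC N m A' (c ⊗ₜ[A] b) = c ⊗ₜ[A] (LinearMap.range (N.Z1 ^ m)).mkQ b := rfl

theorem qBC_surjective : Surjective (qBC N m A') :=
  LinearMap.lTensor_surjective A' (Submodule.mkQ_surjective (LinearMap.range (N.Z1 ^ m)))

theorem ker_qBC : LinearMap.ker (qBC N m A') = LinearMap.range ((N.baseChange A').Z1 ^ m) := by
  have hex : Exact ((N.Z1 ^ m).lTensor A') (((LinearMap.range (N.Z1 ^ m)).mkQ).lTensor A') :=
    lTensor_exact A' (LinearMap.exact_map_mkQ_range (N.Z1 ^ m)) (Submodule.mkQ_surjective _)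
  rw [bc_Z1_pow]
  ext x
  constructor
  · intro hx
    have h1 : ((LinearMap.range (N.Z1 ^ m)).mkQ).lTensor A' x = 0 := LinearMap.mem_ker.mp hx
    obtain ⟨y, hy⟩ := (hex x).mp h1
    exact ⟨y, hy⟩
  · rintro ⟨y, hy⟩
    have h1 : ((LinearMap.range (N.Z1 ^ m)).mkQ).lTensor A' x = 0 := (hex x).mpr ⟨y, hy⟩
    exact LinearMap.mem_ker.mpr h1

/-- `β : A' ⊗ K1 N m ≃ K1 (N_{A'}) m`. -/
noncomputable def beta : A' ⊗[A] K1 N m ≃ₗ[A'] K1 (N.baseChange A') m :=
  ((Submodule.quotEquivOfEq _ _ (ker_qBC N m A').symm).trans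
    ((qBC N m A').quotKerEquivOfSurjective (qBC_surjective N m A'))).symm

theorem beta_qBC (b : (N.baseChange A').N1) :
    beta N m A' (qBC N m A' b) =
      (LinearMap.range ((N.baseChange A').Z1 ^ m)).mkQ b := by
  rw [beta, LinearEquiv.symm_apply_eq]
  rfl

/-- The base change of `d` in terms of `α` and `q'`. -/
theorem dK_baseChange_eq
    (e : A' ⊗[A] (N.twist (m : ℤ)).H0 ≃ₗ[A'] ((N.twist (m : ℤ)).baseChange A').H0)
    (he : ∀ (a : A') (h : (N.twist (m : ℤ)).H0),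
      (e (a ⊗ₜ[A] h)).1 = (a ⊗ₜ[A] h.1.1, a ⊗ₜ[A] h.1.2))
    (x : A' ⊗[A] (H0m N m)) :
    (dK N m).baseChange A' x = qBC N m A' (alpha N m A' e x).1.2 := by
  induction x using TensorProduct.induction_on with
  | zero =>
    rw [map_zero, map_zero]
    exact (map_zero (qBC N m A')).symm
  | tmul c h =>
    calc (dK N m).baseChange A' (c ⊗ₜ[A] h) = c ⊗ₜ[A] dK N m h := rfl
      _ = qBC N m A' (c ⊗ₜ[A] h.1.2) := rfl
      _ = qBC N m A' (alpha N m A' e (c ⊗ₜ[A] h)).1.2 :=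
          congrArg (qBC N m A') (alpha_tmul N m A' e he c h).symm
  | add x y hx hy =>
    rw [map_add, map_add, hx, hy]
    exact (map_add (qBC N m A') _ _).symm

theorem beta_dK_baseChange
    (e : A' ⊗[A] (N.twist (m : ℤ)).H0 ≃ₗ[A'] ((N.twist (m : ℤ)).baseChange A').H0)
    (he : ∀ (a : A') (h : (N.twist (m : ℤ)).H0),
      (e (a ⊗ₜ[A] h)).1 = (a ⊗ₜ[A] h.1.1, a ⊗ₜ[A] h.1.2))
    (x : A' ⊗[A] (H0m N m)) :
    beta N m A' ((dK N m).baseChange A' x) = dK (N.baseChange A') m (alpha N m A' e x) := by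
  rw [dK_baseChange_eq N m A' e he, beta_qBC]
  rfl

theorem map_ker_alpha
    (e : A' ⊗[A] (N.twist (m : ℤ)).H0 ≃ₗ[A'] ((N.twist (m : ℤ)).baseChange A').H0)
    (he : ∀ (a : A') (h : (N.twist (m : ℤ)).H0),
      (e (a ⊗ₜ[A] h)).1 = (a ⊗ₜ[A] h.1.1, a ⊗ₜ[A] h.1.2)) :
    (LinearMap.ker ((dK N m).baseChange A')).map (alpha N m A' e : _ →ₗ[A'] _) =
      LinearMap.ker (dK (N.baseChange A') m) := by
  ext y
  constructor
  · rintro ⟨x, hx, rfl⟩
    rw [LinearMap.mem_ker]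
    change dK (N.baseChange A') m (alpha N m A' e x) = 0
    rw [← beta_dK_baseChange N m A' e he, (LinearMap.mem_ker.mp hx), map_zero]
  · intro hy
    refine ⟨(alpha N m A' e).symm y, ?_, ?_⟩
    · rw [SetLike.mem_coe, LinearMap.mem_ker]
      apply (beta N m A').injective
      rw [beta_dK_baseChange N m A' e he, LinearEquiv.apply_symm_apply, map_zero]
      exact hy
    · exact (alpha N m A' e).apply_symm_apply y

theorem map_range_beta
    (e : A' ⊗[A] (N.twist (m : ℤ)).H0 ≃ₗ[A'] ((N.twist (m : ℤ)).baseChange A').H0)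
    (he : ∀ (a : A') (h : (N.twist (m : ℤ)).H0),
      (e (a ⊗ₜ[A] h)).1 = (a ⊗ₜ[A] h.1.1, a ⊗ₜ[A] h.1.2)) :
    (LinearMap.range ((dK N m).baseChange A')).map (beta N m A' : _ →ₗ[A'] _) =
      LinearMap.range (dK (N.baseChange A') m) := by
  ext y
  constructor
  · rintro ⟨z, ⟨x, rfl⟩, rfl⟩
    exact ⟨alpha N m A' e x, (beta_dK_baseChange N m A' e he x).symm⟩
  · rintro ⟨h, rfl⟩
    refine ⟨(dK N m).baseChange A' ((alpha N m A' e).symm h), ⟨_, rfl⟩, ?_⟩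
    change beta N m A' _ = _
    rw [beta_dK_baseChange N m A' e he, LinearEquiv.apply_symm_apply]

/-- `ker (d ⊗ A') ≃ H0 (N_{A'})`. -/
noncomputable def kerEquivBC
    (e : A' ⊗[A] (N.twist (m : ℤ)).H0 ≃ₗ[A'] ((N.twist (m : ℤ)).baseChange A').H0)
    (he : ∀ (a : A') (h : (N.twist (m : ℤ)).H0),
      (e (a ⊗ₜ[A] h)).1 = (a ⊗ₜ[A] h.1.1, a ⊗ₜ[A] h.1.2))
    (hZ : Injective ((N.baseChange A').Z1 ^ m)) :
    LinearMap.ker ((dK N m).baseChange A') ≃ₗ[A'] (N.baseChange A').H0 :=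
  ((alpha N m A' e).submoduleMap _).trans
    ((LinearEquiv.ofEq _ _ (map_ker_alpha N m A' e he)).trans
      (kerEquiv (N.baseChange A') m hZ))

/-- `coker (d ⊗ A') ≃ H1 (N_{A'})`. -/
noncomputable def cokerEquivBC
    (e : A' ⊗[A] (N.twist (m : ℤ)).H0 ≃ₗ[A'] ((N.twist (m : ℤ)).baseChange A').H0)
    (he : ∀ (a : A') (h : (N.twist (m : ℤ)).H0),
      (e (a ⊗ₜ[A] h)).1 = (a ⊗ₜ[A] h.1.1, a ⊗ₜ[A] h.1.2))
    (hvan : Van N m) :
    ((A' ⊗[A] K1 N m) ⧸ LinearMap.range ((dK N m).baseChange A')) ≃ₗ[A']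
      (N.baseChange A').H1 :=
  (Submodule.Quotient.equiv _ _ (beta N m A') (map_range_beta N m A' e he)).trans
    (cokerEquiv (N.baseChange A') m (van_baseChange N m A' hvan))

end BaseChange

/-- **P1-CPX** (KEY 4) from `VAN`, `TW`, `H0PROJ`, `BC0`. -/
theorem stmt_CPX_of (hVAN : Stmt_VAN.{u}) (hTW : Stmt_TW.{u}) (hH0 : Stmt_H0PROJ.{u})
    (hBC0 : Stmt_BC0.{u}) : Stmt_CPX.{u} := by
  intro A _ N hVB
  obtain ⟨n0, hn0⟩ := hVAN A N hVB.loc (fg0_of_proj0 N hVB.proj0)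
  -- a natural number `m ≥ n0`
  obtain ⟨m, hm⟩ : ∃ m : ℕ, n0 ≤ (m : ℤ) := ⟨n0.toNat, Int.self_le_toNat n0⟩
  have hsub : Subsingleton (N.twist (m : ℤ)).H1 := hn0 _ hm
  have hvan : Van N m := van_of_subsingleton N m hsub
  have hVBm : (N.twist (m : ℤ)).IsVB := (hTW A N).2.1 hVB _
  obtain ⟨hfin, hproj⟩ := hH0 A (N.twist (m : ℤ)) hVBm hsub
  have hfin0 : Module.Finite A (H0m N m) :=
    Module.Finite.of_surjective (twistH0Equiv N m).toLinearMap (twistH0Equiv N m).surjective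
  have hproj0 : Module.Projective A (H0m N m) :=
    Module.Projective.of_equiv (twistH0Equiv N m)
  refine ⟨H0m N m, K1 N m, inferInstance, inferInstance, inferInstance, inferInstance,
    hfin0, hproj0, K1_finite N hVB.proj1 m, K1_projective N hVB.proj1 m, dK N m, ?_⟩
  intro A' _ _
  obtain ⟨e, he⟩ := hBC0 A (N.twist (m : ℤ)) hVBm hsub A'
  have hVB' : (N.baseChange A').IsVB := (hTW A N).2.2.2 hVB A'
  exact ⟨⟨kerEquivBC N m A' e he (Z1_pow_injective _ hVB'.proj1 m)⟩,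
    ⟨cokerEquivBC N m A' e he hvan⟩⟩

end Fermat.Agent.S25.P1.H67
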