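/-
helper83, S25 (Jacobian exists), package P1, leaf **P1-H1FP**:
for a vector bundle `N` (two-chart data over ANY ring `A`), `H1 N` is a finitely presented `A`-module.

Route (helper71's note): choose `m ≫ 0` with `H1 (N(m)) = 0` (VAN). Then
`H0 (N(m)) → N1 / Z1^m N1 → H1 N → 0` is exact, `(a, b) ↦ [b]`, `[b] ↦ [T^m (j1 b)]`,
`N1 / Z1^m N1` is finitely generated projective (a retract of `(A[X]_{<m})^r`),
and `H0 (N(m))` is finitely generated (hypothesis `h0_fg`, leaf 6(b)).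

Main results:
* `fg0_of_proj0`, `fg1_of_proj1` : `Proj0 → FG0`, `Proj1 → FG1`;
* `twist_isLoc`, `twist_isVB`   : twists of localising data / vector bundles are again such;
* `finite_QZ`, `projective_QZ`  : `N1 / Z1^m N1` is finitely generated projective;
* `toH1`, `toH1_surjective`, `ker_toH1` : the exact sequence;
* `h1fp_of` : `Stmt_VAN → h0_fg → Stmt_H1FP`;  `h1fp_of_h0fg` (with `H22.stmt_VAN` plugged in).
-/
import Mathlib
import Fermat.Agent.S25.P1.Defs
import Fermat.Agent.S25.P1.H22_FG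

set_option autoImplicit false

universe u

open Polynomial TensorProduct

namespace Fermat.Agent.S25.P1.H83

open Fermat.Agent.S25.P1

variable {A : Type u} [CommRing A] (N : Data A)

/-! ### Twists -/

theorem twist_surj1 (h : N.IsLoc) (n : ℤ) (m : N.N01) :
    ∃ (k : ℕ) (y : N.N1), (N.T.symm.toLinearMap ^ k) m = (N.T ^ n) (N.j1 y) := by
  obtain ⟨k, y, hk⟩ := h.surj1 ((N.T ^ (-n)) m)
  refine ⟨k, y, ?_⟩
  rw [← hk, H22.symm_toLinearMap_pow_apply, H22.symm_toLinearMap_pow_apply,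
    ← LinearEquiv.mul_apply, ← LinearEquiv.mul_apply, ← zpow_add, ← zpow_add]
  congr 2
  omega

theorem twist_ker1 (h : N.IsLoc) (n : ℤ) (y : N.N1) (hy : (N.T ^ n) (N.j1 y) = 0) :
    ∃ k : ℕ, (N.Z1 ^ k) y = 0 :=
  h.ker1 y ((LinearEquiv.map_eq_zero_iff _).mp hy)

theorem twist_isLoc (h : N.IsLoc) (n : ℤ) : (N.twist n).IsLoc where
  surj0 := h.surj0
  ker0 := h.ker0
  surj1 := twist_surj1 N h n
  ker1 := twist_ker1 N h n

theorem twist_isVB (h : N.IsVB) (n : ℤ) : (N.twist n).IsVB where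
  loc := twist_isLoc N h.loc n
  proj0 := h.proj0
  proj1 := h.proj1

/-! ### `Proj → FG` -/

/-- Abstract form: a retract of `A[X]^r`, compatible with an operator, is spanned over `A` by the
operator-translates of finitely many elements. -/
theorem span_of_retract {M : Type u} [AddCommGroup M] [Module A M] (Φ : M →ₗ[A] M) {r : ℕ}
    (i : M →ₗ[A] (Fin r → A[X])) (p : (Fin r → A[X]) →ₗ[A] M) (hpi : ∀ n, p (i n) = n)
    (hpX : ∀ v, p ((X : A[X]) • v) = Φ (p v)) :
    ∃ S : Finset M, Submodule.span A {y | ∃ (k : ℕ) (s : M), s ∈ S ∧ y = (Φ ^ k) s} = ⊤ := by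
  classical
  refine ⟨Finset.univ.image (fun k : Fin r => p (Pi.single k 1)), ?_⟩
  set W : Submodule A M := Submodule.span A
    {y | ∃ (k : ℕ) (s : M), s ∈ Finset.univ.image (fun k : Fin r => p (Pi.single k 1)) ∧
      y = (Φ ^ k) s} with hW
  have hpow : ∀ (j : ℕ) (v : Fin r → A[X]), p ((X ^ j : A[X]) • v) = (Φ ^ j) (p v) := by
    intro j
    induction j with
    | zero => intro v; simp
    | succ j ih =>
      intro v
      rw [pow_succ', mul_smul, hpX, ih, pow_succ', Module.End.mul_apply]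
  have h1 : ∀ (k : Fin r) (f : A[X]), p (Pi.single k f) ∈ W := by
    intro k f
    induction f using Polynomial.induction_on' with
    | add f g hf hg =>
      rw [Pi.single_add, map_add]
      exact W.add_mem hf hg
    | monomial j a =>
      have e1 : (Pi.single k (monomial j a) : Fin r → A[X]) =
          a • ((X ^ j : A[X]) • (Pi.single k (1 : A[X]) : Fin r → A[X])) := by
        funext l
        by_cases hl : l = k
        · subst hl
          simp only [Pi.single_eq_same, Pi.smul_apply, smul_eq_mul, mul_one]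
          rw [← C_mul_X_pow_eq_monomial, smul_eq_C_mul]
        · simp [Pi.single_eq_of_ne hl]
      rw [e1, map_smul, hpow]
      refine W.smul_mem _ (Submodule.subset_span ⟨j, _, ?_, rfl⟩)
      exact Finset.mem_image.mpr ⟨k, Finset.mem_univ _, rfl⟩
  rw [eq_top_iff]
  intro n _
  rw [← hpi n, ← Finset.univ_sum_single (i n), map_sum]
  exact W.sum_mem fun k _ => h1 k _

theorem fg0_of_proj0 (h : N.Proj0) : N.FG0 := by
  obtain ⟨r, i, p, hpi, -, hpX⟩ := h
  exact span_of_retract N.X0 i p hpi hpX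

theorem fg1_of_proj1 (h : N.Proj1) : N.FG1 := by
  obtain ⟨r, i, p, hpi, -, hpX⟩ := h
  exact span_of_retract N.Z1 i p hpi hpX

/-! ### The quotient `N1 / Z1^m N1` -/

/-- `N1 / Z1^m N1`. -/
abbrev QZ (m : ℕ) : Type u := N.N1 ⧸ LinearMap.range (N.Z1 ^ m)

/-- Truncation `A[X] → A[X]_{<m}`, `f ↦ f mod X^m`. -/
noncomputable def trunc (A : Type u) [CommRing A] (m : ℕ) : A[X] →ₗ[A] degreeLT A m :=
  (modByMonicHom (X ^ m : A[X])).codRestrict (degreeLT A m) (fun f => by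
    rw [mem_degreeLT, modByMonicHom_apply]
    rcases subsingleton_or_nontrivial A with h | h
    · rw [Subsingleton.elim (f %ₘ X ^ m) 0, degree_zero]
      exact WithBot.bot_lt_coe _
    · have := degree_modByMonic_lt f (monic_X_pow (R := A) m)
      rwa [degree_X_pow] at this)

theorem trunc_coe (m : ℕ) (f : A[X]) : ((trunc A m f : degreeLT A m) : A[X]) = f %ₘ X ^ m := rfl

theorem trunc_mul (m : ℕ) (f : A[X]) : trunc A m (X ^ m * f) = 0 := by
  apply Subtype.ext
  rw [trunc_coe]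
  exact (modByMonic_eq_zero_iff_dvd (monic_X_pow m)).mpr (dvd_mul_right _ _)

theorem exists_retract_QZ (h : N.Proj1) (m : ℕ) :
    ∃ (r : ℕ) (α : QZ N m →ₗ[A] (Fin r → degreeLT A m))
      (β : (Fin r → degreeLT A m) →ₗ[A] QZ N m), β ∘ₗ α = LinearMap.id := by
  obtain ⟨r, i, p, hpi, hiZ, hpX⟩ := h
  have hipow : ∀ (j : ℕ) (n : N.N1), i ((N.Z1 ^ j) n) = (X ^ j : A[X]) • i n := by
    intro j
    induction j with
    | zero => intro n; simp
    | succ j ih =>
      intro n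
      rw [pow_succ', Module.End.mul_apply, hiZ, ih, pow_succ', mul_smul]
  have hppow : ∀ (j : ℕ) (v : Fin r → A[X]), p ((X ^ j : A[X]) • v) = (N.Z1 ^ j) (p v) := by
    intro j
    induction j with
    | zero => intro v; simp
    | succ j ih =>
      intro v
      rw [pow_succ', mul_smul, hpX, ih, pow_succ', Module.End.mul_apply]
  let α₀ : N.N1 →ₗ[A] (Fin r → degreeLT A m) := ((trunc A m).compLeft (Fin r)) ∘ₗ i
  have hα₀ : LinearMap.range (N.Z1 ^ m) ≤ LinearMap.ker α₀ := by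
    rintro _ ⟨n, rfl⟩
    rw [LinearMap.mem_ker]
    funext k
    change trunc A m (i ((N.Z1 ^ m) n) k) = 0
    rw [hipow]
    exact trunc_mul m _
  let β₀ : (Fin r → degreeLT A m) →ₗ[A] N.N1 := p ∘ₗ ((degreeLT A m).subtype.compLeft (Fin r))
  refine ⟨r, Submodule.liftQ _ α₀ hα₀, (LinearMap.range (N.Z1 ^ m)).mkQ ∘ₗ β₀, ?_⟩
  apply Submodule.linearMap_qext
  ext n
  simp only [LinearMap.comp_apply, Submodule.mkQ_apply, Submodule.liftQ_apply, LinearMap.id_comp]
  refine ((Submodule.Quotient.eq _).mpr ?_).symm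
  refine ⟨p (fun k => i n k /ₘ X ^ m), ?_⟩
  rw [← hppow]
  have e : i n = (fun k => (i n k %ₘ X ^ m : A[X])) + (X ^ m : A[X]) • (fun k => i n k /ₘ X ^ m) := by
    funext k
    simp only [Pi.add_apply, Pi.smul_apply, smul_eq_mul]
    exact (modByMonic_add_div _ _).symm
  have key : p (fun k => (i n k %ₘ X ^ m : A[X])) +
      p ((X ^ m : A[X]) • (fun k => i n k /ₘ X ^ m)) = n := by
    rw [← map_add, ← e, hpi]
  change p ((X ^ m : A[X]) • (fun k => i n k /ₘ X ^ m)) = n - p (fun k => (i n k %ₘ X ^ m : A[X]))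
  exact eq_sub_of_add_eq' key

theorem finite_QZ (h : N.Proj1) (m : ℕ) : Module.Finite A (QZ N m) := by
  obtain ⟨r, α, β, hβα⟩ := exists_retract_QZ N h m
  have : Module.Finite A (degreeLT A m) := Module.Finite.equiv (degreeLTEquiv A m).symm
  refine Module.Finite.of_surjective β (fun q => ⟨α q, ?_⟩)
  exact LinearMap.congr_fun hβα q

theorem projective_QZ (h : N.Proj1) (m : ℕ) : Module.Projective A (QZ N m) := by
  obtain ⟨r, α, β, hβα⟩ := exists_retract_QZ N h m
  have : Module.Free A (degreeLT A m) := Module.Free.of_equiv (degreeLTEquiv A m).symm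
  exact Module.Projective.of_split α β hβα

/-! ### The exact sequence `H0 (N(m)) → N1 / Z1^m N1 → H1 N → H1 (N(m))` -/

/-- `B1` of the twist, as a submodule of `N.N01`. -/
def B1t (n : ℤ) : Submodule A N.N01 :=
  LinearMap.range N.j0 ⊔ LinearMap.range ((N.T ^ n).toLinearMap ∘ₗ N.j1)

/-- `H0` of the twist, as a submodule of `N.N0 × N.N1`. -/
def H0t (n : ℤ) : Submodule A (N.N0 × N.N1) :=
  LinearMap.eqLocus (N.j0 ∘ₗ LinearMap.fst A N.N0 N.N1)
    (((N.T ^ n).toLinearMap ∘ₗ N.j1) ∘ₗ LinearMap.snd A N.N0 N.N1)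

theorem twist_B1 (n : ℤ) : (N.twist n).B1 = B1t N n := rfl

theorem twist_H0 (n : ℤ) : (N.twist n).H0 = H0t N n := rfl

theorem mem_H0t (n : ℤ) (q : N.N0 × N.N1) : q ∈ H0t N n ↔ N.j0 q.1 = (N.T ^ n) (N.j1 q.2) :=
  Iff.rfl

theorem mem_B1t_of_subsingleton (n : ℤ) (h : Subsingleton (N.twist n).H1) (c : N.N01) :
    c ∈ B1t N n := by
  have h1 : (Submodule.Quotient.mk c : (N.twist n).H1) = 0 := Subsingleton.elim _ _
  exact (Submodule.Quotient.mk_eq_zero _).mp h1

theorem T_pow_j1_pow (m : ℕ) (b : N.N1) : (N.T ^ (m : ℤ)) (N.j1 ((N.Z1 ^ m) b)) = N.j1 b := by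
  rw [H22.j1_pow, ← LinearEquiv.mul_apply, ← zpow_add]
  simp

/-- `N1 / Z1^m N1 → H1 N`, `[b] ↦ [T^m (j1 b)]`. -/
def toH1 (m : ℕ) : QZ N m →ₗ[A] N.H1 :=
  Submodule.liftQ _ (N.B1.mkQ ∘ₗ (N.T ^ (m : ℤ)).toLinearMap ∘ₗ N.j1) (by
    rintro _ ⟨b, rfl⟩
    rw [LinearMap.mem_ker]
    simp only [LinearMap.comp_apply, LinearEquiv.coe_coe, Submodule.mkQ_apply]
    rw [T_pow_j1_pow]
    exact (Submodule.Quotient.mk_eq_zero _).mpr (Submodule.mem_sup_right ⟨b, rfl⟩))

theorem toH1_mk (m : ℕ) (b : N.N1) :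
    toH1 N m (Submodule.Quotient.mk b) = Submodule.Quotient.mk ((N.T ^ (m : ℤ)) (N.j1 b)) := rfl

theorem toH1_surjective (m : ℕ) (h : Subsingleton (N.twist m).H1) :
    Function.Surjective (toH1 N m) := by
  intro c
  obtain ⟨c, rfl⟩ := Submodule.Quotient.mk_surjective _ c
  have h2 : c ∈ B1t N m := mem_B1t_of_subsingleton N m h c
  obtain ⟨_, ⟨a, rfl⟩, _, ⟨b, rfl⟩, hab⟩ := Submodule.mem_sup.mp h2
  have hab' : N.j0 a + (N.T ^ (m : ℤ)) (N.j1 b) = c := hab
  refine ⟨Submodule.Quotient.mk b, ?_⟩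
  rw [toH1_mk]
  refine ((Submodule.Quotient.eq _).mpr ?_).symm
  rw [← hab', add_sub_cancel_right]
  exact Submodule.mem_sup_left ⟨a, rfl⟩

/-- `H0 (N(m)) → N1 / Z1^m N1`, `(a, b) ↦ [b]`. -/
def fromH0 (m : ℕ) : H0t N m →ₗ[A] QZ N m :=
  (LinearMap.range (N.Z1 ^ m)).mkQ ∘ₗ LinearMap.snd A N.N0 N.N1 ∘ₗ (H0t N m).subtype

theorem fromH0_apply (m : ℕ) (q : H0t N m) :
    fromH0 N m q = Submodule.Quotient.mk q.1.2 := rfl

theorem ker_toH1 (m : ℕ) : LinearMap.ker (toH1 N m) = LinearMap.range (fromH0 N m) := by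
  ext q
  obtain ⟨b, rfl⟩ := Submodule.Quotient.mk_surjective _ q
  rw [LinearMap.mem_ker, toH1_mk]
  refine (Submodule.Quotient.mk_eq_zero _).trans ?_
  constructor
  · intro hb
    obtain ⟨_, ⟨a, rfl⟩, _, ⟨b', rfl⟩, hab⟩ := Submodule.mem_sup.mp hb
    have hmem : (a, b - (N.Z1 ^ m) b') ∈ H0t N m := by
      rw [mem_H0t]
      change N.j0 a = (N.T ^ (m : ℤ)) (N.j1 (b - (N.Z1 ^ m) b'))
      rw [map_sub, map_sub, T_pow_j1_pow, ← hab, add_sub_cancel_right]
    refine ⟨⟨_, hmem⟩, ?_⟩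
    rw [fromH0_apply]
    refine (Submodule.Quotient.eq _).mpr ?_
    refine ⟨-b', ?_⟩
    rw [map_neg, sub_sub_cancel_left]
  · rintro ⟨⟨⟨a, b'⟩, hab⟩, hq⟩
    rw [fromH0_apply] at hq
    obtain ⟨c, hc⟩ := (Submodule.Quotient.eq _).mp hq
    have hab' : N.j0 a = (N.T ^ (m : ℤ)) (N.j1 b') := hab
    have hc' : (N.Z1 ^ m) c = b' - b := hc
    have hb : b = b' - (N.Z1 ^ m) c := by rw [hc']; abel
    rw [hb, map_sub, map_sub, T_pow_j1_pow, ← hab']
    exact N.B1.sub_mem (Submodule.mem_sup_left ⟨a, rfl⟩) (Submodule.mem_sup_right ⟨c, rfl⟩)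

/-! ### The leaf -/

/-- Pointwise form: `H1 N` is finitely presented as soon as `H1 (N(m)) = 0` and `H0 (N(m))` is
finitely generated for some `m : ℕ`. -/
theorem finitePresentation_H1 (hN : N.Proj1) (m : ℕ) (h1 : Subsingleton (N.twist m).H1)
    (h0 : Module.Finite A (N.twist m).H0) : Module.FinitePresentation A N.H1 := by
  have := finite_QZ N hN m
  have := projective_QZ N hN m
  have : Module.FinitePresentation A (QZ N m) := Module.finitePresentation_of_projective A _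
  have h0' : Module.Finite A (H0t N m) := h0
  refine Module.finitePresentation_of_surjective (toH1 N m) (toH1_surjective N m h1) ?_
  have e : LinearMap.ker (toH1 N m) = Submodule.map (fromH0 N m) ⊤ :=
    (ker_toH1 N m).trans (LinearMap.range_eq_map _)
  rw [e]
  exact Submodule.FG.map _ h0'.fg_top

/-- **P1-H1FP** from VAN and `h0_fg` (leaf 6(b)). -/
theorem h1fp_of (hVAN : Stmt_VAN.{u})
    (h0fg : ∀ (A : Type u) [CommRing A] (N : Data A), N.IsVB → Subsingleton N.H1 →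
      Module.Finite A N.H0) : Stmt_H1FP.{u} := by
  intro A _ N hN
  obtain ⟨n0, hn0⟩ := hVAN A N hN.loc (fg0_of_proj0 N hN.proj0)
  have hm : n0 ≤ ((n0.toNat : ℕ) : ℤ) := Int.self_le_toNat n0
  have h1 : Subsingleton (N.twist (n0.toNat : ℕ)).H1 := hn0 _ hm
  exact finitePresentation_H1 N hN.proj1 n0.toNat h1
    (h0fg A (N.twist (n0.toNat : ℕ)) (twist_isVB N hN _) h1)

/-- **P1-H1FP** from `h0_fg` alone (`H22.stmt_VAN` plugged in). -/
theorem h1fp_of_h0fg
    (h0fg : ∀ (A : Type u) [CommRing A] (N : Data A), N.IsVB → Subsingleton N.H1 →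
      Module.Finite A N.H0) : Stmt_H1FP.{u} :=
  h1fp_of H22.stmt_VAN h0fg

/-- **P1-H1FP** from `Stmt_H0PROJ`. -/
theorem h1fp_of_h0proj (h : Stmt_H0PROJ.{u}) : Stmt_H1FP.{u} :=
  h1fp_of_h0fg fun A _ N hN h1 => (h A N hN h1).1

end Fermat.Agent.S25.P1.H83
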