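import Mathlib
import Fermat.Agent.S25.P1.Defs

/-!
# S25, package P1: `H0` of a vector bundle with `H1 = 0` is finitely generated projective
(leaf P1-H0PROJ, helper97) — UNCONDITIONAL (no LES, no FG, no cohomology of `O(n)`).

Route.  For two-chart data `N` over an arbitrary ring `A` with `IsVB`:

1. `j0`, `j1` are injective (`X` acts injectively on `A[X]^r`, and `N0` is a retract of it);
2. `N01` is a PROJECTIVE `A`-module: it is the localisation at `X` of the projective
   `A[X]`-module `N0`, hence `≅ A[T;T⁻¹] ⊗_{A[X]} N0`, projective over `A[T;T⁻¹]`, which is free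
   over `A` (`projective_of_isLocalizedModule_X`);
3. if `H1 = 0` the map `q = j0 - j1 : N0 × N1 → N01` is onto, so it has an `A`-linear section
   `σ`, and `H0 = ker q` is a direct summand of the projective module `N0 × N1`;
4. degree bound: there is `D` with `deg i₀ a ≤ D` and `deg i₁ b ≤ D` for all `(a, b) ∈ H0`, so
   `H0` lies in a finitely generated submodule `M` of `N0 × N1`, and `H0 = ρ M` (`ρ` the
   retraction of 3) is finitely generated.

Main results: `projective_N01`, `exists_section`, `h0_projective`, `h0_finite`,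
`stmt_H0PROJ : Stmt_H0PROJ`.
-/

set_option autoImplicit false
set_option linter.style.haveILetI false
set_option linter.unusedSectionVars false

open Polynomial TensorProduct Module

universe u v

namespace Fermat.Agent.S25.P1.H97

/-! ## Two general lemmas -/

/-- Restriction of scalars of a projective module along `A → B`, `B` free over `A`. -/
theorem projective_of_tower (A : Type*) (B : Type*) (M : Type*) [CommRing A] [CommRing B]
    [Algebra A B] [Module.Free A B] [AddCommGroup M] [Module A M] [Module B M]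
    [IsScalarTower A B M] [h : Module.Projective B M] : Module.Projective A M := by
  obtain ⟨s, hs⟩ := h
  exact Module.Projective.of_split (s.restrictScalars A)
    ((Finsupp.linearCombination B id).restrictScalars A) (by ext x; exact hs x)

/-- The localisation at `X` of a projective `A[X]`-module is a projective `A`-module. -/
theorem projective_of_isLocalizedModule_X (A : Type u) [CommRing A] {M M' : Type v}
    [AddCommGroup M] [Module A[X] M] [AddCommGroup M'] [Module A M'] [Module A[X] M']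
    [IsScalarTower A A[X] M'] (f : M →ₗ[A[X]] M')
    [IsLocalizedModule (Submonoid.powers (X : A[X])) f] [Module.Projective A[X] M] :
    Module.Projective A M' := by
  let B := LaurentPolynomial A
  haveI : Module.Free A B := inferInstance
  haveI h1 : Module.Projective B (B ⊗[A[X]] M) := inferInstance
  haveI h2 : Module.Projective A (B ⊗[A[X]] M) := projective_of_tower A B _
  haveI h3 : IsLocalizedModule (Submonoid.powers (X : A[X])) (TensorProduct.mk A[X] B M 1) :=
    (isLocalizedModule_iff_isBaseChange (Submonoid.powers (X : A[X])) B _).mpr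
      (TensorProduct.isBaseChange A[X] M B)
  haveI hAB : IsScalarTower A A[X] B :=
    IsScalarTower.of_algebraMap_eq (fun a => by
      rw [LaurentPolynomial.algebraMap_eq_toLaurent, ← Polynomial.C_eq_algebraMap,
        Polynomial.toLaurent_C, LaurentPolynomial.C_eq_algebraMap])
  haveI : IsScalarTower A A[X] (B ⊗[A[X]] M) := by
    refine ⟨fun a p x => ?_⟩
    induction x using TensorProduct.induction_on with
    | zero => simp
    | tmul b m =>
      rw [TensorProduct.smul_tmul', TensorProduct.smul_tmul', TensorProduct.smul_tmul',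
        smul_assoc]
    | add x y hx hy => simp only [smul_add, hx, hy]
  let e : (B ⊗[A[X]] M) ≃ₗ[A[X]] M' :=
    IsLocalizedModule.linearEquiv (Submonoid.powers (X : A[X])) (TensorProduct.mk A[X] B M 1) f
  exact Module.Projective.of_equiv (e.restrictScalars A)

/-! ## One chart: a retract of `A[X]^r` -/

section Chart

variable {A : Type u} [CommRing A] {M : Type u} [AddCommGroup M] [Module A M]
  (φ : M →ₗ[A] M) {r : ℕ} (i : M →ₗ[A] (Fin r → A[X])) (p : (Fin r → A[X]) →ₗ[A] M)

theorem i_pow (hi : ∀ n, i (φ n) = (X : A[X]) • i n) (k : ℕ) (n : M) :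
    i ((φ ^ k) n) = (X : A[X]) ^ k • i n := by
  induction k generalizing n with
  | zero => simp
  | succ k ih => rw [pow_succ, Module.End.mul_apply, ih, hi, smul_smul, pow_succ]

theorem p_pow (hp : ∀ v, p ((X : A[X]) • v) = φ (p v)) (k : ℕ) (v : Fin r → A[X]) :
    p ((X : A[X]) ^ k • v) = (φ ^ k) (p v) := by
  induction k generalizing v with
  | zero => simp
  | succ k ih => rw [pow_succ, mul_smul, ih, hp, pow_succ, Module.End.mul_apply]

theorem X_pow_smul_eq_zero {k : ℕ} {v : Fin r → A[X]} (h : (X : A[X]) ^ k • v = 0) : v = 0 := by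
  funext κ
  have h1 : (X : A[X]) ^ k * v κ = 0 := congrFun h κ
  exact ((Polynomial.monic_X_pow k).mul_right_eq_zero_iff).1 h1

theorem pow_eq_zero_imp (hpi : ∀ n, p (i n) = n) (hi : ∀ n, i (φ n) = (X : A[X]) • i n)
    {k : ℕ} {n : M} (h : (φ ^ k) n = 0) : n = 0 := by
  have h1 : (X : A[X]) ^ k • i n = 0 := by rw [← i_pow φ i hi, h, map_zero]
  have h2 := X_pow_smul_eq_zero h1
  rw [← hpi n, h2, map_zero]

theorem chart_projective (hpi : ∀ n, p (i n) = n) : Module.Projective A M :=
  Module.Projective.of_split i p (by ext n; exact hpi n)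

/-- `p` as an `A[X]`-linear map. -/
noncomputable def pX (hp : ∀ v, p ((X : A[X]) • v) = φ (p v)) :
    (Fin r → A[X]) →ₗ[A[X]] Module.AEval' φ where
  toFun v := Module.AEval'.of φ (p v)
  map_add' v w := by rw [map_add, map_add]
  map_smul' f v := by
    simp only [RingHom.id_apply]
    induction f using Polynomial.induction_on' with
    | add f g hf hg => rw [add_smul, map_add, map_add, hf, hg, add_smul]
    | monomial k a =>
      rw [← Polynomial.C_mul_X_pow_eq_monomial, mul_smul, mul_smul, Module.AEval.C_smul,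
        Polynomial.C_eq_algebraMap, algebraMap_smul, map_smul, map_smul, p_pow φ p hp,
        Module.AEval.X_pow_smul_of]
      rfl

theorem chart_projectiveX (hpi : ∀ n, p (i n) = n) (hi : ∀ n, i (φ n) = (X : A[X]) • i n)
    (hp : ∀ v, p ((X : A[X]) • v) = φ (p v)) : Module.Projective A[X] (Module.AEval' φ) := by
  refine Module.Projective.of_split (LinearMap.ofAEval φ i (fun m => hi m)) (pX φ p hp) ?_
  ext n
  obtain ⟨m, rfl⟩ := (Module.AEval'.of φ).surjective n
  simp only [LinearMap.comp_apply, LinearMap.id_apply]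
  change Module.AEval'.of φ (p (i ((Module.AEval'.of φ).symm (Module.AEval'.of φ m)))) = _
  rw [LinearEquiv.symm_apply_apply, hpi]

end Chart

/-! ## The data: injectivity, `N01` projective, the splitting -/

section DataLevel

variable {A : Type u} [CommRing A] (N : Data A)

theorem j0_injective (hloc : N.IsLoc) (h0 : N.Proj0) : Function.Injective N.j0 := by
  obtain ⟨r, i, p, hpi, hi, hp⟩ := h0
  rw [injective_iff_map_eq_zero]
  intro n hn
  obtain ⟨k, hk⟩ := hloc.ker0 n hn
  exact pow_eq_zero_imp N.X0 i p hpi hi hk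

theorem j1_injective (hloc : N.IsLoc) (h1 : N.Proj1) : Function.Injective N.j1 := by
  obtain ⟨r, i, p, hpi, hi, hp⟩ := h1
  rw [injective_iff_map_eq_zero]
  intro n hn
  obtain ⟨k, hk⟩ := hloc.ker1 n hn
  exact pow_eq_zero_imp N.Z1 i p hpi hi hk

theorem j0_pow (k : ℕ) (n : N.N0) : N.j0 ((N.X0 ^ k) n) = (N.T.toLinearMap ^ k) (N.j0 n) := by
  induction k generalizing n with
  | zero => simp
  | succ k ih =>
    rw [pow_succ, Module.End.mul_apply, ih, N.j0_X, pow_succ, Module.End.mul_apply]
    rfl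

theorem bijective_T_pow (k : ℕ) : Function.Bijective ⇑(N.T.toLinearMap ^ k) := by
  have h : ⇑(N.T.toLinearMap ^ k) = (⇑N.T)^[k] := by
    funext m
    rw [Module.End.pow_apply]
    rfl
  rw [h]
  exact N.T.bijective.iterate k

/-- `j0` as an `A[X]`-linear map (`X` acts by `X0` on `N0` and by `T` on `N01`). -/
noncomputable def jX : Module.AEval' N.X0 →ₗ[A[X]] Module.AEval' N.T.toLinearMap :=
  LinearMap.ofAEval N.X0 ((Module.AEval'.of N.T.toLinearMap).toLinearMap ∘ₗ N.j0) (fun m => by
    change Module.AEval'.of N.T.toLinearMap (N.j0 (N.X0 m)) =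
      (X : A[X]) • Module.AEval'.of N.T.toLinearMap (N.j0 m)
    rw [Module.AEval.X_smul_of, N.j0_X]
    rfl)

theorem jX_of (n : N.N0) :
    jX N (Module.AEval'.of N.X0 n) = Module.AEval'.of N.T.toLinearMap (N.j0 n) := rfl

theorem isLocalizedModule_jX (hloc : N.IsLoc) :
    IsLocalizedModule (Submonoid.powers (X : A[X])) (jX N) where
  map_units := by
    rintro ⟨x, k, rfl⟩
    rw [Module.End.isUnit_iff]
    have h : ⇑(algebraMap A[X] (Module.End A[X] (Module.AEval' N.T.toLinearMap)) (X ^ k)) =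
        ⇑(Module.AEval'.of N.T.toLinearMap) ∘ ⇑(N.T.toLinearMap ^ k) ∘
          ⇑(Module.AEval'.of N.T.toLinearMap).symm := by
      funext y
      obtain ⟨m, rfl⟩ := (Module.AEval'.of N.T.toLinearMap).surjective y
      simp only [Module.algebraMap_end_apply, Function.comp_apply, LinearEquiv.symm_apply_apply]
      rw [Module.AEval.X_pow_smul_of]
      rfl
    rw [h]
    exact (Module.AEval'.of N.T.toLinearMap).bijective.comp
      ((bijective_T_pow N k).comp (Module.AEval'.of N.T.toLinearMap).symm.bijective)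
  surj := fun y => by
    obtain ⟨m, rfl⟩ := (Module.AEval'.of N.T.toLinearMap).surjective y
    obtain ⟨k, n, h⟩ := hloc.surj0 m
    refine ⟨(Module.AEval'.of N.X0 n, ⟨X ^ k, k, rfl⟩), ?_⟩
    change (X : A[X]) ^ k • Module.AEval'.of N.T.toLinearMap m = jX N (Module.AEval'.of N.X0 n)
    rw [jX_of, Module.AEval.X_pow_smul_of, ← h]
    rfl
  exists_of_eq := fun {x₁ x₂} h => by
    obtain ⟨m₁, rfl⟩ := (Module.AEval'.of N.X0).surjective x₁
    obtain ⟨m₂, rfl⟩ := (Module.AEval'.of N.X0).surjective x₂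
    rw [jX_of, jX_of] at h
    have h' : N.j0 (m₁ - m₂) = 0 := by
      rw [map_sub, sub_eq_zero]
      exact (Module.AEval'.of N.T.toLinearMap).injective h
    obtain ⟨k, hk⟩ := hloc.ker0 _ h'
    refine ⟨⟨X ^ k, k, rfl⟩, ?_⟩
    change (X : A[X]) ^ k • Module.AEval'.of N.X0 m₁ = (X : A[X]) ^ k • Module.AEval'.of N.X0 m₂
    rw [Module.AEval.X_pow_smul_of, Module.AEval.X_pow_smul_of]
    congr 1
    rw [map_sub, sub_eq_zero] at hk
    exact hk

/-- **`N01` is a projective `A`-module.** -/
theorem projective_N01 (hloc : N.IsLoc) (h0 : N.Proj0) : Module.Projective A N.N01 := by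
  obtain ⟨r, i, p, hpi, hi, hp⟩ := h0
  haveI := isLocalizedModule_jX N hloc
  haveI : Module.Projective A[X] (Module.AEval' N.X0) :=
    chart_projectiveX N.X0 i p hpi hi hp
  haveI h := projective_of_isLocalizedModule_X A (jX N)
  exact Module.Projective.of_equiv (Module.AEval'.of N.T.toLinearMap).symm

theorem projective_N0 (h0 : N.Proj0) : Module.Projective A N.N0 := by
  obtain ⟨r, i, p, hpi, hi, hp⟩ := h0
  exact chart_projective i p hpi

theorem projective_N1 (h1 : N.Proj1) : Module.Projective A N.N1 := by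
  obtain ⟨r, i, p, hpi, hi, hp⟩ := h1
  exact chart_projective i p hpi

/-- `q = j0 - j1 : N0 × N1 → N01`; its kernel is `H0`, its cokernel is `H1`. -/
def q : (N.N0 × N.N1) →ₗ[A] N.N01 := N.j0.coprod (-N.j1)

theorem q_apply (x : N.N0 × N.N1) : q N x = N.j0 x.1 - N.j1 x.2 := by
  simp [q, sub_eq_add_neg]

theorem mem_H0_iff_q (x : N.N0 × N.N1) : x ∈ N.H0 ↔ q N x = 0 := by
  rw [q_apply, sub_eq_zero]
  exact N.mem_H0 x

theorem q_surjective (h : Subsingleton N.H1) : Function.Surjective (q N) := by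
  intro m
  have hm : m ∈ N.B1 := by
    have h0 := Subsingleton.elim (Submodule.Quotient.mk m : N.H1) 0
    exact (Submodule.Quotient.mk_eq_zero _).1 h0
  obtain ⟨a, ⟨n0, rfl⟩, b, ⟨n1, rfl⟩, rfl⟩ := Submodule.mem_sup.mp hm
  exact ⟨(n0, -n1), by simp [q_apply]⟩

/-- **The section**: for a vector bundle with `H1 = 0`, `q` has an `A`-linear section. -/
theorem exists_section (hVB : N.IsVB) (h : Subsingleton N.H1) :
    ∃ σ : N.N01 →ₗ[A] N.N0 × N.N1, ∀ m, q N (σ m) = m := by
  haveI := projective_N01 N hVB.loc hVB.proj0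
  obtain ⟨σ, hσ⟩ := LinearMap.exists_rightInverse_of_surjective (q N)
    (LinearMap.range_eq_top.2 (q_surjective N h))
  exact ⟨σ, fun m => LinearMap.congr_fun hσ m⟩

/-- **The retraction** onto `H0`. -/
theorem exists_retraction (hVB : N.IsVB) (h : Subsingleton N.H1) :
    ∃ ρ : (N.N0 × N.N1) →ₗ[A] N.H0, ∀ x : N.H0, ρ (x : N.N0 × N.N1) = x := by
  obtain ⟨σ, hσ⟩ := exists_section N hVB h
  refine ⟨(LinearMap.id - σ ∘ₗ q N).codRestrict N.H0 (fun x => ?_), fun x => ?_⟩
  · apply Subtype.ext
    have hx : q N (x : N.N0 × N.N1) = 0 := (mem_H0_iff_q N _).1 x.2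
    simp only [LinearMap.codRestrict_apply, LinearMap.sub_apply, LinearMap.id_apply,
      LinearMap.comp_apply, hx, map_zero, sub_zero]
  · rw [mem_H0_iff_q]
    simp only [LinearMap.sub_apply, LinearMap.id_apply, LinearMap.comp_apply, map_sub, hσ,
      sub_self]

/-- `H0` is projective. -/
theorem h0_projective (hVB : N.IsVB) (h : Subsingleton N.H1) : Module.Projective A N.H0 := by
  obtain ⟨ρ, hρ⟩ := exists_retraction N hVB h
  haveI := projective_N0 N hVB.proj0
  haveI := projective_N1 N hVB.proj1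
  exact Module.Projective.of_split N.H0.subtype ρ (by ext x <;> simp [hρ])

end DataLevel

/-! ## The degree bound -/

section Bound

variable {A : Type u} [CommRing A] {M0 M1 M01 : Type u} [AddCommGroup M0] [Module A M0]
  [AddCommGroup M1] [Module A M1] [AddCommGroup M01] [Module A M01]
  (φ0 : M0 →ₗ[A] M0) (φ1 : M1 →ₗ[A] M1) (T : M01 ≃ₗ[A] M01) (j0 : M0 →ₗ[A] M01)
  (j1 : M1 →ₗ[A] M01) {r : ℕ} (i : M0 →ₗ[A] (Fin r → A[X]))

theorem gen_j0_pow (h0 : ∀ n, j0 (φ0 n) = T (j0 n)) (k : ℕ) (n : M0) :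
    j0 ((φ0 ^ k) n) = (T.toLinearMap ^ k) (j0 n) := by
  induction k generalizing n with
  | zero => simp
  | succ k ih =>
    rw [pow_succ φ0 k, Module.End.mul_apply, ih, h0, pow_succ T.toLinearMap k,
      Module.End.mul_apply]
    rfl

theorem gen_T_pow_j1 (h1 : ∀ n, T (j1 (φ1 n)) = j1 n) (k : ℕ) (n : M1) :
    (T.toLinearMap ^ k) (j1 ((φ1 ^ k) n)) = j1 n := by
  induction k generalizing n with
  | zero => simp
  | succ k ih =>
    rw [pow_succ T.toLinearMap k, Module.End.mul_apply, pow_succ' φ1 k, Module.End.mul_apply]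
    change (T.toLinearMap ^ k) (T (j1 (φ1 ((φ1 ^ k) n)))) = _
    rw [h1, ih]

/-- **Degree bound**: the chart-0 component of a global section has bounded degree. -/
theorem deg_bound (h0 : ∀ n, j0 (φ0 n) = T (j0 n)) (h1 : ∀ n, T (j1 (φ1 n)) = j1 n)
    (hs : ∀ m : M01, ∃ (k : ℕ) (n : M0), (T.toLinearMap ^ k) m = j0 n)
    (hj : Function.Injective j0) (hi : ∀ n, i (φ0 n) = (X : A[X]) • i n)
    (S : Finset M1)
    (hS : Submodule.span A {y | ∃ (k : ℕ) (s : M1), s ∈ S ∧ y = (φ1 ^ k) s} = ⊤) :
    ∃ D : ℕ, ∀ a b, j0 a = j1 b → ∀ κ, (i a κ).natDegree ≤ D := by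
  classical
  choose ks ns hks using fun s : M1 => hs (j1 s)
  let c : ℕ := S.sup ks
  let n' : M1 → M0 := fun s => (φ0 ^ (c - ks s)) (ns s)
  have hn' : ∀ s ∈ S, (T.toLinearMap ^ c) (j1 s) = j0 (n' s) := by
    intro s hs'
    have hle : ks s ≤ c := Finset.le_sup hs'
    have hc : c = (c - ks s) + ks s := (Nat.sub_add_cancel hle).symm
    change _ = j0 ((φ0 ^ (c - ks s)) (ns s))
    rw [gen_j0_pow φ0 T j0 h0, ← hks s, ← Module.End.mul_apply, ← pow_add, ← hc]
  let D : ℕ := S.sup (fun s => Finset.univ.sup (fun κ => (i (n' s) κ).natDegree))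
  have hD : ∀ s ∈ S, ∀ κ, (i (n' s) κ).natDegree ≤ D := by
    intro s hs' κ
    have h1 : (i (n' s) κ).natDegree ≤ Finset.univ.sup (fun κ => (i (n' s) κ).natDegree) :=
      Finset.le_sup (f := fun κ => (i (n' s) κ).natDegree) (Finset.mem_univ κ)
    exact h1.trans (Finset.le_sup (f := fun s => Finset.univ.sup
      (fun κ => (i (n' s) κ).natDegree)) hs')
  have key : ∀ b : M1, ∃ (E : ℕ) (a' : M0), (T.toLinearMap ^ (E + c)) (j1 b) = j0 a' ∧
      ∀ κ, (i a' κ).natDegree ≤ E + D := by
    intro b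
    have hb : b ∈ Submodule.span A {y | ∃ (k : ℕ) (s : M1), s ∈ S ∧ y = (φ1 ^ k) s} := by
      rw [hS]; trivial
    induction hb using Submodule.span_induction with
    | mem y hy =>
      obtain ⟨k, s, hsS, rfl⟩ := hy
      refine ⟨k, n' s, ?_, fun κ => (hD s hsS κ).trans (Nat.le_add_left _ _)⟩
      rw [add_comm, pow_add, Module.End.mul_apply, gen_T_pow_j1 φ1 T j1 h1, hn' s hsS]
    | zero => exact ⟨0, 0, by simp, fun κ => by simp⟩
    | add x y _ _ hx hy =>
      obtain ⟨E₁, a₁, h₁, d₁⟩ := hx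
      obtain ⟨E₂, a₂, h₂, d₂⟩ := hy
      refine ⟨E₁ + E₂, (φ0 ^ E₂) a₁ + (φ0 ^ E₁) a₂, ?_, fun κ => ?_⟩
      · have e1 : E₁ + E₂ + c = E₂ + (E₁ + c) := by omega
        have e2 : E₁ + E₂ + c = E₁ + (E₂ + c) := by omega
        rw [map_add, map_add, map_add, gen_j0_pow φ0 T j0 h0, gen_j0_pow φ0 T j0 h0, ← h₁, ← h₂]
        congr 1
        · rw [e1, pow_add, Module.End.mul_apply]
        · rw [e2, pow_add, Module.End.mul_apply]
      · rw [map_add, Pi.add_apply, i_pow φ0 i hi, i_pow φ0 i hi]
        refine (Polynomial.natDegree_add_le _ _).trans (max_le ?_ ?_)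
        · change ((X : A[X]) ^ E₂ * i a₁ κ).natDegree ≤ _
          refine Polynomial.natDegree_mul_le.trans ?_
          have := d₁ κ
          have h3 : ((X : A[X]) ^ E₂).natDegree ≤ E₂ := Polynomial.natDegree_X_pow_le E₂
          omega
        · change ((X : A[X]) ^ E₁ * i a₂ κ).natDegree ≤ _
          refine Polynomial.natDegree_mul_le.trans ?_
          have := d₂ κ
          have h3 : ((X : A[X]) ^ E₁).natDegree ≤ E₁ := Polynomial.natDegree_X_pow_le E₁
          omega
    | smul a x _ hx =>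
      obtain ⟨E, a', h', d'⟩ := hx
      refine ⟨E, a • a', by rw [map_smul, map_smul, map_smul, h'], fun κ => ?_⟩
      rw [map_smul, Pi.smul_apply]
      exact (Polynomial.natDegree_smul_le a _).trans (d' κ)
  refine ⟨D, fun a b hab κ => ?_⟩
  obtain ⟨E, a', h', d'⟩ := key b
  have e1 : (φ0 ^ (E + c)) a = a' := hj (by rw [gen_j0_pow φ0 T j0 h0, hab, h'])
  have e2 : (X : A[X]) ^ (E + c) * i a κ = i a' κ := by
    have h3 := congrFun (i_pow φ0 i hi (E + c) a) κ
    rw [e1] at h3
    exact h3.symm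
  by_cases hz : i a κ = 0
  · rw [hz]; simp
  · haveI : Nontrivial A := by
      by_contra hA
      rw [not_nontrivial_iff_subsingleton] at hA
      haveI := hA
      haveI : Subsingleton A[X] := Polynomial.subsingleton_iff_subsingleton.2 hA
      exact hz (Subsingleton.elim _ _)
    have e3 := Polynomial.natDegree_X_pow_mul (n := E + c) hz
    have h4 := d' κ
    rw [← e2, e3] at h4
    omega

end Bound

/-! ## Generators of a chart, the finitely generated submodule of bounded degree -/

section Gen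

variable {A : Type u} [CommRing A] {M : Type u} [AddCommGroup M] [Module A M]
  (φ : M →ₗ[A] M) {r : ℕ} (i : M →ₗ[A] (Fin r → A[X])) (p : (Fin r → A[X]) →ₗ[A] M)

/-- The generators `p e_l` of the chart. -/
noncomputable def gens : Finset M := by
  classical
  exact Finset.univ.image (fun l : Fin r => p (Pi.single l (1 : A[X])))

theorem p_single_mem (hp : ∀ v, p ((X : A[X]) • v) = φ (p v)) (l : Fin r) (f : A[X]) :
    p (Pi.single l f) ∈
      Submodule.span A {y | ∃ (k : ℕ) (s : M), s ∈ gens p ∧ y = (φ ^ k) s} := by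
  classical
  induction f using Polynomial.induction_on' with
  | add f g hf hg =>
    rw [Pi.single_add, map_add]
    exact Submodule.add_mem _ hf hg
  | monomial k a =>
    have e : (Pi.single l (Polynomial.monomial k a) : Fin r → A[X]) =
        a • ((X : A[X]) ^ k • Pi.single l (1 : A[X])) := by
      funext κ
      by_cases h : κ = l
      · subst h
        simp only [Pi.single_eq_same, Pi.smul_apply, smul_eq_mul, mul_one]
        rw [← Polynomial.C_mul_X_pow_eq_monomial, Polynomial.smul_eq_C_mul]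
      · simp only [Pi.single_eq_of_ne h, Pi.smul_apply, smul_eq_mul, mul_zero, smul_zero]
    rw [e, map_smul, p_pow φ p hp]
    refine Submodule.smul_mem _ _ (Submodule.subset_span ⟨k, _, ?_, rfl⟩)
    exact Finset.mem_image.2 ⟨l, Finset.mem_univ _, rfl⟩

theorem chart_span (hpi : ∀ n, p (i n) = n) (hp : ∀ v, p ((X : A[X]) • v) = φ (p v)) :
    Submodule.span A {y | ∃ (k : ℕ) (s : M), s ∈ gens p ∧ y = (φ ^ k) s} = ⊤ := by
  classical
  rw [eq_top_iff]
  intro n _
  rw [← hpi n, ← Finset.univ_sum_single (i n), map_sum]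
  exact Submodule.sum_mem _ (fun l _ => p_single_mem φ p hp l _)

/-- The image under `p` of the vectors of degree `≤ D`: a finitely generated submodule. -/
noncomputable def bdd (D : ℕ) : Submodule A M :=
  (Submodule.pi Set.univ (fun _ : Fin r => Polynomial.degreeLE A (D : WithBot ℕ))).map p

theorem bdd_fg (D : ℕ) : (bdd p D).FG := by
  classical
  refine Submodule.FG.map _ (Submodule.fg_pi (fun _ => ?_))
  rw [Polynomial.degreeLE_eq_span_X_pow]
  exact Submodule.fg_span (Finset.finite_toSet _)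

theorem mem_bdd (hpi : ∀ n, p (i n) = n) {D : ℕ} {n : M}
    (h : ∀ κ, (i n κ).natDegree ≤ D) : n ∈ bdd p D := by
  refine ⟨i n, ?_, hpi n⟩
  rw [SetLike.mem_coe, Submodule.mem_pi]
  intro κ _
  rw [Polynomial.mem_degreeLE]
  exact Polynomial.degree_le_of_natDegree_le (h κ)

end Gen

/-! ## Finiteness and the statement -/

section Final

variable {A : Type u} [CommRing A] (N : Data A)

/-- **`H0` lies in a finitely generated submodule** of `N0 × N1`. -/
theorem exists_fg_ge (hVB : N.IsVB) :
    ∃ M : Submodule A (N.N0 × N.N1), M.FG ∧ N.H0 ≤ M := by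
  have hj0 := j0_injective N hVB.loc hVB.proj0
  have hj1 := j1_injective N hVB.loc hVB.proj1
  obtain ⟨r0, i0, p0, hpi0, hi0, hp0⟩ := hVB.proj0
  obtain ⟨r1, i1, p1, hpi1, hi1, hp1⟩ := hVB.proj1
  -- bound for the chart-0 component
  obtain ⟨D0, hD0⟩ := deg_bound N.X0 N.Z1 N.T N.j0 N.j1 i0 N.j0_X N.j1_Z hVB.loc.surj0 hj0 hi0
    (gens p1) (chart_span N.Z1 i1 p1 hpi1 hp1)
  -- bound for the chart-1 component (the roles of the charts exchanged, `T` replaced by `T⁻¹`)
  obtain ⟨D1, hD1⟩ := deg_bound N.Z1 N.X0 N.T.symm N.j1 N.j0 i1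
    (fun n => by rw [LinearEquiv.eq_symm_apply]; exact N.j1_Z n)
    (fun n => by rw [N.j0_X, LinearEquiv.symm_apply_apply])
    hVB.loc.surj1 hj1 hi1 (gens p0) (chart_span N.X0 i0 p0 hpi0 hp0)
  refine ⟨(bdd p0 D0).prod (bdd p1 D1), (bdd_fg p0 D0).prod (bdd_fg p1 D1), ?_⟩
  rintro ⟨a, b⟩ hab
  have hab' : N.j0 a = N.j1 b := (N.mem_H0 _).1 hab
  exact ⟨mem_bdd i0 p0 hpi0 (hD0 a b hab'), mem_bdd i1 p1 hpi1 (hD1 b a hab'.symm)⟩

/-- **`H0` is a finitely generated `A`-module** (vector bundle with `H1 = 0`, any ring `A`). -/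
theorem h0_finite (hVB : N.IsVB) (h : Subsingleton N.H1) : Module.Finite A N.H0 := by
  obtain ⟨ρ, hρ⟩ := exists_retraction N hVB h
  obtain ⟨M, hM, hle⟩ := exists_fg_ge N hVB
  haveI : Module.Finite A M := Module.Finite.iff_fg.2 hM
  refine Module.Finite.of_surjective (ρ.domRestrict M) (fun x => ?_)
  exact ⟨⟨x, hle x.2⟩, hρ x⟩

/-- **P1-H0PROJ**, unconditional. -/
theorem stmt_H0PROJ : Stmt_H0PROJ.{u} := fun _ _ N hVB h =>
  ⟨h0_finite N hVB h, h0_projective N hVB h⟩

end Final

end Fermat.Agent.S25.P1.H97
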