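import Mathlib
import Fermat.Agent.S25.P1.Defs
import Fermat.Agent.S25.P1.H97_H0Proj

/-!
# S25, package P1: `H0` of a vector bundle with `H1 = 0` commutes with every base change
(leaf P1-BC0, helper97) — UNCONDITIONAL.

The sequence `0 → H0 → N0 × N1 → N01 → 0` (`q = j0 - j1`) is SPLIT exact (`H97.exists_section`:
`N01` is a projective `A`-module), so it stays exact after `A' ⊗[A] -`.

Main results: `exists_splitting`, `bc0_aux` (the statement with explicit tensor products),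
`stmt_BC0 : Stmt_BC0`.
-/

set_option autoImplicit false
set_option linter.style.haveILetI false
set_option linter.unusedSectionVars false

open Polynomial TensorProduct Module

universe u

namespace Fermat.Agent.S25.P1.H97

variable {A : Type u} [CommRing A] (N : Data A)

/-- The splitting of `0 → H0 → N0 × N1 → N01 → 0`. -/
theorem exists_splitting (hVB : N.IsVB) (h : Subsingleton N.H1) :
    ∃ (σ : N.N01 →ₗ[A] N.N0 × N.N1) (ρ : (N.N0 × N.N1) →ₗ[A] N.H0),
      (∀ m, q N (σ m) = m) ∧ ∀ x, (ρ x : N.N0 × N.N1) = x - σ (q N x) := by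
  obtain ⟨σ, hσ⟩ := exists_section N hVB h
  refine ⟨σ, (LinearMap.id - σ ∘ₗ q N).codRestrict N.H0 (fun x => ?_), hσ, fun x => ?_⟩
  · simp only [LinearMap.codRestrict_apply, LinearMap.sub_apply, LinearMap.id_apply,
      LinearMap.comp_apply]
  · rw [mem_H0_iff_q]
    simp only [LinearMap.sub_apply, LinearMap.id_apply, LinearMap.comp_apply, map_sub, hσ,
      sub_self]

/-- **BC0 with explicit tensor products.** -/
theorem bc0_aux (hVB : N.IsVB) (h : Subsingleton N.H1) (A' : Type u) [CommRing A']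
    [Algebra A A'] :
    ∃ e : A' ⊗[A] N.H0 ≃ₗ[A']
        (LinearMap.eqLocus
          ((N.j0.baseChange A') ∘ₗ LinearMap.fst A' (A' ⊗[A] N.N0) (A' ⊗[A] N.N1))
          ((N.j1.baseChange A') ∘ₗ LinearMap.snd A' (A' ⊗[A] N.N0) (A' ⊗[A] N.N1))),
      ∀ (a : A') (x : N.H0),
        ((e (a ⊗ₜ[A] x) : _) : (A' ⊗[A] N.N0) × (A' ⊗[A] N.N1)) =
          (a ⊗ₜ[A] x.1.1, a ⊗ₜ[A] x.1.2) := by
  obtain ⟨σ, ρ, hσ, hρ⟩ := exists_splitting N hVB h
  let ι0 : N.H0 →ₗ[A] N.N0 := LinearMap.fst A _ _ ∘ₗ N.H0.subtype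
  let ι1 : N.H0 →ₗ[A] N.N1 := LinearMap.snd A _ _ ∘ₗ N.H0.subtype
  let ρ0 : N.N0 →ₗ[A] N.H0 := ρ ∘ₗ LinearMap.inl A _ _
  let ρ1 : N.N1 →ₗ[A] N.H0 := ρ ∘ₗ LinearMap.inr A _ _
  let s0 : N.N01 →ₗ[A] N.N0 := LinearMap.fst A _ _ ∘ₗ σ
  let s1 : N.N01 →ₗ[A] N.N1 := LinearMap.snd A _ _ ∘ₗ σ
  have hq0 : ∀ n : N.N0, q N (n, 0) = N.j0 n := fun n => by simp [q_apply]
  have hq1 : ∀ n : N.N1, q N (0, n) = - N.j1 n := fun n => by simp [q_apply]
  have I1 : N.j0 ∘ₗ ι0 = N.j1 ∘ₗ ι1 := by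
    ext x
    exact x.2
  have I2 : ρ0 ∘ₗ ι0 + ρ1 ∘ₗ ι1 = LinearMap.id := by
    ext x
    · have hx : q N (x : N.N0 × N.N1) = 0 := (mem_H0_iff_q N _).1 x.2
      have e1 : ρ0 (ι0 x) + ρ1 (ι1 x) = ρ (x : N.N0 × N.N1) := by
        change ρ ((x : N.N0 × N.N1).1, 0) + ρ (0, (x : N.N0 × N.N1).2) = _
        rw [← map_add]
        simp
      have e2 : ((ρ (x : N.N0 × N.N1) : N.H0) : N.N0 × N.N1) = x := by
        rw [hρ, hx, map_zero, sub_zero]
      simp only [LinearMap.add_apply, LinearMap.comp_apply, LinearMap.id_apply]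
      rw [e1, e2]
    · have hx : q N (x : N.N0 × N.N1) = 0 := (mem_H0_iff_q N _).1 x.2
      have e1 : ρ0 (ι0 x) + ρ1 (ι1 x) = ρ (x : N.N0 × N.N1) := by
        change ρ ((x : N.N0 × N.N1).1, 0) + ρ (0, (x : N.N0 × N.N1).2) = _
        rw [← map_add]
        simp
      have e2 : ((ρ (x : N.N0 × N.N1) : N.H0) : N.N0 × N.N1) = x := by
        rw [hρ, hx, map_zero, sub_zero]
      simp only [LinearMap.add_apply, LinearMap.comp_apply, LinearMap.id_apply]
      rw [e1, e2]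
  have I3 : ι0 ∘ₗ ρ0 = LinearMap.id - s0 ∘ₗ N.j0 := by
    ext n
    change ((ρ (n, 0) : N.H0) : N.N0 × N.N1).1 = n - (σ (N.j0 n)).1
    rw [hρ, hq0]
    rfl
  have I4 : ι0 ∘ₗ ρ1 = s0 ∘ₗ N.j1 := by
    ext n
    change ((ρ (0, n) : N.H0) : N.N0 × N.N1).1 = (σ (N.j1 n)).1
    rw [hρ, hq1, map_neg]
    simp
  have I5 : ι1 ∘ₗ ρ0 = - (s1 ∘ₗ N.j0) := by
    ext n
    change ((ρ (n, 0) : N.H0) : N.N0 × N.N1).2 = - (σ (N.j0 n)).2
    rw [hρ, hq0]
    simp
  have I6 : ι1 ∘ₗ ρ1 = LinearMap.id + s1 ∘ₗ N.j1 := by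
    ext n
    change ((ρ (0, n) : N.H0) : N.N0 × N.N1).2 = n + (σ (N.j1 n)).2
    rw [hρ, hq1, map_neg]
    simp
  -- the base changes of the identities
  have B1 : ∀ x, N.j0.baseChange A' (ι0.baseChange A' x) = N.j1.baseChange A' (ι1.baseChange A' x) := by
    intro x
    have := LinearMap.congr_fun (congrArg (LinearMap.baseChange A') I1) x
    simpa only [LinearMap.baseChange_comp, LinearMap.comp_apply] using this
  have B2 : ∀ x, ρ0.baseChange A' (ι0.baseChange A' x) + ρ1.baseChange A' (ι1.baseChange A' x)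
      = x := by
    intro x
    have := LinearMap.congr_fun (congrArg (LinearMap.baseChange A') I2) x
    simpa only [LinearMap.baseChange_add, LinearMap.baseChange_comp, LinearMap.add_apply,
      LinearMap.comp_apply, LinearMap.baseChange_id, LinearMap.id_apply] using this
  have B3 : ∀ y, ι0.baseChange A' (ρ0.baseChange A' y) =
      y - s0.baseChange A' (N.j0.baseChange A' y) := by
    intro y
    have := LinearMap.congr_fun (congrArg (LinearMap.baseChange A') I3) y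
    simpa only [LinearMap.baseChange_sub, LinearMap.baseChange_comp, LinearMap.sub_apply,
      LinearMap.comp_apply, LinearMap.baseChange_id, LinearMap.id_apply] using this
  have B4 : ∀ y, ι0.baseChange A' (ρ1.baseChange A' y) =
      s0.baseChange A' (N.j1.baseChange A' y) := by
    intro y
    have := LinearMap.congr_fun (congrArg (LinearMap.baseChange A') I4) y
    simpa only [LinearMap.baseChange_comp, LinearMap.comp_apply] using this
  have B5 : ∀ y, ι1.baseChange A' (ρ0.baseChange A' y) =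
      - s1.baseChange A' (N.j0.baseChange A' y) := by
    intro y
    have := LinearMap.congr_fun (congrArg (LinearMap.baseChange A') I5) y
    simpa only [LinearMap.baseChange_neg, LinearMap.baseChange_comp, LinearMap.neg_apply,
      LinearMap.comp_apply] using this
  have B6 : ∀ y, ι1.baseChange A' (ρ1.baseChange A' y) =
      y + s1.baseChange A' (N.j1.baseChange A' y) := by
    intro y
    have := LinearMap.congr_fun (congrArg (LinearMap.baseChange A') I6) y
    simpa only [LinearMap.baseChange_add, LinearMap.baseChange_comp, LinearMap.add_apply,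
      LinearMap.comp_apply, LinearMap.baseChange_id, LinearMap.id_apply] using this
  -- the two maps
  let Φ : A' ⊗[A] N.H0 →ₗ[A'] (A' ⊗[A] N.N0) × (A' ⊗[A] N.N1) :=
    (ι0.baseChange A').prod (ι1.baseChange A')
  let Ψ : (A' ⊗[A] N.N0) × (A' ⊗[A] N.N1) →ₗ[A'] A' ⊗[A] N.H0 :=
    (ρ0.baseChange A').coprod (ρ1.baseChange A')
  have hΦ : ∀ x, Φ x ∈ LinearMap.eqLocus
      ((N.j0.baseChange A') ∘ₗ LinearMap.fst A' (A' ⊗[A] N.N0) (A' ⊗[A] N.N1))
      ((N.j1.baseChange A') ∘ₗ LinearMap.snd A' (A' ⊗[A] N.N0) (A' ⊗[A] N.N1)) := by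
    intro x
    rw [LinearMap.mem_eqLocus]
    exact B1 x
  have hΨΦ : ∀ x, Ψ (Φ x) = x := by
    intro x
    exact B2 x
  have hΦΨ : ∀ y ∈ LinearMap.eqLocus
      ((N.j0.baseChange A') ∘ₗ LinearMap.fst A' (A' ⊗[A] N.N0) (A' ⊗[A] N.N1))
      ((N.j1.baseChange A') ∘ₗ LinearMap.snd A' (A' ⊗[A] N.N0) (A' ⊗[A] N.N1)),
      Φ (Ψ y) = y := by
    rintro ⟨y0, y1⟩ hy
    have hy' : N.j0.baseChange A' y0 = N.j1.baseChange A' y1 := hy
    have e0 : (Φ (Ψ (y0, y1))).1 = y0 := by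
      change ι0.baseChange A' (ρ0.baseChange A' y0 + ρ1.baseChange A' y1) = y0
      rw [map_add, B3, B4, hy']
      abel
    have e1 : (Φ (Ψ (y0, y1))).2 = y1 := by
      change ι1.baseChange A' (ρ0.baseChange A' y0 + ρ1.baseChange A' y1) = y1
      rw [map_add, B5, B6, hy']
      abel
    exact Prod.ext e0 e1
  refine ⟨LinearEquiv.ofBijective (Φ.codRestrict _ hΦ) ⟨?_, ?_⟩, fun a x => ?_⟩
  · intro x y hxy
    have h1 : Φ x = Φ y := congrArg Subtype.val hxy
    rw [← hΨΦ x, ← hΨΦ y, h1]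
  · rintro ⟨y, hy⟩
    exact ⟨Ψ y, Subtype.ext (hΦΨ y hy)⟩
  · rfl

/-- **P1-BC0**, unconditional. -/
theorem stmt_BC0 : Stmt_BC0.{u} := fun _ _ N hVB h A' _ _ => bc0_aux N hVB h A'

end Fermat.Agent.S25.P1.H97
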