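import Mathlib
import Fermat.Agent.S25.P1.Defs
import Fermat.Agent.S25.P1.DefsC
import Fermat.Agent.S25.P1.H22_FG
import Fermat.Agent.S25.P1.H36_Tw
import Fermat.Agent.S25.P1.H67_CpxKey
import Fermat.Agent.S25.P1.H83_H1FP
import Fermat.Agent.S25.P1.H26_Rank
import Fermat.Agent.S25.P1.H44_ChiSemi
import Fermat.Agent.S25.P1.H97_H0Proj
import Fermat.Agent.S25.P1.H97_BC0

/-!
# S25, package P1: the closed (unconditional) forms of the leaves that waited for KEY 3
(helper97).  `H0PROJ` and `BC0` are `H97.stmt_H0PROJ`, `H97.stmt_BC0`; this file plugs them into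
the conditional results of helper67 (CPX), helper83 (H1FP), helper26 (RANK), helper44 (CHI, SEMI).
-/

set_option autoImplicit false

universe u

namespace Fermat.Agent.S25.P1.H97

/-- **P1-CPX**, unconditional. -/
theorem stmt_CPX : Stmt_CPX.{u} :=
  H67.stmt_CPX_of H22.stmt_VAN H36.stmt_TW stmt_H0PROJ stmt_BC0

/-- **P1-H1FP**, unconditional. -/
theorem stmt_H1FP : Stmt_H1FP.{u} := H83.h1fp_of_h0proj stmt_H0PROJ

/-- **P1-RANK**, unconditional. -/
theorem stmt_RANK : Stmt_RANK.{u} := H26.stmt_RANK_of_BC0 stmt_BC0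

/-- **P1-CHI**, unconditional. -/
theorem stmt_CHI : Stmt_CHI.{u} := H44.stmt_CHI_of stmt_CPX

/-- **P1-SEMI**, unconditional. -/
theorem stmt_SEMI : Stmt_SEMI.{u} := H44.stmt_SEMI_of stmt_CPX

end Fermat.Agent.S25.P1.H97
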