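import Mathlib
import Fermat.Agent.S25.P1.Defs

/-!
# S25, package P1, leaf LES (helper61): the long exact cohomology sequence of two-chart data

`0 → H0 N' → H0 N → H0 N'' → H1 N' → H1 N → H1 N'' → 0` for a short exact sequence
`0 → N' → N → N'' → 0` of two-chart data: the snake lemma (`SnakeLemma.δ'` of Mathlib) for the
Čech differential `d (a, b) = j0 a - j1 b`.
-/

set_option autoImplicit false

universe u

open Function

namespace Fermat.Agent.S25.P1.H61

variable {A : Type u} [CommRing A]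

/-- The Čech differential `(a, b) ↦ j0 a - j1 b`. -/
def cech (N : Data A) : N.N0 × N.N1 →ₗ[A] N.N01 :=
  N.j0 ∘ₗ LinearMap.fst A N.N0 N.N1 - N.j1 ∘ₗ LinearMap.snd A N.N0 N.N1

@[simp]
theorem cech_apply (N : Data A) (p : N.N0 × N.N1) : cech N p = N.j0 p.1 - N.j1 p.2 := rfl

/-- `H0` is the kernel of the Čech differential. -/
theorem exact_subtype_cech (N : Data A) : Exact N.H0.subtype (cech N) := by
  intro p
  constructor
  · intro hp
    refine ⟨⟨p, ?_⟩, rfl⟩
    rw [Data.mem_H0]
    exact sub_eq_zero.mp hp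
  · rintro ⟨q, rfl⟩
    have := (Data.mem_H0 N q.1).mp q.2
    simp [this]

/-- The range of the Čech differential is `B1`. -/
theorem range_cech (N : Data A) : LinearMap.range (cech N) = N.B1 := by
  apply le_antisymm
  · rintro m ⟨p, rfl⟩
    rw [cech_apply]
    exact Submodule.sub_mem _ (Submodule.mem_sup_left ⟨_, rfl⟩) (Submodule.mem_sup_right ⟨_, rfl⟩)
  · apply sup_le
    · rintro m ⟨a, rfl⟩
      exact ⟨(a, 0), by simp⟩
    · rintro m ⟨b, rfl⟩
      exact ⟨(0, -b), by simp⟩

/-- `H1` is the cokernel of the Čech differential. -/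
theorem exact_cech_mkQ (N : Data A) : Exact (cech N) N.B1.mkQ := by
  intro m
  rw [Submodule.mkQ_apply, Submodule.Quotient.mk_eq_zero, ← range_cech]
  rfl

/-- the map on the zero-cochains -/
def map0 {N N' : Data A} (f : Data.Hom N N') : N.N0 × N.N1 →ₗ[A] N'.N0 × N'.N1 :=
  f.f0.prodMap f.f1

theorem cech_comp_map0 {N N' : Data A} (f : Data.Hom N N') :
    f.f01.comp (cech N) = (cech N').comp (map0 f) := by
  ext p <;> simp [map0, f.f_j0, f.f_j1]

theorem exact_map0 {N' N N'' : Data A} {f : Data.Hom N' N} {g : Data.Hom N N''}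
    (h : Data.ShortExact f g) : Exact (map0 f) (map0 g) := by
  intro p
  constructor
  · intro hp
    have h1 : g.f0 p.1 = 0 := congrArg Prod.fst hp
    have h2 : g.f1 p.2 = 0 := congrArg Prod.snd hp
    obtain ⟨a, ha⟩ := (h.ex0 p.1).mp h1
    obtain ⟨b, hb⟩ := (h.ex1 p.2).mp h2
    exact ⟨(a, b), Prod.ext ha hb⟩
  · rintro ⟨q, rfl⟩
    have h1 : g.f0 (f.f0 q.1) = 0 := (h.ex0 _).mpr ⟨_, rfl⟩
    have h2 : g.f1 (f.f1 q.2) = 0 := (h.ex1 _).mpr ⟨_, rfl⟩
    exact Prod.ext h1 h2

theorem surjective_map0 {N' N N'' : Data A} {f : Data.Hom N' N} {g : Data.Hom N N''}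
    (h : Data.ShortExact f g) : Surjective (map0 g) := by
  rintro ⟨a, b⟩
  obtain ⟨a', rfl⟩ := h.surj0 a
  obtain ⟨b', rfl⟩ := h.surj1 b
  exact ⟨(a', b'), rfl⟩

theorem mapH0_coe {N N' : Data A} (f : Data.Hom N N') (p : N.H0) :
    ((f.mapH0 p : N'.H0) : N'.N0 × N'.N1) = map0 f p.1 := rfl

theorem mapH1_mk {N N' : Data A} (f : Data.Hom N N') (m : N.N01) :
    f.mapH1 (Submodule.Quotient.mk m) = Submodule.Quotient.mk (f.f01 m) := rfl

/-- the connecting homomorphism -/
noncomputable def delta {N' N N'' : Data A} (f : Data.Hom N' N) (g : Data.Hom N N'')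
    (h : Data.ShortExact f g) : N''.H0 →ₗ[A] N'.H1 :=
  SnakeLemma.δ' (cech N') (cech N) (cech N'') (map0 f) (map0 g) (exact_map0 h)
    f.f01 g.f01 h.ex01 (cech_comp_map0 f) (cech_comp_map0 g)
    N''.H0.subtype (exact_subtype_cech N'') N'.B1.mkQ (exact_cech_mkQ N')
    (surjective_map0 h) h.inj01

/-- **P1-LES**. -/
theorem stmt_LES : Stmt_LES.{u} := by
  intro A _ N' N N'' f g h
  refine ⟨delta f g h, ?_, ?_, ?_, ?_, ?_, ?_⟩
  · -- injectivity of `H0 N' → H0 N`
    intro p q hpq
    have h1 : map0 f p.1 = map0 f q.1 := by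
      rw [← mapH0_coe, ← mapH0_coe, hpq]
    apply Subtype.ext
    apply Prod.ext
    · exact h.inj0 (congrArg Prod.fst h1)
    · exact h.inj1 (congrArg Prod.snd h1)
  · -- exactness at `H0 N`
    intro p
    constructor
    · intro hp
      have h0 : map0 g p.1 = 0 := by
        rw [← mapH0_coe, hp]
        rfl
      obtain ⟨q, hq⟩ := (exact_map0 h p.1).mp h0
      have hq0 : cech N' q = 0 := by
        apply h.inj01
        have := LinearMap.congr_fun (cech_comp_map0 f) q
        simp only [LinearMap.comp_apply] at this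
        rw [this, hq, map_zero]
        exact ((exact_subtype_cech N) p.1).mpr ⟨p, rfl⟩
      obtain ⟨q', hq'⟩ := ((exact_subtype_cech N') q).mp hq0
      refine ⟨q', ?_⟩
      apply Subtype.ext
      rw [mapH0_coe, ← hq]
      congr 1
    · rintro ⟨q, rfl⟩
      apply Subtype.ext
      rw [mapH0_coe, mapH0_coe]
      exact (exact_map0 h _).mpr ⟨_, rfl⟩
  · -- exactness at `H0 N''`
    exact SnakeLemma.exact_δ'_right (cech N') (cech N) (cech N'') (map0 f) (map0 g) (exact_map0 h)
      f.f01 g.f01 h.ex01 (cech_comp_map0 f) (cech_comp_map0 g)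
      N.H0.subtype (exact_subtype_cech N)
      N''.H0.subtype (exact_subtype_cech N'') N'.B1.mkQ (exact_cech_mkQ N')
      (surjective_map0 h) h.inj01 g.mapH0 (by ext p <;> rfl) Subtype.val_injective
  · -- exactness at `H1 N'`
    exact SnakeLemma.exact_δ'_left (cech N') (cech N) (cech N'') (map0 f) (map0 g) (exact_map0 h)
      f.f01 g.f01 h.ex01 (cech_comp_map0 f) (cech_comp_map0 g)
      N''.H0.subtype (exact_subtype_cech N'') N'.B1.mkQ (exact_cech_mkQ N')
      N.B1.mkQ (exact_cech_mkQ N)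
      (surjective_map0 h) h.inj01 f.mapH1 (by ext m; rfl) (Submodule.mkQ_surjective _)
  · -- exactness at `H1 N`
    intro c
    obtain ⟨m, rfl⟩ := Submodule.Quotient.mk_surjective _ c
    constructor
    · intro hc
      rw [mapH1_mk, Submodule.Quotient.mk_eq_zero, ← range_cech] at hc
      obtain ⟨p'', hp''⟩ := hc
      obtain ⟨p, rfl⟩ := surjective_map0 h p''
      have h1 : g.f01 (m - cech N p) = 0 := by
        have := LinearMap.congr_fun (cech_comp_map0 g) p
        simp only [LinearMap.comp_apply] at this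
        rw [map_sub, this, hp'', sub_self]
      obtain ⟨m', hm'⟩ := (h.ex01 _).mp h1
      refine ⟨Submodule.Quotient.mk m', ?_⟩
      rw [mapH1_mk, hm', Submodule.Quotient.mk_sub]
      have h2 : (Submodule.Quotient.mk (cech N p) : N.H1) = 0 := by
        rw [Submodule.Quotient.mk_eq_zero, ← range_cech]
        exact ⟨p, rfl⟩
      rw [h2, sub_zero]
    · rintro ⟨c', hc'⟩
      obtain ⟨m', rfl⟩ := Submodule.Quotient.mk_surjective _ c'
      rw [← hc', mapH1_mk, mapH1_mk]
      have : g.f01 (f.f01 m') = 0 := (h.ex01 _).mpr ⟨_, rfl⟩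
      rw [this]
      rfl
  · -- surjectivity of `H1 N → H1 N''`
    intro c
    obtain ⟨m, rfl⟩ := Submodule.Quotient.mk_surjective _ c
    obtain ⟨m', rfl⟩ := h.surj01 m
    exact ⟨Submodule.Quotient.mk m', rfl⟩

end Fermat.Agent.S25.P1.H61
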