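import Mathlib
import Fermat.Agent.S25.P1.Defs
import Fermat.Agent.S25.P1.H22_FG

/-!
# S25, package P1: isomorphisms of two-chart data (helper22)

`DataIso N N'` = linear equivalences of the three modules compatible with all the structure.
Everything is transported: `IsLoc`, `Proj0`, `Proj1`, `IsVB`, the twists, `H0`, `H1`.
-/

set_option autoImplicit false

universe u

open Polynomial

namespace Fermat.Agent.S25.P1.H22I

open Fermat.Agent.S25.P1

variable {A : Type u} [CommRing A]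

/-- An isomorphism of two-chart data. -/
structure DataIso (N N' : Data A) where
  e0 : N.N0 ≃ₗ[A] N'.N0
  e1 : N.N1 ≃ₗ[A] N'.N1
  e01 : N.N01 ≃ₗ[A] N'.N01
  hX : ∀ n, e0 (N.X0 n) = N'.X0 (e0 n)
  hZ : ∀ n, e1 (N.Z1 n) = N'.Z1 (e1 n)
  hT : ∀ m, e01 (N.T m) = N'.T (e01 m)
  hj0 : ∀ n, e01 (N.j0 n) = N'.j0 (e0 n)
  hj1 : ∀ n, e01 (N.j1 n) = N'.j1 (e1 n)

namespace DataIso

variable {N N' : Data A} (φ : DataIso N N')

theorem hTsymm (m : N.N01) : φ.e01 (N.T.symm m) = N'.T.symm (φ.e01 m) := by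
  rw [LinearEquiv.eq_symm_apply, ← φ.hT, LinearEquiv.apply_symm_apply]

theorem hT_pow (k : ℕ) (m : N.N01) :
    φ.e01 ((N.T.toLinearMap ^ k) m) = (N'.T.toLinearMap ^ k) (φ.e01 m) := by
  induction k generalizing m with
  | zero => simp
  | succ k ih =>
    rw [pow_succ, Module.End.mul_apply, ih, pow_succ, Module.End.mul_apply]
    congr 1
    exact φ.hT m

theorem hTsymm_pow (k : ℕ) (m : N.N01) :
    φ.e01 ((N.T.symm.toLinearMap ^ k) m) = (N'.T.symm.toLinearMap ^ k) (φ.e01 m) := by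
  induction k generalizing m with
  | zero => simp
  | succ k ih =>
    rw [pow_succ, Module.End.mul_apply, ih, pow_succ, Module.End.mul_apply]
    congr 1
    exact φ.hTsymm m

theorem hT_zpow (n : ℤ) (m : N.N01) : φ.e01 ((N.T ^ n) m) = (N'.T ^ n) (φ.e01 m) := by
  obtain ⟨k, rfl | rfl⟩ := n.eq_nat_or_neg
  · rw [← Fermat.Agent.S25.P1.H22.toLinearMap_pow_apply,
      ← Fermat.Agent.S25.P1.H22.toLinearMap_pow_apply, φ.hT_pow]
  · rw [← Fermat.Agent.S25.P1.H22.symm_toLinearMap_pow_apply,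
      ← Fermat.Agent.S25.P1.H22.symm_toLinearMap_pow_apply, φ.hTsymm_pow]

theorem hX_pow (k : ℕ) (n : N.N0) : φ.e0 ((N.X0 ^ k) n) = (N'.X0 ^ k) (φ.e0 n) := by
  induction k generalizing n with
  | zero => simp
  | succ k ih =>
    rw [pow_succ, Module.End.mul_apply, ih, pow_succ, Module.End.mul_apply]
    congr 1
    exact φ.hX n

theorem hZ_pow (k : ℕ) (n : N.N1) : φ.e1 ((N.Z1 ^ k) n) = (N'.Z1 ^ k) (φ.e1 n) := by
  induction k generalizing n with
  | zero => simp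
  | succ k ih =>
    rw [pow_succ, Module.End.mul_apply, ih, pow_succ, Module.End.mul_apply]
    congr 1
    exact φ.hZ n

/-- The inverse isomorphism. -/
def symm : DataIso N' N where
  e0 := φ.e0.symm
  e1 := φ.e1.symm
  e01 := φ.e01.symm
  hX := fun n => by
    rw [LinearEquiv.symm_apply_eq, φ.hX, LinearEquiv.apply_symm_apply]
  hZ := fun n => by
    rw [LinearEquiv.symm_apply_eq, φ.hZ, LinearEquiv.apply_symm_apply]
  hT := fun m => by
    rw [LinearEquiv.symm_apply_eq, φ.hT, LinearEquiv.apply_symm_apply]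
  hj0 := fun n => by
    rw [LinearEquiv.symm_apply_eq, φ.hj0, LinearEquiv.apply_symm_apply]
  hj1 := fun n => by
    rw [LinearEquiv.symm_apply_eq, φ.hj1, LinearEquiv.apply_symm_apply]

/-- The isomorphism of the twists. -/
def twist (n : ℤ) : DataIso (N.twist n) (N'.twist n) where
  e0 := φ.e0
  e1 := φ.e1
  e01 := φ.e01
  hX := φ.hX
  hZ := φ.hZ
  hT := φ.hT
  hj0 := φ.hj0
  hj1 := fun x => by
    have hx := φ.hj1 x
    change φ.e01 ((N.T ^ n) (N.j1 x)) = (N'.T ^ n) (N'.j1 (φ.e1 x))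
    rw [φ.hT_zpow]
    exact congrArg _ hx

theorem isLoc (φ : DataIso N N') (h : N.IsLoc) : N'.IsLoc where
  surj0 := fun m => by
    obtain ⟨k, n, hk⟩ := h.surj0 (φ.e01.symm m)
    refine ⟨k, φ.e0 n, ?_⟩
    rw [← φ.hj0, ← hk, φ.hT_pow, LinearEquiv.apply_symm_apply]
  ker0 := fun n hn => by
    have h1 : N.j0 (φ.e0.symm n) = 0 := by
      apply φ.e01.injective
      rw [φ.hj0, LinearEquiv.apply_symm_apply, hn, map_zero]
    obtain ⟨k, hk⟩ := h.ker0 _ h1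
    refine ⟨k, ?_⟩
    have := congrArg φ.e0 hk
    rwa [φ.hX_pow, LinearEquiv.apply_symm_apply, map_zero] at this
  surj1 := fun m => by
    obtain ⟨k, n, hk⟩ := h.surj1 (φ.e01.symm m)
    refine ⟨k, φ.e1 n, ?_⟩
    rw [← φ.hj1, ← hk, φ.hTsymm_pow, LinearEquiv.apply_symm_apply]
  ker1 := fun n hn => by
    have h1 : N.j1 (φ.e1.symm n) = 0 := by
      apply φ.e01.injective
      rw [φ.hj1, LinearEquiv.apply_symm_apply, hn, map_zero]
    obtain ⟨k, hk⟩ := h.ker1 _ h1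
    refine ⟨k, ?_⟩
    have := congrArg φ.e1 hk
    rwa [φ.hZ_pow, LinearEquiv.apply_symm_apply, map_zero] at this

theorem proj0 (φ : DataIso N N') (h : N.Proj0) : N'.Proj0 := by
  obtain ⟨r, i, p, h1, h2, h3⟩ := h
  refine ⟨r, i ∘ₗ φ.e0.symm.toLinearMap, φ.e0.toLinearMap ∘ₗ p, fun n => ?_, fun n => ?_,
    fun v => ?_⟩
  · simp [h1]
  · simp only [LinearMap.comp_apply, LinearEquiv.coe_coe]
    rw [← h2]
    exact congrArg i (φ.symm.hX n)
  · simp only [LinearMap.comp_apply, LinearEquiv.coe_coe]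
    rw [h3, φ.hX]

theorem proj1 (φ : DataIso N N') (h : N.Proj1) : N'.Proj1 := by
  obtain ⟨r, i, p, h1, h2, h3⟩ := h
  refine ⟨r, i ∘ₗ φ.e1.symm.toLinearMap, φ.e1.toLinearMap ∘ₗ p, fun n => ?_, fun n => ?_,
    fun v => ?_⟩
  · simp [h1]
  · simp only [LinearMap.comp_apply, LinearEquiv.coe_coe]
    rw [← h2]
    exact congrArg i (φ.symm.hZ n)
  · simp only [LinearMap.comp_apply, LinearEquiv.coe_coe]
    rw [h3, φ.hZ]

theorem isVB (φ : DataIso N N') (h : N.IsVB) : N'.IsVB := ⟨φ.isLoc h.loc, φ.proj0 h.proj0, φ.proj1 h.proj1⟩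

/-- The underlying morphism. -/
def toHom : Data.Hom N N' where
  f0 := φ.e0
  f1 := φ.e1
  f01 := φ.e01
  f0_X := φ.hX
  f1_Z := φ.hZ
  f01_T := φ.hT
  f_j0 := φ.hj0
  f_j1 := φ.hj1

theorem mem_H0_iff (p : N.N0 × N.N1) : (φ.e0 p.1, φ.e1 p.2) ∈ N'.H0 ↔ p ∈ N.H0 := by
  rw [Data.mem_H0, Data.mem_H0, ← φ.hj0, ← φ.hj1]
  exact φ.e01.injective.eq_iff

/-- `H0` of isomorphic data. -/
def h0Equiv : N.H0 ≃ₗ[A] N'.H0 where
  toFun x := ⟨(φ.e0 x.1.1, φ.e1 x.1.2), (φ.mem_H0_iff x.1).2 x.2⟩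
  map_add' x y := by
    apply Subtype.ext
    simp
  map_smul' a x := by
    apply Subtype.ext
    simp
  invFun y := ⟨(φ.e0.symm y.1.1, φ.e1.symm y.1.2), by
    have := (φ.symm.mem_H0_iff y.1).2 y.2
    exact this⟩
  left_inv x := by
    apply Subtype.ext
    simp
  right_inv y := by
    apply Subtype.ext
    simp

theorem h0Equiv_apply (x : N.H0) : (φ.h0Equiv x).1 = (φ.e0 x.1.1, φ.e1 x.1.2) := rfl

theorem mem_B1_iff (m : N.N01) : φ.e01 m ∈ N'.B1 ↔ m ∈ N.B1 := by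
  constructor
  · intro h
    obtain ⟨a, ⟨n0, rfl⟩, b, ⟨n1, rfl⟩, hab⟩ := Submodule.mem_sup.mp h
    have : m = N.j0 (φ.e0.symm n0) + N.j1 (φ.e1.symm n1) := by
      apply φ.e01.injective
      rw [map_add, φ.hj0, φ.hj1, LinearEquiv.apply_symm_apply, LinearEquiv.apply_symm_apply, hab]
    rw [this]
    exact Submodule.add_mem _ (Submodule.mem_sup_left ⟨_, rfl⟩) (Submodule.mem_sup_right ⟨_, rfl⟩)
  · intro h
    obtain ⟨a, ⟨n0, rfl⟩, b, ⟨n1, rfl⟩, rfl⟩ := Submodule.mem_sup.mp h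
    rw [map_add, φ.hj0, φ.hj1]
    exact Submodule.add_mem _ (Submodule.mem_sup_left ⟨_, rfl⟩) (Submodule.mem_sup_right ⟨_, rfl⟩)

/-- `H1` of isomorphic data. -/
def h1Equiv : N.H1 ≃ₗ[A] N'.H1 :=
  Submodule.Quotient.equiv N.B1 N'.B1 φ.e01 (by
    ext m
    rw [Submodule.mem_map]
    constructor
    · rintro ⟨x, hx, rfl⟩
      exact (φ.mem_B1_iff x).2 hx
    · intro hm
      refine ⟨φ.e01.symm m, ?_, LinearEquiv.apply_symm_apply _ _⟩
      rw [← φ.mem_B1_iff, LinearEquiv.apply_symm_apply]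
      exact hm)

theorem h1Equiv_mk (m : N.N01) :
    φ.h1Equiv (Submodule.Quotient.mk m) = Submodule.Quotient.mk (φ.e01 m) := rfl

end DataIso

end Fermat.Agent.S25.P1.H22I
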