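import Mathlib
import Fermat.Agent.S25.P1.DefsD
import Fermat.Agent.S25.P1.H22_Iso

/-!
# S25, package P1, leaf ISO (helper22): `stmt_ISO : P1.Stmt_ISO`

`Data.Iso` (LB/DefsB.lean) has the same fields as `H22I.DataIso`; everything is in `H22_Iso.lean`.
-/

set_option autoImplicit false

universe u

namespace Fermat.Agent.S25.P1.H22IS

open Fermat.Agent.S25.P1 Fermat.Agent.S25.P1.H22I

variable {A : Type u} [CommRing A]

/-- `Data.Iso` as a `DataIso`. -/
def ofIso {N N' : Data A} (E : Data.Iso N N') : DataIso N N' where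
  e0 := E.e0
  e1 := E.e1
  e01 := E.e01
  hX := E.e0_X
  hZ := E.e1_Z
  hT := E.e01_T
  hj0 := E.e_j0
  hj1 := E.e_j1

/-- `DataIso` as a `Data.Iso`. -/
def toIso {N N' : Data A} (φ : DataIso N N') : Data.Iso N N' where
  e0 := φ.e0
  e1 := φ.e1
  e01 := φ.e01
  e0_X := φ.hX
  e1_Z := φ.hZ
  e01_T := φ.hT
  e_j0 := φ.hj0
  e_j1 := φ.hj1

/-- the inverse of a `Data.Iso` -/
def isoSymm {N N' : Data A} (E : Data.Iso N N') : Data.Iso N' N := toIso (ofIso E).symm

/-- the twist of a `Data.Iso` -/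
def isoTwist {N N' : Data A} (E : Data.Iso N N') (n : ℤ) : Data.Iso (N.twist n) (N'.twist n) :=
  toIso ((ofIso E).twist n)

/-- **P1-ISO**. -/
theorem stmt_ISO : Stmt_ISO.{u} := by
  intro A _ N N' E
  exact ⟨⟨(ofIso E).h0Equiv⟩, ⟨(ofIso E).h1Equiv⟩, (ofIso E).isLoc, (ofIso E).isVB⟩

end Fermat.Agent.S25.P1.H22IS
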