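/-
helper71, S25 package P1: the structure sheaf `O` of the projective line over `A` as two-chart data, and the
statement `Stmt_O` (cohomology of `O(n)`).  Interface file, Mathlib only.
-/
import Fermat.Agent.S25.P1.Defs

set_option autoImplicit false

universe u

open Polynomial TensorProduct LaurentPolynomial

namespace Fermat.Agent.S25.P1

variable (A : Type u) [CommRing A]

/-- Multiplication by `T` on Laurent polynomials, as a linear automorphism. -/
noncomputable def mulT : A[T;T⁻¹] ≃ₗ[A] A[T;T⁻¹] :=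
  LinearEquiv.ofLinearMap (LinearMap.mulLeft A (T 1 : A[T;T⁻¹])) (LinearMap.mulLeft A (T (-1) : A[T;T⁻¹]))
    (by
      ext p
      simp only [LinearMap.coe_comp, Function.comp_apply, LinearMap.mulLeft_apply, LinearMap.id_coe,
        id_eq]
      rw [← mul_assoc, ← T_add]
      simp)
    (by
      ext p
      simp only [LinearMap.coe_comp, Function.comp_apply, LinearMap.mulLeft_apply, LinearMap.id_coe,
        id_eq]
      rw [← mul_assoc, ← T_add]
      simp)

/-- The structure sheaf of the projective line over `A`: `N0 = A[X]`, `N1 = A[Z]`, `N01 = A[T, T⁻¹]`,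
`X ↦ T`, `Z ↦ T⁻¹`. -/
noncomputable def Data.O : Data A where
  N0 := A[X]
  N1 := A[X]
  N01 := A[T;T⁻¹]
  X0 := LinearMap.mulLeft A (X : A[X])
  Z1 := LinearMap.mulLeft A (X : A[X])
  T := mulT A
  j0 := (Polynomial.toLaurentAlg (R := A)).toLinearMap
  j1 := (LaurentPolynomial.invert (R := A)).toAlgHom.toLinearMap ∘ₗ
    (Polynomial.toLaurentAlg (R := A)).toLinearMap
  j0_X := fun p => by
    simp [mulT, Polynomial.toLaurentAlg_apply]
  j1_Z := fun p => by
    have h : (LaurentPolynomial.T 1 : A[T;T⁻¹]) * LaurentPolynomial.invert (LaurentPolynomial.T 1 : A[T;T⁻¹]) = 1 := by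
      rw [LaurentPolynomial.invert_T, ← LaurentPolynomial.T_add]
      simp
    simp only [mulT, LinearMap.mulLeft_apply, LinearMap.coe_comp, Function.comp_apply,
      AlgHom.toLinearMap_apply, Polynomial.toLaurentAlg_apply, map_mul, Polynomial.toLaurent_X,
      LinearEquiv.coe_ofLinearMap]
    change (LaurentPolynomial.T 1 : A[T;T⁻¹]) * (LaurentPolynomial.invert (LaurentPolynomial.T 1 : A[T;T⁻¹]) *
      LaurentPolynomial.invert (toLaurent p)) = LaurentPolynomial.invert (toLaurent p)
    rw [← mul_assoc, h, one_mul]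

/-- **P1-O**: `O` is a vector bundle; `O(n)` has `H1 = 0` and `H0` free of rank `n + 1` for `n ≥ -1`,
and `H0 = 0`, `H1` free of rank `-n - 1` for `n ≤ -1`. -/
def Stmt_O : Prop :=
  ∀ (A : Type u) [CommRing A],
    (Data.O A).IsVB ∧
    (∀ n : ℤ, -1 ≤ n → Subsingleton ((Data.O A).twist n).H1 ∧
      Nonempty (((Data.O A).twist n).H0 ≃ₗ[A] (Fin (n + 1).toNat → A))) ∧
    (∀ n : ℤ, n ≤ -1 → ((Data.O A).twist n).H0 = ⊥ ∧
      Nonempty (((Data.O A).twist n).H1 ≃ₗ[A] (Fin (-n - 1).toNat → A)))

end Fermat.Agent.S25.P1
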