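import Mathlib
import Fermat.Agent.S25.P1.Defs
import Fermat.Agent.S25.P1.H22_FG

/-!
# S25, package P1, leaf O (helper22): the cohomology of `O(n)` on the projective line

`OData A` is the two-chart data of the structure sheaf: `N0 = A[x]`, `N1 = A[1/x]` (both `A[X]`),
`N01 = A[x, 1/x]` (as `ℤ →₀ A`), `T` = multiplication by `x`.

* `OData_isVB`      : `OData A` is a vector bundle;
* `h0EquivTwist n`  : `H0 (O(n)) ≃ₗ[A] (Fin (n + 1).toNat → A)`;
* `h1EquivTwist n`  : `H1 (O(n)) ≃ₗ[A] (Fin (-n - 1).toNat → A)`;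
* `stmt_O : Stmt_O` : the package.
-/

set_option autoImplicit false
universe u
open Polynomial

namespace Fermat.Agent.S25.P1.H22O

variable (A : Type u) [CommRing A]

/-- `p ↦ ∑ p_i T^(ε i)`. -/
noncomputable def jm (ε : ℤ) : A[X] →ₗ[A] (ℤ →₀ A) :=
  Polynomial.lsum fun i => Finsupp.lsingle (ε * (i : ℤ))

/-- multiplication by `T ^ ε`. -/
noncomputable def Tm (ε : ℤ) : (ℤ →₀ A) ≃ₗ[A] (ℤ →₀ A) :=
  Finsupp.domLCongr (Equiv.addRight ε)

variable {A}

theorem jm_monomial (ε : ℤ) (i : ℕ) (a : A) :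
    jm A ε (monomial i a) = Finsupp.single (ε * (i : ℤ)) a := by
  simp [jm, Polynomial.lsum_apply, Polynomial.sum_monomial_index]

theorem Tm_single (ε e : ℤ) (a : A) : Tm A ε (Finsupp.single e a) = Finsupp.single (e + ε) a := by
  simp [Tm]

theorem Tm_apply (ε : ℤ) (f : ℤ →₀ A) (e : ℤ) : Tm A ε f e = f (e - ε) := by
  simp [Tm, Finsupp.domLCongr_apply, Finsupp.domCongr_apply, Finsupp.equivMapDomain_apply]
  rfl

theorem jm_X_mul (ε : ℤ) (p : A[X]) : jm A ε (X * p) = Tm A ε (jm A ε p) := by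
  induction p using Polynomial.induction_on' with
  | add p q hp hq => rw [mul_add, map_add, map_add, map_add, hp, hq]
  | monomial i a =>
    rw [X_mul_monomial, jm_monomial, jm_monomial, Tm_single]
    congr 1
    push_cast
    ring

theorem jm_apply (ε : ℤ) (hε : ε = 1 ∨ ε = -1) (p : A[X]) (e : ℤ) :
    jm A ε p e = if 0 ≤ ε * e then p.coeff (ε * e).toNat else 0 := by
  induction p using Polynomial.induction_on' with
  | add p q hp hq =>
    rw [map_add, Finsupp.add_apply, hp, hq]
    split_ifs <;> simp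
  | monomial i a =>
    rw [jm_monomial, Finsupp.single_apply, coeff_monomial]
    rcases hε with rfl | rfl
    · by_cases h : (1 : ℤ) * (i : ℤ) = e
      · subst h; simp
      · rw [if_neg h]
        split_ifs with h1 h2
        · exfalso; apply h; omega
        · rfl
        · rfl
    · by_cases h : (-1 : ℤ) * (i : ℤ) = e
      · subst h; simp
      · rw [if_neg h]
        split_ifs with h1 h2
        · exfalso; apply h; omega
        · rfl
        · rfl


theorem jm_injective (ε : ℤ) (hε : ε = 1 ∨ ε = -1) : Function.Injective (jm A ε) := by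
  rw [injective_iff_map_eq_zero]
  intro p hp
  ext i
  have h := DFunLike.congr_fun hp (ε * (i : ℤ))
  rw [jm_apply ε hε] at h
  have h2 : ε * (ε * (i : ℤ)) = i := by rcases hε with rfl | rfl <;> ring
  rw [h2] at h
  simpa using h

theorem Tm_symm : (Tm A 1).symm = Tm A (-1) := by
  apply LinearEquiv.ext
  intro f
  rw [LinearEquiv.symm_apply_eq]
  ext e
  rw [Tm_apply, Tm_apply]
  congr 1
  ring

theorem Tm_zpow (n : ℤ) : (Tm A 1) ^ n = Tm A n := by
  have hnat : ∀ k : ℕ, (Tm A 1) ^ k = Tm A (k : ℤ) := by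
    intro k
    induction k with
    | zero =>
      apply LinearEquiv.ext; intro f; ext e
      simp [Tm_apply]
    | succ k ih =>
      rw [pow_succ, ih]
      apply LinearEquiv.ext; intro f; ext e
      rw [LinearEquiv.mul_apply, Tm_apply, Tm_apply, Tm_apply]
      congr 1
      push_cast
      ring
  obtain ⟨k, rfl | rfl⟩ := n.eq_nat_or_neg
  · rw [zpow_natCast, hnat]
  · rw [zpow_neg, zpow_natCast, hnat]
    apply LinearEquiv.ext; intro f
    change (Tm A (k : ℤ)).symm f = _
    rw [LinearEquiv.symm_apply_eq]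
    ext e
    rw [Tm_apply, Tm_apply]
    congr 1
    ring

variable (A)

/-- The structure sheaf of the projective line over `A` as two-chart data:
`N0 = A[x]`, `N1 = A[1/x]`, `N01 = A[x, 1/x]` (as `ℤ →₀ A`). -/
@[reducible] noncomputable def OData : Data A where
  N0 := A[X]
  N1 := A[X]
  N01 := ℤ →₀ A
  X0 := LinearMap.mulLeft A (X : A[X])
  Z1 := LinearMap.mulLeft A (X : A[X])
  T := Tm A 1
  j0 := jm A 1
  j1 := jm A (-1)
  j0_X := fun n => jm_X_mul 1 n
  j1_Z := fun n => by
    have h := jm_X_mul (A := A) (-1) n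
    simp only [LinearMap.mulLeft_apply]
    rw [h]
    ext e
    rw [Tm_apply, Tm_apply]
    congr 1
    ring

variable {A}

theorem X0_pow (k : ℕ) (p : A[X]) :
    ((LinearMap.mulLeft A (X : A[X])) ^ k) p = X ^ k * p := by
  induction k generalizing p with
  | zero => simp
  | succ k ih =>
    rw [pow_succ, Module.End.mul_apply, ih, LinearMap.mulLeft_apply]
    ring

theorem jm_Xpow_mul (ε : ℤ) (k : ℕ) (p : A[X]) :
    jm A ε (X ^ k * p) = Tm A (ε * k) (jm A ε p) := by
  induction k generalizing p with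
  | zero =>
    simp only [pow_zero, one_mul, Nat.cast_zero, mul_zero]
    ext e; rw [Tm_apply]; simp
  | succ k ih =>
    rw [pow_succ, mul_assoc, ih, jm_X_mul]
    ext e
    rw [Tm_apply, Tm_apply, Tm_apply]
    congr 1
    push_cast
    ring

/-- every element of `A[x, 1/x]` is `x^(-k)` times a polynomial in `x^ε`. -/
theorem exists_jm (ε : ℤ) (hε : ε = 1 ∨ ε = -1) (f : ℤ →₀ A) :
    ∃ (k : ℕ) (p : A[X]), Tm A (ε * k) f = jm A ε p := by
  induction f using Finsupp.induction_linear with
  | zero => exact ⟨0, 0, by simp⟩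
  | add f g hf hg =>
    obtain ⟨k, p, hp⟩ := hf
    obtain ⟨l, q, hq⟩ := hg
    refine ⟨k + l, X ^ l * p + X ^ k * q, ?_⟩
    rw [map_add, map_add, jm_Xpow_mul, jm_Xpow_mul, ← hp, ← hq]
    congr 1
    · ext e
      rw [Tm_apply, Tm_apply, Tm_apply]
      congr 1; push_cast; ring
    · ext e
      rw [Tm_apply, Tm_apply, Tm_apply]
      congr 1; push_cast; ring
  | single e a =>
    refine ⟨(-(ε * e)).toNat, monomial (ε * e + ((-(ε * e)).toNat : ℤ)).toNat a, ?_⟩
    rw [Tm_single, jm_monomial]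
    congr 1
    rcases hε with rfl | rfl
    · simp only [one_mul]; omega
    · simp only [neg_mul, one_mul, neg_neg]; omega

theorem OData_isLoc : (OData A).IsLoc where
  surj0 := fun m => by
    obtain ⟨k, p, hp⟩ := exists_jm (A := A) 1 (Or.inl rfl) m
    refine ⟨k, p, ?_⟩
    rw [Fermat.Agent.S25.P1.H22.toLinearMap_pow_apply]
    change ((Tm A 1) ^ (k : ℤ)) m = jm A 1 p
    rw [Tm_zpow, ← hp, one_mul]
  ker0 := fun n hn => ⟨0, by
    have : n = 0 := jm_injective (A := A) 1 (Or.inl rfl) (hn.trans (map_zero (jm A 1)).symm)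
    simp [this]⟩
  surj1 := fun m => by
    obtain ⟨k, p, hp⟩ := exists_jm (A := A) (-1) (Or.inr rfl) m
    refine ⟨k, p, ?_⟩
    rw [Fermat.Agent.S25.P1.H22.symm_toLinearMap_pow_apply]
    change ((Tm A 1) ^ (-(k : ℤ))) m = jm A (-1) p
    rw [Tm_zpow, ← hp]
    congr 2
    ring
  ker1 := fun n hn => ⟨0, by
    have : n = 0 := jm_injective (A := A) (-1) (Or.inr rfl) (hn.trans (map_zero (jm A (-1))).symm)
    simp [this]⟩

theorem OData_proj0 : (OData A).Proj0 :=
  ⟨1, LinearMap.pi (fun _ => LinearMap.id), LinearMap.proj 0, fun _ => rfl,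
    fun n => by ext i; simp [OData], fun v => by simp [OData]⟩

theorem OData_proj1 : (OData A).Proj1 :=
  ⟨1, LinearMap.pi (fun _ => LinearMap.id), LinearMap.proj 0, fun _ => rfl,
    fun n => by ext i; simp [OData], fun v => by simp [OData]⟩

theorem OData_isVB : (OData A).IsVB := ⟨OData_isLoc, OData_proj0, OData_proj1⟩


/-! ## Cohomology of `O(n)` -/

variable (A)

/-- `O(n)`, in reducible form. -/
@[reducible] noncomputable def OTw (n : ℤ) : Data A where
  N0 := A[X]
  N1 := A[X]
  N01 := ℤ →₀ A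
  X0 := LinearMap.mulLeft A (X : A[X])
  Z1 := LinearMap.mulLeft A (X : A[X])
  T := Tm A 1
  j0 := jm A 1
  j1 := ((Tm A 1) ^ n).toLinearMap ∘ₗ jm A (-1)
  j0_X := ((OData A).twist n).j0_X
  j1_Z := ((OData A).twist n).j1_Z

theorem twist_eq (n : ℤ) : (OData A).twist n = OTw A n := rfl

variable {A}


theorem twist_j1_apply (n : ℤ) (q : A[X]) (e : ℤ) :
    (OTw A n).j1 q e = if e ≤ n then q.coeff (n - e).toNat else 0 := by
  change ((Tm A 1) ^ n) (jm A (-1) q) e = _
  rw [Tm_zpow, Tm_apply, jm_apply (-1) (Or.inr rfl)]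
  have h1 : (-1 : ℤ) * (e - n) = n - e := by ring
  rw [h1]
  by_cases h : e ≤ n
  · rw [if_pos h, if_pos (by omega)]
  · rw [if_neg h, if_neg (by omega)]

theorem twist_j0_apply (n : ℤ) (p : A[X]) (e : ℤ) :
    (OTw A n).j0 p e = if 0 ≤ e then p.coeff e.toNat else 0 := by
  change jm A 1 p e = _
  rw [jm_apply 1 (Or.inl rfl), one_mul]

theorem twist_j1_monomial (n : ℤ) (i : ℕ) (a : A) :
    (OTw A n).j1 (monomial i a) = Finsupp.single (n - i) a := by
  change ((Tm A 1) ^ n) (jm A (-1) (monomial i a)) = _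
  rw [Tm_zpow, jm_monomial, Tm_single]
  congr 1
  ring

theorem twist_j0_monomial (n : ℤ) (i : ℕ) (a : A) :
    (OTw A n).j0 (monomial i a) = Finsupp.single (i : ℤ) a := by
  change jm A 1 (monomial i a) = _
  rw [jm_monomial, one_mul]

/-- the coefficients `n < e < 0` -/
noncomputable def phi (n : ℤ) : (ℤ →₀ A) →ₗ[A] (Fin (-n - 1).toNat → A) :=
  LinearMap.pi fun i => Finsupp.lapply (n + 1 + (i : ℤ))

theorem phi_apply (n : ℤ) (f : ℤ →₀ A) (i : Fin (-n - 1).toNat) :
    phi n f i = f (n + 1 + (i : ℤ)) := rfl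

theorem phi_surjective (n : ℤ) : Function.Surjective (phi (A := A) n) := by
  intro c
  refine ⟨∑ i : Fin (-n - 1).toNat, Finsupp.single (n + 1 + (i : ℤ)) (c i), ?_⟩
  ext j
  rw [phi_apply, Finsupp.finsetSum_apply]
  rw [Finset.sum_eq_single j]
  · simp
  · intro i _ hij
    rw [Finsupp.single_apply, if_neg]
    intro h
    apply hij
    apply Fin.ext
    omega
  · intro h; exact absurd (Finset.mem_univ j) h

theorem ker_phi (n : ℤ) :
    LinearMap.ker (phi (A := A) n) =
      LinearMap.range (OTw A n).j0 ⊔ LinearMap.range (OTw A n).j1 := by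
  apply le_antisymm
  · intro f hf
    rw [LinearMap.mem_ker] at hf
    rw [← Finsupp.sum_single f]
    refine Submodule.sum_mem _ fun e _ => ?_
    by_cases h0 : 0 ≤ e
    · refine Submodule.mem_sup_left ⟨monomial e.toNat (f e), ?_⟩
      rw [twist_j0_monomial]
      congr 1
      omega
    · by_cases h1 : e ≤ n
      · refine Submodule.mem_sup_right ⟨monomial (n - e).toNat (f e), ?_⟩
        rw [twist_j1_monomial]
        congr 1
        omega
      · have hi : (e - n - 1).toNat < (-n - 1).toNat := by omega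
        have := congrFun hf ⟨(e - n - 1).toNat, hi⟩
        rw [phi_apply] at this
        have he : n + 1 + (((⟨(e - n - 1).toNat, hi⟩ : Fin (-n - 1).toNat) : ℕ) : ℤ) = e := by
          simp only
          omega
        rw [he] at this
        rw [this]
        simp
  · rw [sup_le_iff]
    constructor
    · rintro _ ⟨p, rfl⟩
      rw [LinearMap.mem_ker]
      ext i
      rw [phi_apply, twist_j0_apply, if_neg]
      · rfl
      · have := i.2
        omega
    · rintro _ ⟨q, rfl⟩
      rw [LinearMap.mem_ker]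
      ext i
      rw [phi_apply, twist_j1_apply, if_neg]
      · rfl
      · omega

/-- `H1 (O(n))` is free of rank `-n-1`. -/
noncomputable def h1Equiv (n : ℤ) : (OTw A n).H1 ≃ₗ[A] (Fin (-n - 1).toNat → A) :=
  (Submodule.quotEquivOfEq _ _ (ker_phi (A := A) n).symm).trans
    ((phi (A := A) n).quotKerEquivOfSurjective (phi_surjective n))

/-- the coefficients of the chart-0 part -/
noncomputable def psi (n : ℤ) : (OTw A n).H0 →ₗ[A] (Fin (n + 1).toNat → A) :=
  (LinearMap.pi fun i : Fin (n + 1).toNat => (Polynomial.lcoeff A (i : ℕ)) ∘ₗ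
    LinearMap.fst A A[X] A[X]) ∘ₗ (OTw A n).H0.subtype

theorem psi_apply (n : ℤ) (x : (OTw A n).H0) (i : Fin (n + 1).toNat) :
    psi n x i = (x.1.1 : A[X]).coeff i := rfl

theorem psi_injective (n : ℤ) : Function.Injective (psi (A := A) n) := by
  rw [injective_iff_map_eq_zero]
  rintro ⟨⟨p, q⟩, hx⟩ h
  have hx' : (OTw A n).j0 p = (OTw A n).j1 q := hx
  have hp : (p : A[X]) = 0 := by
    ext i
    rw [coeff_zero]
    by_cases hi : i < (n + 1).toNat
    · have := congrFun h ⟨i, hi⟩
      rwa [psi_apply] at this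
    · have := DFunLike.congr_fun hx' (i : ℤ)
      rw [twist_j0_apply, twist_j1_apply, if_pos (by omega), if_neg (by omega)] at this
      simpa using this
  have hq : (q : A[X]) = 0 := by
    ext j
    rw [coeff_zero]
    have := DFunLike.congr_fun hx' (n - j)
    have h2 : (n - (n - (j : ℤ))).toNat = j := by omega
    rw [hp, map_zero, twist_j1_apply, if_pos (by omega), h2] at this
    exact this.symm
  apply Subtype.ext
  change ((p, q) : A[X] × A[X]) = 0
  rw [hp, hq]
  rfl

theorem psi_surjective (n : ℤ) : Function.Surjective (psi (A := A) n) := by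
  intro c
  have hmem : ((∑ i : Fin (n + 1).toNat, monomial (i : ℕ) (c i) : A[X]),
      (∑ i : Fin (n + 1).toNat, monomial (n - (i : ℕ)).toNat (c i) : A[X])) ∈
      (OTw A n).H0 := by
    show (OTw A n).j0 (∑ i : Fin (n + 1).toNat, monomial (i : ℕ) (c i) : A[X]) =
      (OTw A n).j1 (∑ i : Fin (n + 1).toNat, monomial (n - (i : ℕ)).toNat (c i) : A[X])
    rw [map_sum, map_sum]
    refine Finset.sum_congr rfl fun i _ => ?_
    rw [twist_j0_monomial, twist_j1_monomial]
    congr 1
    have := i.2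
    omega
  refine ⟨⟨_, hmem⟩, ?_⟩
  ext j
  rw [psi_apply]
  change (∑ i : Fin (n + 1).toNat, monomial (i : ℕ) (c i) : A[X]).coeff j = c j
  rw [finsetSum_coeff, Finset.sum_eq_single j]
  · simp
  · intro i _ hij
    rw [coeff_monomial, if_neg]
    intro h
    exact hij (Fin.ext h)
  · intro h; exact absurd (Finset.mem_univ j) h

/-- `H0 (O(n))` is free of rank `n+1`. -/
noncomputable def h0Equiv (n : ℤ) : (OTw A n).H0 ≃ₗ[A] (Fin (n + 1).toNat → A) :=
  LinearEquiv.ofBijective (psi n) ⟨psi_injective n, psi_surjective n⟩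


/-! ## The statements for `(OData A).twist n` -/

variable (A)

/-- `H0 (O(n))` is free of rank `n + 1`. -/
noncomputable def h0EquivTwist (n : ℤ) :
    ((OData A).twist n).H0 ≃ₗ[A] (Fin (n + 1).toNat → A) :=
  h0Equiv (A := A) n

/-- `H1 (O(n))` is free of rank `-n - 1`. -/
noncomputable def h1EquivTwist (n : ℤ) :
    ((OData A).twist n).H1 ≃ₗ[A] (Fin (-n - 1).toNat → A) :=
  h1Equiv (A := A) n

theorem h0_twist_apply (n : ℤ) (x : ((OData A).twist n).H0) (i : Fin (n + 1).toNat) :
    h0EquivTwist A n x i = (show A[X] from x.1.1).coeff i := rfl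

theorem h1_twist_mk (n : ℤ) (f : ℤ →₀ A) (i : Fin (-n - 1).toNat) :
    h1EquivTwist A n (Submodule.Quotient.mk (show ((OData A).twist n).N01 from f)) i =
      f (n + 1 + (i : ℤ)) := rfl

/-- `H0 (O(n)) = 0` for `n < 0`. -/
theorem subsingleton_h0_twist (n : ℤ) (hn : n < 0) : Subsingleton ((OData A).twist n).H0 := by
  have h : (n + 1).toNat = 0 := by omega
  have : IsEmpty (Fin (n + 1).toNat) := by rw [h]; infer_instance
  exact (h0EquivTwist A n).toEquiv.subsingleton

/-- `H1 (O(n)) = 0` for `n ≥ -1`. -/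
theorem subsingleton_h1_twist (n : ℤ) (hn : -1 ≤ n) : Subsingleton ((OData A).twist n).H1 := by
  have h : (-n - 1).toNat = 0 := by omega
  have : IsEmpty (Fin (-n - 1).toNat) := by rw [h]; infer_instance
  exact (h1EquivTwist A n).toEquiv.subsingleton

theorem free_h0_twist (n : ℤ) : Module.Free A ((OData A).twist n).H0 :=
  Module.Free.of_equiv (h0EquivTwist A n).symm

theorem free_h1_twist (n : ℤ) : Module.Free A ((OData A).twist n).H1 :=
  Module.Free.of_equiv (h1EquivTwist A n).symm

theorem finite_h0_twist (n : ℤ) : Module.Finite A ((OData A).twist n).H0 :=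
  Module.Finite.equiv (h0EquivTwist A n).symm

theorem finite_h1_twist (n : ℤ) : Module.Finite A ((OData A).twist n).H1 :=
  Module.Finite.equiv (h1EquivTwist A n).symm

variable {A}

/-- **P1-O**: the cohomology of `O(n)`. -/
def Stmt_O : Prop :=
  ∀ (A : Type u) [CommRing A], (OData A).IsVB ∧ ∀ n : ℤ,
    Nonempty (((OData A).twist n).H0 ≃ₗ[A] (Fin (n + 1).toNat → A)) ∧
    Nonempty (((OData A).twist n).H1 ≃ₗ[A] (Fin (-n - 1).toNat → A))

theorem stmt_O : Stmt_O.{u} :=
  fun A _ => ⟨OData_isVB, fun n => ⟨⟨h0EquivTwist A n⟩, ⟨h1EquivTwist A n⟩⟩⟩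

end Fermat.Agent.S25.P1.H22O
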