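import Mathlib
import Fermat.Agent.S25.P1.DefsO
import Fermat.Agent.S25.P1.H22_O
import Fermat.Agent.S25.P1.H22_Iso

/-!
# S25, package P1, leaf O: `stmt_O : P1.Stmt_O` (helper22)

`Data.O A` (Laurent polynomials, `DefsO.lean`) is isomorphic to the model `OData A` of
`H22_O.lean` by the coefficient map; the cohomology is transported by `H22I.DataIso`.
-/

set_option autoImplicit false

universe u

open Polynomial LaurentPolynomial

namespace Fermat.Agent.S25.P1.H22OF

open Fermat.Agent.S25.P1 Fermat.Agent.S25.P1.H22O Fermat.Agent.S25.P1.H22I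

variable (A : Type u) [CommRing A]

/-- the coefficients of a Laurent polynomial -/
noncomputable def cf : A[T;T⁻¹] ≃ₗ[A] (ℤ →₀ A) := AddMonoidAlgebra.coeffLinearEquiv A

variable {A}

theorem cf_apply (f : A[T;T⁻¹]) (e : ℤ) : cf A f e = f.coeff e := rfl

theorem cf_single (e : ℤ) (a : A) :
    cf A (AddMonoidAlgebra.single e a : A[T;T⁻¹]) = Finsupp.single e a := rfl

theorem cf_toLaurent (p : A[X]) : cf A (toLaurent p) = jm A 1 p := by
  induction p using Polynomial.induction_on' with
  | add p q hp hq => rw [map_add, map_add, map_add, hp, hq]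
  | monomial i a =>
    rw [Polynomial.toLaurent_C_mul_T, ← single_eq_C_mul_T, cf_single, jm_monomial, one_mul]

theorem cf_invert (f : A[T;T⁻¹]) (e : ℤ) : cf A (invert f) e = cf A f (-e) := by
  rw [cf_apply, cf_apply, invert_apply]

theorem jm_neg (p : A[X]) (e : ℤ) : jm A (-1) p e = jm A 1 p (-e) := by
  rw [jm_apply (-1) (Or.inr rfl), jm_apply 1 (Or.inl rfl)]
  simp

theorem cf_invert_toLaurent (p : A[X]) : cf A (invert (toLaurent p)) = jm A (-1) p := by
  ext e
  rw [cf_invert, cf_toLaurent, jm_neg]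

theorem cf_T_mul (f : A[T;T⁻¹]) : cf A (T 1 * f) = Tm A 1 (cf A f) := by
  induction f using LaurentPolynomial.induction_on' with
  | add p q hp hq => rw [mul_add, map_add, map_add, map_add, hp, hq]
  | C_mul_T n a =>
    rw [← single_eq_C_mul_T, T, AddMonoidAlgebra.single_mul_single, cf_single, cf_single,
      Tm_single, one_mul, add_comm]

/-- `Data.O A ≅ OData A`. -/
noncomputable def isoO : DataIso (Data.O A) (OData A) where
  e0 := LinearEquiv.refl A A[X]
  e1 := LinearEquiv.refl A A[X]
  e01 := cf A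
  hX := fun _ => rfl
  hZ := fun _ => rfl
  hT := fun m => cf_T_mul m
  hj0 := fun p => cf_toLaurent p
  hj1 := fun p => cf_invert_toLaurent p

/-- **P1-O**. -/
theorem stmt_O : Fermat.Agent.S25.P1.Stmt_O.{u} := by
  intro A _
  refine ⟨(isoO (A := A)).symm.isVB OData_isVB, fun n hn => ⟨?_, ⟨?_⟩⟩, fun n hn => ⟨?_, ⟨?_⟩⟩⟩
  · have := subsingleton_h1_twist A n hn
    exact ((isoO (A := A)).twist n).h1Equiv.toEquiv.subsingleton
  · exact (((isoO (A := A)).twist n).h0Equiv).trans (h0EquivTwist A n)
  · have := subsingleton_h0_twist A n (by omega)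
    have hs : Subsingleton ((Data.O A).twist n).H0 :=
      ((isoO (A := A)).twist n).h0Equiv.toEquiv.subsingleton
    exact Submodule.eq_bot_of_subsingleton
  · exact (((isoO (A := A)).twist n).h1Equiv).trans (h1EquivTwist A n)

end Fermat.Agent.S25.P1.H22OF
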