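import Mathlib
import Fermat.Agent.S25.P1.DefsC
import Fermat.Agent.S25.P1.H22_FG
import Fermat.Agent.S25.P1.H36_Tw

/-!
# S25, package P1, leaf FIBFIN (helper45)

The cohomology of the fibres of a vector bundle (two-chart data) is finite-dimensional.

* `H1`: `H22.stmt_FG` on the fibre (a vector bundle by `H36.baseChange_isVB`).
* `H0`: over a field `K`, with `N0 ⊂ K[X]^r` (`Proj0`): the first components of the global sections
  have bounded degree (`degree_bound`), so `H0` embeds into a finite-dimensional space of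
  polynomial vectors.  The bound: `j1 N1` is spanned by the `T^(-e) (j1 t_l)`, `t_l` the generators
  of `N1` over `K[1/x]`, and `T^(k_l) (j1 t_l) = j0 n_l`.

Main results: `h0_finite`, `h1_finite`, `stmt_FIBFIN : Stmt_FIBFIN`.
Complete proofs, standard axioms only.
-/

set_option autoImplicit false

universe u

open Polynomial TensorProduct

namespace Fermat.Agent.S25.P1.H45

open Fermat.Agent.S25.P1

section Ring

variable {A : Type u} [CommRing A] (N : Data A)

/-- `Proj0` gives `FG0`. -/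
theorem fg0_of_proj0 (h : N.Proj0) : N.FG0 := by
  obtain ⟨r, i, p, hpi, hiX, hpX⟩ := h
  classical
  refine ⟨Finset.univ.image (fun l : Fin r => p (Pi.single l (1 : A[X]))), ?_⟩
  rw [eq_top_iff]
  intro n _
  have hpow : ∀ (e : ℕ) (v : Fin r → A[X]), p ((X : A[X]) ^ e • v) = (N.X0 ^ e) (p v) := by
    intro e
    induction e with
    | zero => intro v; simp
    | succ e ih =>
      intro v
      rw [pow_succ', mul_smul, hpX, ih, pow_succ', Module.End.mul_apply]
  -- every `p v` is in the span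
  have key : ∀ v : Fin r → A[X], p v ∈ Submodule.span A
      {y | ∃ (k : ℕ) (s : N.N0),
        s ∈ Finset.univ.image (fun l : Fin r => p (Pi.single l (1 : A[X]))) ∧
          y = (N.X0 ^ k) s} := by
    intro v
    have hv : v = ∑ l : Fin r, Pi.single l (v l) := (Finset.univ_sum_single v).symm
    rw [hv, map_sum]
    refine Submodule.sum_mem _ (fun l _ => ?_)
    induction (v l) using Polynomial.induction_on' with
    | add q q' hq hq' =>
      rw [Pi.single_add, map_add]
      exact Submodule.add_mem _ hq hq'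
    | monomial e c =>
      have h1 : (Pi.single l (monomial e c) : Fin r → A[X]) =
          c • ((X : A[X]) ^ e • Pi.single l (1 : A[X])) := by
        ext j
        by_cases hj : j = l
        · subst hj
          simp [← C_mul_X_pow_eq_monomial, Polynomial.smul_eq_C_mul]
        · simp [Pi.single_eq_of_ne hj]
      rw [h1, map_smul, hpow]
      refine Submodule.smul_mem _ _ (Submodule.subset_span ⟨e, _, ?_, rfl⟩)
      exact Finset.mem_image.mpr ⟨l, Finset.mem_univ _, rfl⟩
  have := key (i n)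
  rwa [hpi] at this

/-- `p (X^e • v) = X0^e (p v)`. -/
theorem proj_pow {M : Type u} [AddCommGroup M] [Module A M] (φ : M →ₗ[A] M) {r : ℕ}
    (p : (Fin r → A[X]) →ₗ[A] M) (hpX : ∀ v, p ((X : A[X]) • v) = φ (p v))
    (e : ℕ) (v : Fin r → A[X]) : p ((X : A[X]) ^ e • v) = (φ ^ e) (p v) := by
  induction e generalizing v with
  | zero => simp
  | succ e ih => rw [pow_succ', mul_smul, hpX, ih, pow_succ', Module.End.mul_apply]

/-- `i (X0^e n) = X^e • i n`. -/
theorem incl_pow {M : Type u} [AddCommGroup M] [Module A M] (φ : M →ₗ[A] M) {r : ℕ}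
    (i : M →ₗ[A] (Fin r → A[X])) (hiX : ∀ n, i (φ n) = (X : A[X]) • i n)
    (e : ℕ) (n : M) : i ((φ ^ e) n) = (X : A[X]) ^ e • i n := by
  induction e generalizing n with
  | zero => simp
  | succ e ih => rw [pow_succ', Module.End.mul_apply, hiX, ih, pow_succ', mul_smul]

/-- A module embedded `X`-equivariantly in `A[X]^r` has no `X`-torsion. -/
theorem eq_zero_of_pow_eq_zero {M : Type u} [AddCommGroup M] [Module A M] (φ : M →ₗ[A] M) {r : ℕ}
    (i : M →ₗ[A] (Fin r → A[X])) (p : (Fin r → A[X]) →ₗ[A] M) (hpi : ∀ n, p (i n) = n)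
    (hiX : ∀ n, i (φ n) = (X : A[X]) • i n) (e : ℕ) (n : M) (h : (φ ^ e) n = 0) : n = 0 := by
  have h1 : (X : A[X]) ^ e • i n = 0 := by rw [← incl_pow φ i hiX, h, map_zero]
  have h2 : i n = 0 := by
    funext j
    have h3 := congrFun h1 j
    simp only [Pi.smul_apply, smul_eq_mul, Pi.zero_apply] at h3
    ext d
    rw [← coeff_X_pow_mul (i n j) e d, h3]
    simp
  rw [← hpi n, h2, map_zero]

/-- `j0` is injective for localising data with `Proj0`. -/
theorem j0_injective (hloc : N.IsLoc) (h0 : N.Proj0) : Function.Injective N.j0 := by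
  obtain ⟨r, i, p, hpi, hiX, -⟩ := h0
  rw [injective_iff_map_eq_zero]
  intro n hn
  obtain ⟨k, hk⟩ := hloc.ker0 n hn
  exact eq_zero_of_pow_eq_zero N.X0 i p hpi hiX k n hk

/-- `j1` is injective for localising data with `Proj1`. -/
theorem j1_injective (hloc : N.IsLoc) (h1 : N.Proj1) : Function.Injective N.j1 := by
  obtain ⟨r, i, p, hpi, hiX, -⟩ := h1
  rw [injective_iff_map_eq_zero]
  intro n hn
  obtain ⟨k, hk⟩ := hloc.ker1 n hn
  exact eq_zero_of_pow_eq_zero N.Z1 i p hpi hiX k n hk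

end Ring

section Field

variable {K : Type u} [Field K] (N : Data K)

/-- `m ∈ N01` has degree `≤ d` with respect to the chart `i : N0 → K[X]^r`. -/
def Bdd {r : ℕ} (i : N.N0 →ₗ[K] (Fin r → K[X])) (d : ℕ) (m : N.N01) : Prop :=
  ∃ (e : ℕ) (a : N.N0), (N.T ^ (e : ℤ)) m = N.j0 a ∧ ∀ j, (i a j).natDegree ≤ d + e

variable {N} {r : ℕ} {i : N.N0 →ₗ[K] (Fin r → K[X])} {d : ℕ}

theorem Bdd.zero : Bdd N i d 0 := ⟨0, 0, by simp, by simp⟩

theorem Bdd.mono {d' : ℕ} (hd : d ≤ d') {m : N.N01} (h : Bdd N i d m) : Bdd N i d' m := by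
  obtain ⟨e, a, h1, h2⟩ := h
  exact ⟨e, a, h1, fun j => (h2 j).trans (by omega)⟩

theorem Bdd.smul (c : K) {m : N.N01} (h : Bdd N i d m) : Bdd N i d (c • m) := by
  obtain ⟨e, a, h1, h2⟩ := h
  refine ⟨e, c • a, by rw [map_smul, h1, map_smul], fun j => ?_⟩
  rw [map_smul, Pi.smul_apply]
  exact (natDegree_smul_le c _).trans (h2 j)

theorem natDegree_incl_pow_le (hiX : ∀ n, i (N.X0 n) = (X : K[X]) • i n) (e : ℕ) (a : N.N0)
    (j : Fin r) : (i ((N.X0 ^ e) a) j).natDegree ≤ (i a j).natDegree + e := by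
  rw [incl_pow N.X0 i hiX, Pi.smul_apply, smul_eq_mul]
  refine natDegree_mul_le.trans ?_
  have := natDegree_X_pow_le (R := K) e
  omega

theorem Bdd.add (hiX : ∀ n, i (N.X0 n) = (X : K[X]) • i n) {m₁ m₂ : N.N01}
    (h₁ : Bdd N i d m₁) (h₂ : Bdd N i d m₂) : Bdd N i d (m₁ + m₂) := by
  obtain ⟨e₁, a₁, h1, h2⟩ := h₁
  obtain ⟨e₂, a₂, h3, h4⟩ := h₂
  refine ⟨e₁ + e₂, (N.X0 ^ e₂) a₁ + (N.X0 ^ e₁) a₂, ?_, fun j => ?_⟩
  · rw [map_add, map_add, H22.j0_pow, H22.j0_pow, ← h1, ← h3, ← LinearEquiv.mul_apply,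
      ← LinearEquiv.mul_apply, ← zpow_add, ← zpow_add]
    push_cast
    rw [add_comm (e₂ : ℤ) (e₁ : ℤ)]
  · rw [map_add, Pi.add_apply]
    refine (natDegree_add_le _ _).trans (max_le ?_ ?_)
    · exact (natDegree_incl_pow_le hiX e₂ a₁ j).trans (by have := h2 j; omega)
    · exact (natDegree_incl_pow_le hiX e₁ a₂ j).trans (by have := h4 j; omega)

theorem Bdd.zpow_neg (e' : ℕ) {m : N.N01} (h : Bdd N i d m) :
    Bdd N i d ((N.T ^ (-(e' : ℤ))) m) := by
  obtain ⟨e, a, h1, h2⟩ := h
  refine ⟨e + e', a, ?_, fun j => (h2 j).trans (by omega)⟩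
  rw [← LinearEquiv.mul_apply, ← zpow_add]
  push_cast
  rw [add_neg_cancel_right, h1]

theorem Bdd.sum (hiX : ∀ n, i (N.X0 n) = (X : K[X]) • i n) {ι : Type*} (s : Finset ι)
    (f : ι → N.N01) (h : ∀ l ∈ s, Bdd N i d (f l)) : Bdd N i d (∑ l ∈ s, f l) := by
  classical
  induction s using Finset.induction_on with
  | empty => simpa using Bdd.zero
  | insert a s ha ih =>
    rw [Finset.sum_insert ha]
    exact Bdd.add hiX (h a (Finset.mem_insert_self a s))
      (ih (fun l hl => h l (Finset.mem_insert_of_mem hl)))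

/-- The image of `N1` in `N01` has bounded degree with respect to a chart of `N0`. -/
theorem exists_bdd_j1 (hloc : N.IsLoc) (hiX : ∀ n, i (N.X0 n) = (X : K[X]) • i n)
    (h1 : N.Proj1) : ∃ d : ℕ, ∀ b : N.N1, Bdd N i d (N.j1 b) := by
  classical
  obtain ⟨r₁, i₁, p₁, hpi₁, -, hpX₁⟩ := h1
  -- the generators
  have hgen : ∀ l : Fin r₁, ∃ dl : ℕ, Bdd N i dl (N.j1 (p₁ (Pi.single l (1 : K[X])))) := by
    intro l
    obtain ⟨k, n, hk⟩ := hloc.surj0 (N.j1 (p₁ (Pi.single l (1 : K[X]))))
    rw [H22.toLinearMap_pow_apply] at hk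
    refine ⟨Finset.univ.sup (fun j : Fin r => (i n j).natDegree), k, n, hk, fun j => ?_⟩
    have := Finset.le_sup (f := fun j : Fin r => (i n j).natDegree) (Finset.mem_univ j)
    exact this.trans (Nat.le_add_right _ _)
  choose dl hdl using hgen
  refine ⟨Finset.univ.sup dl, fun b => ?_⟩
  have hmono : ∀ l : Fin r₁,
      Bdd N i (Finset.univ.sup dl) (N.j1 (p₁ (Pi.single l (1 : K[X])))) :=
    fun l => (hdl l).mono (Finset.le_sup (f := dl) (Finset.mem_univ l))
  have key : ∀ v : Fin r₁ → K[X], Bdd N i (Finset.univ.sup dl) (N.j1 (p₁ v)) := by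
    intro v
    have hv : v = ∑ l : Fin r₁, Pi.single l (v l) := (Finset.univ_sum_single v).symm
    rw [hv, map_sum, map_sum]
    refine Bdd.sum hiX _ _ (fun l _ => ?_)
    induction (v l) using Polynomial.induction_on' with
    | add q q' hq hq' =>
      rw [Pi.single_add, map_add, map_add]
      exact Bdd.add hiX hq hq'
    | monomial e c =>
      have h1 : (Pi.single l (monomial e c) : Fin r₁ → K[X]) =
          c • ((X : K[X]) ^ e • Pi.single l (1 : K[X])) := by
        ext j
        by_cases hj : j = l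
        · subst hj
          simp [← C_mul_X_pow_eq_monomial, Polynomial.smul_eq_C_mul]
        · simp [Pi.single_eq_of_ne hj]
      rw [h1, map_smul, map_smul, proj_pow N.Z1 p₁ hpX₁, H22.j1_pow]
      exact ((hmono l).zpow_neg e).smul c
  have := key (i₁ b)
  rwa [hpi₁] at this

/-- The first components of the global sections have bounded degree. -/
theorem exists_degree_bound (h : N.IsVB) :
    ∃ (r : ℕ) (i : N.N0 →ₗ[K] (Fin r → K[X])) (p : (Fin r → K[X]) →ₗ[K] N.N0) (d : ℕ),
      (∀ n, p (i n) = n) ∧ ∀ x : N.N0 × N.N1, x ∈ N.H0 → ∀ j, (i x.1 j).natDegree ≤ d := by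
  obtain ⟨r, i, p, hpi, hiX, hpX⟩ := h.proj0
  obtain ⟨d, hd⟩ := exists_bdd_j1 (i := i) h.loc hiX h.proj1
  refine ⟨r, i, p, d, hpi, fun x hx j => ?_⟩
  have hx' : N.j0 x.1 = N.j1 x.2 := hx
  obtain ⟨e, a, h1, h2⟩ := hd x.2
  rw [← hx', ← H22.j0_pow] at h1
  have h3 : (N.X0 ^ e) x.1 = a := j0_injective N h.loc h.proj0 h1
  have h4 := h2 j
  rw [← h3, incl_pow N.X0 i hiX, Pi.smul_apply, smul_eq_mul] at h4
  by_cases h0 : i x.1 j = 0
  · rw [h0]; simp
  · rw [natDegree_X_pow_mul e h0] at h4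
    omega

/-- **Finiteness of `H0` over a field.** -/
theorem h0_finite (h : N.IsVB) : Module.Finite K N.H0 := by
  obtain ⟨r, i, p, d, hpi, hd⟩ := exists_degree_bound h
  -- the coefficient map
  let Ψ : N.H0 →ₗ[K] (Fin r → Fin (d + 1) → K) :=
    { toFun := fun x j c => (i x.1.1 j).coeff (c : ℕ)
      map_add' := fun x y => by
        funext j c
        simp
      map_smul' := fun a x => by
        funext j c
        simp }
  have hΨ : Function.Injective Ψ := by
    rw [injective_iff_map_eq_zero]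
    intro x hx
    have h1 : i x.1.1 = 0 := by
      funext j
      ext c
      rw [Pi.zero_apply, coeff_zero]
      by_cases hc : c ≤ d
      · have := congrFun (congrFun hx j) ⟨c, Nat.lt_succ_of_le hc⟩
        exact this
      · exact coeff_eq_zero_of_natDegree_lt (lt_of_le_of_lt (hd x.1 x.2 j) (not_le.mp hc))
    have h2 : x.1.1 = 0 := by rw [← hpi x.1.1, h1, map_zero]
    have h3 : N.j1 x.1.2 = 0 := by
      have hx' : N.j0 x.1.1 = N.j1 x.1.2 := x.2
      rw [← hx', h2, map_zero]
    have h4 : x.1.2 = 0 := j1_injective N h.loc h.proj1 (by rw [h3, map_zero])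
    apply Subtype.ext
    exact Prod.ext h2 h4
  exact Module.Finite.of_injective Ψ hΨ

/-- **Finiteness of `H1` over a field** (any ring, in fact: `H22.stmt_FG`). -/
theorem h1_finite (h : N.IsVB) : Module.Finite K N.H1 :=
  H22.stmt_FG K N h.loc (fg0_of_proj0 N h.proj0)

end Field

/-- **P1-FIBFIN**: the cohomology of the fibres of a vector bundle is finite-dimensional. -/
theorem stmt_FIBFIN : Stmt_FIBFIN.{u} := by
  intro A _ N h p
  have hfib : (N.fibre p).IsVB := H36.baseChange_isVB p.asIdeal.ResidueField N h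
  exact ⟨h0_finite hfib, h1_finite hfib⟩

end Fermat.Agent.S25.P1.H45
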