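/-
helper64, S25 package P1, leaf P1-NAK (`Stmt_NAK` of `S25/P1/DefsC.lean`).

If `H1` of the fibre of a vector bundle at a prime `p` vanishes, then `H1` vanishes over a principal
open neighbourhood `D(f)` of `p`.  Proof: `H1 N` is a finite `A`-module (P1-FG), `H1` commutes with every
base change (P1-BC1), so `κ(p) ⊗ H1 N = 0`; hence `p` is not in the support of `H1 N`, which is the zero
locus of the annihilator; an element `f` of the annihilator outside `p` kills `H1 N`, so
`A_f ⊗ H1 N = 0`, and P1-BC1 again.
-/
import Mathlib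
import Fermat.Agent.S25.P1.DefsC
import Fermat.Agent.S25.P1.H22_FG
import Fermat.Agent.S25.P1.H61_BC1
import Fermat.Agent.S25.P1.H83_H1FP

set_option autoImplicit false

universe u

open TensorProduct

namespace Fermat.Agent.S25.P1.H64

/-- Nakayama in the form used here: a finite module with vanishing fibre at `p` is killed by some
`f ∉ p`. -/
theorem exists_notMem_smul_eq_zero {A : Type u} [CommRing A] (M : Type u) [AddCommGroup M]
    [Module A M] [Module.Finite A M] (p : PrimeSpectrum A)
    (h : Subsingleton (p.asIdeal.ResidueField ⊗[A] M)) :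
    ∃ f : A, f ∉ p.asIdeal ∧ ∀ m : M, f • m = 0 := by
  have hp : p ∉ Module.support A M := by
    rw [Module.mem_support_iff_nontrivial_residueField_tensorProduct]
    exact not_nontrivial _
  rw [Module.support_eq_zeroLocus, PrimeSpectrum.mem_zeroLocus, Set.not_subset] at hp
  obtain ⟨f, hf, hfp⟩ := hp
  exact ⟨f, hfp, fun m => Module.mem_annihilator.mp hf m⟩

/-- A module killed by `f` dies after tensoring with `A_f`. -/
theorem subsingleton_away_tensor {A : Type u} [CommRing A] (M : Type u) [AddCommGroup M]
    [Module A M] (f : A) (hf : ∀ m : M, f • m = 0) :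
    Subsingleton (Localization.Away f ⊗[A] M) := by
  refine ⟨fun x y => ?_⟩
  suffices h : ∀ z : Localization.Away f ⊗[A] M, z = 0 by rw [h x, h y]
  intro z
  induction z using TensorProduct.induction_on with
  | zero => rfl
  | add x y hx hy => rw [hx, hy, add_zero]
  | tmul a m =>
    have hu : IsUnit (algebraMap A (Localization.Away f) f) :=
      IsLocalization.Away.algebraMap_isUnit f
    obtain ⟨u, hu⟩ := hu
    have h1 : a = (a * ↑u⁻¹) * algebraMap A (Localization.Away f) f := by
      rw [← hu, mul_assoc, Units.inv_mul, mul_one]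
    have h2 : (a * ↑u⁻¹) * algebraMap A (Localization.Away f) f = f • (a * ↑u⁻¹) := by
      rw [Algebra.smul_def, mul_comm]
    rw [h1, h2, TensorProduct.smul_tmul, hf, TensorProduct.tmul_zero]

/-- **P1-NAK**. -/
theorem stmt_NAK : Stmt_NAK.{u} := by
  intro A _ N hN p hfib
  haveI hfin : Module.Finite A N.H1 := H22.stmt_FG A N hN.loc (H83.fg0_of_proj0 N hN.proj0)
  obtain ⟨e, -⟩ := H61.stmt_BC1 A N p.asIdeal.ResidueField
  have hsub : Subsingleton (p.asIdeal.ResidueField ⊗[A] N.H1) := by
    haveI := hfib
    exact e.toEquiv.subsingleton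
  obtain ⟨f, hfp, hf⟩ := exists_notMem_smul_eq_zero N.H1 p hsub
  refine ⟨f, hfp, ?_⟩
  obtain ⟨e', -⟩ := H61.stmt_BC1 A N (Localization.Away f)
  haveI := subsingleton_away_tensor N.H1 f hf
  exact e'.symm.toEquiv.subsingleton

end Fermat.Agent.S25.P1.H64
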