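import Mathlib
import Fermat.Agent.S25.P1.Defs

/-!
# S25, package P1, leaf BC1 (helper85): `H1` commutes with every base change

`H1 N = N01 / (j0 N0 + j1 N1)` is a cokernel, and the tensor product is right exact.
-/

set_option autoImplicit false

universe u

open TensorProduct

namespace Fermat.Agent.S25.P1.H85

variable {A : Type u} [CommRing A]

/-- the base change of the quotient map `N01 → H1` -/
noncomputable def bcQuot (N : Data A) (A' : Type u) [CommRing A'] [Algebra A A'] :
    A' ⊗[A] N.N01 →ₗ[A'] A' ⊗[A] N.H1 :=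
  (N.B1.mkQ).baseChange A'

theorem bcQuot_tmul (N : Data A) (A' : Type u) [CommRing A'] [Algebra A A'] (a : A')
    (m : N.N01) : bcQuot N A' (a ⊗ₜ[A] m) = a ⊗ₜ[A] (Submodule.Quotient.mk m : N.H1) := rfl

theorem bcQuot_surjective (N : Data A) (A' : Type u) [CommRing A'] [Algebra A A'] :
    Function.Surjective (bcQuot N A') := by
  intro y
  induction y using TensorProduct.induction_on with
  | zero => exact ⟨0, map_zero _⟩
  | tmul a h =>
    obtain ⟨m, rfl⟩ := Submodule.Quotient.mk_surjective _ h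
    exact ⟨a ⊗ₜ[A] m, rfl⟩
  | add x y hx hy =>
    obtain ⟨x', rfl⟩ := hx
    obtain ⟨y', rfl⟩ := hy
    exact ⟨x' + y', map_add _ _ _⟩

/-- the coboundaries of the base change are killed by the base change of the quotient map -/
theorem bcB1_le_ker (N : Data A) (A' : Type u) [CommRing A'] [Algebra A A'] :
    LinearMap.range (N.j0.baseChange A') ⊔ LinearMap.range (N.j1.baseChange A') ≤
      LinearMap.ker (bcQuot N A') := by
  have h0 : ∀ x : A' ⊗[A] N.N0, bcQuot N A' ((N.j0.baseChange A') x) = 0 := by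
    intro x
    induction x using TensorProduct.induction_on with
    | zero => simp
    | tmul a n =>
      rw [LinearMap.baseChange_tmul, bcQuot_tmul]
      have : (Submodule.Quotient.mk (N.j0 n) : N.H1) = 0 :=
        (Submodule.Quotient.mk_eq_zero _).2 (Submodule.mem_sup_left ⟨n, rfl⟩)
      rw [this, tmul_zero]
    | add x y hx hy => rw [map_add, map_add, hx, hy, add_zero]
  have h1 : ∀ x : A' ⊗[A] N.N1, bcQuot N A' ((N.j1.baseChange A') x) = 0 := by
    intro x
    induction x using TensorProduct.induction_on with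
    | zero => simp
    | tmul a n =>
      rw [LinearMap.baseChange_tmul, bcQuot_tmul]
      have : (Submodule.Quotient.mk (N.j1 n) : N.H1) = 0 :=
        (Submodule.Quotient.mk_eq_zero _).2 (Submodule.mem_sup_right ⟨n, rfl⟩)
      rw [this, tmul_zero]
    | add x y hx hy => rw [map_add, map_add, hx, hy, add_zero]
  refine sup_le ?_ ?_
  · rintro _ ⟨x, rfl⟩
    exact h0 x
  · rintro _ ⟨x, rfl⟩
    exact h1 x

/-- right exactness: the kernel of the base change of the quotient map is the module of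
coboundaries of the base change -/
theorem ker_bcQuot (N : Data A) (A' : Type u) [CommRing A'] [Algebra A A'] :
    LinearMap.ker (bcQuot N A') =
      LinearMap.range (N.j0.baseChange A') ⊔ LinearMap.range (N.j1.baseChange A') := by
  refine le_antisymm ?_ (bcB1_le_ker N A')
  intro x hx
  have hex : Function.Exact (N.B1.subtype.lTensor A') (N.B1.mkQ.lTensor A') :=
    lTensor_exact A' (LinearMap.exact_subtype_mkQ N.B1) (Submodule.mkQ_surjective N.B1)
  have hx' : (N.B1.mkQ.lTensor A') x = 0 := hx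
  obtain ⟨y, rfl⟩ := (hex x).1 hx'
  clear hx hx'
  induction y using TensorProduct.induction_on with
  | zero => rw [map_zero]; exact Submodule.zero_mem _
  | tmul a b =>
    obtain ⟨b, hb⟩ := b
    obtain ⟨_, ⟨n0, rfl⟩, _, ⟨n1, rfl⟩, rfl⟩ := Submodule.mem_sup.mp hb
    have : (N.B1.subtype.lTensor A') (a ⊗ₜ[A] ⟨N.j0 n0 + N.j1 n1, hb⟩) =
        (N.j0.baseChange A') (a ⊗ₜ[A] n0) + (N.j1.baseChange A') (a ⊗ₜ[A] n1) := by
      rw [LinearMap.lTensor_tmul, LinearMap.baseChange_tmul, LinearMap.baseChange_tmul,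
        ← tmul_add]
      rfl
    rw [this]
    exact Submodule.add_mem _ (Submodule.mem_sup_left ⟨_, rfl⟩)
      (Submodule.mem_sup_right ⟨_, rfl⟩)
  | add x y hx hy =>
    rw [map_add]
    exact Submodule.add_mem _ hx hy

/-- the comparison isomorphism `A' ⊗ H1 N ≃ H1 (N ⊗ A')` -/
noncomputable def bc1Equiv' (N : Data A) (A' : Type u) [CommRing A'] [Algebra A A'] :
    A' ⊗[A] N.H1 ≃ₗ[A'] (A' ⊗[A] N.N01) ⧸
      (LinearMap.range (N.j0.baseChange A') ⊔ LinearMap.range (N.j1.baseChange A')) :=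
  ((bcQuot N A').quotKerEquivOfSurjective (bcQuot_surjective N A')).symm ≪≫ₗ
    Submodule.quotEquivOfEq _ _ (ker_bcQuot N A')

theorem bc1Equiv'_tmul (N : Data A) (A' : Type u) [CommRing A'] [Algebra A A'] (a : A')
    (m : N.N01) :
    bc1Equiv' N A' (a ⊗ₜ[A] (Submodule.Quotient.mk m : N.H1)) =
      Submodule.Quotient.mk (a ⊗ₜ[A] m) := by
  have h : ((bcQuot N A').quotKerEquivOfSurjective (bcQuot_surjective N A')).symm
      (a ⊗ₜ[A] (Submodule.Quotient.mk m : N.H1)) =
      Submodule.Quotient.mk (a ⊗ₜ[A] m) := by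
    rw [LinearEquiv.symm_apply_eq]
    rfl
  unfold bc1Equiv'
  rw [LinearEquiv.trans_apply, h]
  rfl

/-- the comparison isomorphism `A' ⊗ H1 N ≃ H1 (N ⊗ A')` -/
noncomputable def bc1Equiv (N : Data A) (A' : Type u) [CommRing A'] [Algebra A A'] :
    A' ⊗[A] N.H1 ≃ₗ[A'] (N.baseChange A').H1 :=
  bc1Equiv' N A'

theorem bc1Equiv_tmul (N : Data A) (A' : Type u) [CommRing A'] [Algebra A A'] (a : A')
    (m : N.N01) :
    bc1Equiv N A' (a ⊗ₜ[A] (Submodule.Quotient.mk m : N.H1)) =
      Submodule.Quotient.mk (a ⊗ₜ[A] m) := by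
  exact bc1Equiv'_tmul N A' a m

/-- **P1-BC1**. -/
theorem stmt_BC1 : Stmt_BC1.{u} := by
  intro A _ N A' _ _
  exact ⟨bc1Equiv N A', fun a m => bc1Equiv_tmul N A' a m⟩

end Fermat.Agent.S25.P1.H85
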