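/-
helper89, S25 package P1: the fibre numbers `h0At`, `h1At` are invariant under isomorphisms of
two-chart data and under base change (the numbers at a point of `Spec A'` over `p` are those at `p`).

* `isoBaseChange`      : `Data.Iso N N' → Data.Iso (N.baseChange A') (N'.baseChange A')`;
* `h0At_iso`, `h1At_iso` : isomorphic data have the same fibre numbers;
* `finrank_H0_tower`, `finrank_H1_tower` : for `A → A' → K'`, `A → K → K'` (fields `K`, `K'`):
  `dim_K' H^i ((N ⊗ A') ⊗ K') = dim_K H^i (N ⊗ K)`;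
* `h0At_baseChange`, `h1At_baseChange` : `h^i` of `N ⊗ A'` at `p'` is `h^i` of `N` at `p' ∩ A`.
Inputs as hypotheses: `Stmt_BCTRANS`, `Stmt_FIELDEXT`, `Stmt_TW`.
-/
import Mathlib
import Fermat.Agent.S25.P1.DefsC
import Fermat.Agent.S25.P1.DefsD
import Fermat.Agent.S25.P1.H45_Iso

set_option autoImplicit false
set_option linter.style.haveILetI false

universe u

open Polynomial TensorProduct

namespace Fermat.Agent.S25.P1.H89

open Fermat.Agent.S25.P1

variable {A : Type u} [CommRing A] {N N' : Data A}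

section Sq

variable {A' : Type u} [CommRing A'] [Algebra A A']
  {M₁ M₂ M₃ M₄ : Type u} [AddCommGroup M₁] [AddCommGroup M₂] [AddCommGroup M₃] [AddCommGroup M₄]
  [Module A M₁] [Module A M₂] [Module A M₃] [Module A M₄]

theorem bc_sq (e : M₁ ≃ₗ[A] M₂) (e' : M₃ ≃ₗ[A] M₄) (g : M₁ →ₗ[A] M₃) (g' : M₂ →ₗ[A] M₄)
    (h : ∀ m, e' (g m) = g' (e m)) (x : A' ⊗[A] M₁) :
    (LinearEquiv.baseChange A A' M₃ M₄ e') (g.baseChange A' x) =
      g'.baseChange A' (LinearEquiv.baseChange A A' M₁ M₂ e x) := by
  induction x using TensorProduct.induction_on with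
  | zero => simp only [map_zero]
  | tmul a m => simp only [LinearMap.baseChange_tmul, LinearEquiv.baseChange_tmul, h]
  | add x y hx hy => simp only [map_add, hx, hy]

theorem bc_sq' (e : M₁ ≃ₗ[A] M₂) (e' : M₃ ≃ₗ[A] M₄) (g : M₁ ≃ₗ[A] M₃) (g' : M₂ ≃ₗ[A] M₄)
    (h : ∀ m, e' (g m) = g' (e m)) (x : A' ⊗[A] M₁) :
    (LinearEquiv.baseChange A A' M₃ M₄ e') (LinearEquiv.baseChange A A' M₁ M₃ g x) =
      LinearEquiv.baseChange A A' M₂ M₄ g' (LinearEquiv.baseChange A A' M₁ M₂ e x) := by
  induction x using TensorProduct.induction_on with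
  | zero => simp only [map_zero]
  | tmul a m => simp only [LinearEquiv.baseChange_tmul, h]
  | add x y hx hy => simp only [map_add, hx, hy]

end Sq

/-- Base change of an isomorphism of two-chart data. -/
noncomputable def isoBaseChange (E : Data.Iso N N') (A' : Type u) [CommRing A'] [Algebra A A'] :
    Data.Iso (N.baseChange A') (N'.baseChange A') where
  e0 := LinearEquiv.baseChange A A' _ _ E.e0
  e1 := LinearEquiv.baseChange A A' _ _ E.e1
  e01 := LinearEquiv.baseChange A A' _ _ E.e01
  e0_X := fun n => bc_sq E.e0 E.e0 N.X0 N'.X0 E.e0_X n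
  e1_Z := fun n => bc_sq E.e1 E.e1 N.Z1 N'.Z1 E.e1_Z n
  e01_T := fun n => bc_sq' E.e01 E.e01 N.T N'.T E.e01_T n
  e_j0 := fun n => bc_sq E.e0 E.e01 N.j0 N'.j0 E.e_j0 n
  e_j1 := fun n => bc_sq E.e1 E.e01 N.j1 N'.j1 E.e_j1 n

theorem finrank_H0_iso {K : Type u} [Field K] {M M' : Data K} (E : Data.Iso M M') :
    Module.finrank K M.H0 = Module.finrank K M'.H0 :=
  (H45.h0Equiv E).finrank_eq

theorem finrank_H1_iso {K : Type u} [Field K] {M M' : Data K} (E : Data.Iso M M') :
    Module.finrank K M.H1 = Module.finrank K M'.H1 :=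
  (H45.h1Equiv E).finrank_eq

theorem h0At_iso (E : Data.Iso N N') (p : PrimeSpectrum A) : N.h0At p = N'.h0At p :=
  finrank_H0_iso (isoBaseChange E p.asIdeal.ResidueField)

theorem h1At_iso (E : Data.Iso N N') (p : PrimeSpectrum A) : N.h1At p = N'.h1At p :=
  finrank_H1_iso (isoBaseChange E p.asIdeal.ResidueField)

section Tower

variable (hBCT : Stmt_BCTRANS.{u}) (hFE : Stmt_FIELDEXT.{u}) (hTW : Stmt_TW.{u})
include hBCT hFE hTW

/-- Fibre numbers in a tower `A → A' → K'`, `A → K → K'`. -/
theorem finrank_tower (N : Data A) (hN : N.IsVB) (A' : Type u) [CommRing A'] [Algebra A A']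
    (K K' : Type u) [Field K] [Field K'] [Algebra A K] [Algebra A K'] [Algebra A' K']
    [Algebra K K'] [IsScalarTower A A' K'] [IsScalarTower A K K'] :
    Module.finrank K' ((N.baseChange A').baseChange K').H0 = Module.finrank K (N.baseChange K).H0 ∧
    Module.finrank K' ((N.baseChange A').baseChange K').H1 =
      Module.finrank K (N.baseChange K).H1 := by
  obtain ⟨E1⟩ := (hBCT A N).2 A' K'
  obtain ⟨E2⟩ := (hBCT A N).2 K K'
  have hVB : (N.baseChange K).IsVB := (hTW A N).2.2.2 hN K
  obtain ⟨h0, h1⟩ := hFE K (N.baseChange K) hVB K'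
  refine ⟨?_, ?_⟩
  · rw [finrank_H0_iso E1, ← finrank_H0_iso E2, h0]
  · rw [finrank_H1_iso E1, ← finrank_H1_iso E2, h1]

/-- The fibre numbers of a base change at `p'` are the fibre numbers at the image of `p'`. -/
theorem hAt_baseChange (N : Data A) (hN : N.IsVB) (A' : Type u) [CommRing A'] [Algebra A A']
    (p' : PrimeSpectrum A') (p : PrimeSpectrum A)
    (hp : p.asIdeal = p'.asIdeal.comap (algebraMap A A')) :
    (N.baseChange A').h0At p' = N.h0At p ∧ (N.baseChange A').h1At p' = N.h1At p := by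
  letI : Algebra p.asIdeal.ResidueField p'.asIdeal.ResidueField :=
    (Ideal.ResidueField.map p.asIdeal p'.asIdeal (algebraMap A A') hp).toAlgebra
  haveI : IsScalarTower A p.asIdeal.ResidueField p'.asIdeal.ResidueField :=
    IsScalarTower.of_algebraMap_eq' (by
      ext r
      rw [RingHom.comp_apply, RingHom.algebraMap_toAlgebra, Ideal.ResidueField.map_algebraMap,
        ← IsScalarTower.algebraMap_apply])
  exact finrank_tower hBCT hFE hTW N hN A' p.asIdeal.ResidueField p'.asIdeal.ResidueField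

end Tower

section TripleIso

variable {k : Type u} [Field k] {𝒞 : LB.CurveDatum k} {R : Type u} [CommRing R] [Algebra k R]
  {L L' : LB.Triple 𝒞 R}

/-- An isomorphism of triples induces an isomorphism of their two-chart data. -/
noncomputable def dataIsoOfTripleIso (E : LB.Triple.Iso L L') : Data.Iso L.toData L'.toData where
  e0 :=
    letI := L.modR0
    letI := L'.modR0
    ({ toFun := fun p => E.e0 p
       invFun := fun p => E.e0.symm p
       map_add' := fun p q => map_add E.e0 p q
       map_smul' := fun r p => E.e0.map_smul (algebraMap R (R ⊗[k] 𝒞.B0) r) p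
       left_inv := E.e0.left_inv
       right_inv := E.e0.right_inv } : L.P0 ≃ₗ[R] L'.P0)
  e1 :=
    letI := L.modR1
    letI := L'.modR1
    ({ toFun := fun p => E.e1 p
       invFun := fun p => E.e1.symm p
       map_add' := fun p q => map_add E.e1 p q
       map_smul' := fun r p => E.e1.map_smul (algebraMap R (R ⊗[k] 𝒞.B1) r) p
       left_inv := E.e1.left_inv
       right_inv := E.e1.right_inv } : L.P1 ≃ₗ[R] L'.P1)
  e01 :=
    letI := L.modR01
    letI := L'.modR01
    ({ toFun := fun p => E.e01 p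
       invFun := fun p => E.e01.symm p
       map_add' := fun p q => map_add E.e01 p q
       map_smul' := fun r p => E.e01.map_smul (algebraMap R (R ⊗[k] 𝒞.B01) r) p
       left_inv := E.e01.left_inv
       right_inv := E.e01.right_inv } : L.P01 ≃ₗ[R] L'.P01)
  e0_X := fun p => E.e0.map_smul ((1 : R) ⊗ₜ[k] 𝒞.x0) p
  e1_Z := fun p => E.e1.map_smul ((1 : R) ⊗ₜ[k] 𝒞.z1) p
  e01_T := fun p => E.e01.map_smul ((1 : R) ⊗ₜ[k] 𝒞.i0 𝒞.x0) p
  e_j0 := fun p => E.comm0 p
  e_j1 := fun p => E.comm1 p

end TripleIso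

end Fermat.Agent.S25.P1.H89
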